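import Mathlib
import Fermat.Prelude.Def_FLTPrelim_Modularity

set_option autoImplicit false

/-!
# S58: the rational curve of an integral Weierstrass model

`EQ W` is the base change of `W : WeierstrassCurve ℤ` to `ℚ`; every E-side brick of S58 is stated
for the points `((EQ W)⁄AlgebraicClosure ℚ).Point` with Mathlib's Galois action.
-/

namespace Fermat.Agent.S58.Curve

open WeierstrassCurve

/-- The curve over `ℚ` defined by an integral Weierstrass equation. -/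
def EQ (W : WeierstrassCurve ℤ) : WeierstrassCurve ℚ := W.map (Int.castRingHom ℚ)

theorem isIntegralModelOf_EQ (W : WeierstrassCurve ℤ) : W.IsIntegralModelOf (EQ W) :=
  ⟨1, one_smul _ _⟩

@[simp] theorem EQ_a₁ (W : WeierstrassCurve ℤ) : (EQ W).a₁ = (W.a₁ : ℚ) := rfl
@[simp] theorem EQ_a₂ (W : WeierstrassCurve ℤ) : (EQ W).a₂ = (W.a₂ : ℚ) := rfl
@[simp] theorem EQ_a₃ (W : WeierstrassCurve ℤ) : (EQ W).a₃ = (W.a₃ : ℚ) := rfl
@[simp] theorem EQ_a₄ (W : WeierstrassCurve ℤ) : (EQ W).a₄ = (W.a₄ : ℚ) := rfl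
@[simp] theorem EQ_a₆ (W : WeierstrassCurve ℤ) : (EQ W).a₆ = (W.a₆ : ℚ) := rfl

theorem EQ_Δ (W : WeierstrassCurve ℤ) : (EQ W).Δ = (W.Δ : ℚ) := by
  rw [EQ, WeierstrassCurve.map_Δ]; rfl

theorem EQ_c₄ (W : WeierstrassCurve ℤ) : (EQ W).c₄ = (W.c₄ : ℚ) := by
  rw [EQ, WeierstrassCurve.map_c₄]; rfl

local notation "Qb" => AlgebraicClosure ℚ

open scoped WeierstrassCurve.Affine

theorem baseChange_a₁ (W : WeierstrassCurve ℤ) : ((EQ W)⁄Qb).a₁ = ((W.a₁ : ℤ) : Qb) := by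
  change algebraMap ℚ Qb ((W.a₁ : ℤ) : ℚ) = _
  exact map_intCast (algebraMap ℚ Qb) _

theorem baseChange_a₂ (W : WeierstrassCurve ℤ) : ((EQ W)⁄Qb).a₂ = ((W.a₂ : ℤ) : Qb) := by
  change algebraMap ℚ Qb ((W.a₂ : ℤ) : ℚ) = _
  exact map_intCast (algebraMap ℚ Qb) _

theorem baseChange_a₃ (W : WeierstrassCurve ℤ) : ((EQ W)⁄Qb).a₃ = ((W.a₃ : ℤ) : Qb) := by
  change algebraMap ℚ Qb ((W.a₃ : ℤ) : ℚ) = _
  exact map_intCast (algebraMap ℚ Qb) _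

theorem baseChange_a₄ (W : WeierstrassCurve ℤ) : ((EQ W)⁄Qb).a₄ = ((W.a₄ : ℤ) : Qb) := by
  change algebraMap ℚ Qb ((W.a₄ : ℤ) : ℚ) = _
  exact map_intCast (algebraMap ℚ Qb) _

theorem baseChange_a₆ (W : WeierstrassCurve ℤ) : ((EQ W)⁄Qb).a₆ = ((W.a₆ : ℤ) : Qb) := by
  change algebraMap ℚ Qb ((W.a₆ : ℤ) : ℚ) = _
  exact map_intCast (algebraMap ℚ Qb) _

end Fermat.Agent.S58.Curve
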