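import Mathlib
import Fermat.Agent.S13.InertiaSq
import Fermat.Agent.S13.KerRedGroup
import Fermat.Agent.S13.KerRedGen

set_option autoImplicit false

/-!
# Node model: a semilinear additive map close to the identity is unipotent modulo `E₁`

`V` a Weierstrass curve over a valued field `(K, v)` in node form (`a₃ = a₆ = 0`, `a₁, a₂` integral,
`a₄` a nonzero element of the maximal ideal, `b₂ = a₁² + 4a₂` a unit), `T = (0, 0)` its `2`-torsion
point at the node.  Let `g : V(K) →+ V(K)` be additive with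
`g (x, y) = (f x + ξ, f y + η)`, where `f` is a valuation-preserving ring endomorphism of `K`
congruent to the identity modulo the maximal ideal and `ξ, η` lie in the maximal ideal
(so `g T = (ξ, η)` may differ from `T`).  Then for every point `Q`

* `g Q - Q ∈ E₀ ∪ {O}` (`sub_mem_E0`), and `g Q - Q ∈ E₁ ∪ {O}` when `Q ∈ E₀ ∪ {O}` (`sub_mem_E1`);
* hence `(g - 1)² Q ∈ E₁ ∪ {O}` (`sq_mem_E1`).

Here `E₁` = affine points with non-integral `x`, `E₀` = affine points with `1 ≤ v x`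
(`Fermat.Agent.S13.InertiaSq.InE1 / InE0`).  The case `ξ = η = 0` is
`Fermat.Agent.S13.InertiaSq.node_sq`; the new case is the one where `g` moves `T`.
-/

namespace Fermat.Agent.S58.UnipNode

open WeierstrassCurve WeierstrassCurve.Affine
open Fermat.Agent.S13.InertiaSq

variable {K : Type*} [Field K] {Γ₀ : Type*} [LinearOrderedCommGroupWithZero Γ₀]
  (v : Valuation K Γ₀)

section Basic

variable [DecidableEq K]

omit [DecidableEq K] in
lemma inE1_some_iff {V : Affine K} {x y : K} (h : V.Nonsingular x y) :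
    InE1 v V (Point.some x y h) ↔ 1 < v x := by
  constructor
  · rintro (h0 | ⟨x', y', h', e, hx⟩)
    · exact absurd h0 (Point.some_ne_zero h)
    · rw [Point.some.injEq] at e
      rw [e.1]; exact hx
  · exact fun hx => Or.inr ⟨x, y, h, rfl, hx⟩

omit [DecidableEq K] in
lemma inE0_some_iff {V : Affine K} {x y : K} (h : V.Nonsingular x y) :
    InE0 v V (Point.some x y h) ↔ 1 ≤ v x := by
  constructor
  · rintro (h0 | ⟨x', y', h', e, hx⟩)
    · exact absurd h0 (Point.some_ne_zero h)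
    · rw [Point.some.injEq] at e
      rw [e.1]; exact hx
  · exact fun hx => Or.inr ⟨x, y, h, rfl, hx⟩

omit [DecidableEq K] in
lemma inE1_iff_kerRed {V : Affine K} {Q : V.Point} :
    InE1 v V Q ↔ Fermat.Agent.S13.KerRedGroup.KerRed v V Q := by
  constructor
  · rintro (h0 | ⟨x, y, h, rfl, hx⟩)
    · exact Or.inl h0
    · exact Or.inr ⟨x, ⟨y, h, rfl⟩, hx⟩
  · rintro (h0 | ⟨x, ⟨y, h, rfl⟩, hx⟩)
    · exact Or.inl h0
    · exact Or.inr ⟨x, y, h, rfl, hx⟩

lemma inE0_neg {V : Affine K} {Q : V.Point} (h : InE0 v V Q) : InE0 v V (-Q) := by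
  rcases h with rfl | ⟨x, y, h, rfl, hx⟩
  · left; exact neg_zero
  · right
    exact ⟨x, _, _, Point.neg_some h, hx⟩

lemma inE1_neg {V : Affine K} {Q : V.Point} (h : InE1 v V Q) : InE1 v V (-Q) := by
  rcases h with rfl | ⟨x, y, h, rfl, hx⟩
  · left; exact neg_zero
  · right
    exact ⟨x, _, _, Point.neg_some h, hx⟩

/-- `E₁ ∪ {O}` is closed under subtraction (integral coefficients). -/
lemma inE1_sub {V : Affine K} (h₁ : v V.a₁ ≤ 1) (h₂ : v V.a₂ ≤ 1) (h₃ : v V.a₃ ≤ 1)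
    (h₄ : v V.a₄ ≤ 1) (h₆ : v V.a₆ ≤ 1) {P Q : V.Point} (hP : InE1 v V P) (hQ : InE1 v V Q) :
    InE1 v V (P - Q) := by
  have hB := Fermat.Agent.S13.KerRedGen.intB_of_coeffs (v := v) h₁ h₂ h₃ h₄ h₆
  rw [inE1_iff_kerRed] at hP hQ ⊢
  exact Fermat.Agent.S13.KerRedGroup.kerRed_sub v hB.b₂ hB.b₄ hB.b₆ hB.b₈ hP hQ

/-- `E₁ ∪ {O}` is closed under addition (integral coefficients). -/
lemma inE1_add {V : Affine K} (h₁ : v V.a₁ ≤ 1) (h₂ : v V.a₂ ≤ 1) (h₃ : v V.a₃ ≤ 1)
    (h₄ : v V.a₄ ≤ 1) (h₆ : v V.a₆ ≤ 1) {P Q : V.Point} (hP : InE1 v V P) (hQ : InE1 v V Q) :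
    InE1 v V (P + Q) := by
  have hB := Fermat.Agent.S13.KerRedGen.intB_of_coeffs (v := v) h₁ h₂ h₃ h₄ h₆
  rw [inE1_iff_kerRed] at hP hQ ⊢
  exact Fermat.Agent.S13.KerRedGroup.kerRed_add v hB.b₂ hB.b₄ hB.b₆ hB.b₈ hP hQ

/-- The sum of a point of `E₁ ∪ {O}` and a point of `E₀ ∪ {O}` lies in `E₀ ∪ {O}`. -/
theorem inE0_add {V : Affine K} (h₁ : v V.a₁ ≤ 1) (h₂ : v V.a₂ ≤ 1) (h₃ : v V.a₃ ≤ 1)
    (h₄ : v V.a₄ ≤ 1) (h₆ : v V.a₆ ≤ 1) {P R : V.Point} (hP : InE1 v V P) (hR : InE0 v V R) :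
    InE0 v V (P + R) := by
  rcases hP with rfl | ⟨xS, yS, hS, rfl, hxS⟩
  · rw [zero_add]; exact hR
  rcases hR with rfl | ⟨xD, yD, hD, rfl, hxD⟩
  · rw [add_zero]; exact Or.inr ⟨xS, yS, hS, rfl, hxS.le⟩
  rcases hxD.lt_or_eq with hxD | hxD
  · exact (inE1_add v h₁ h₂ h₃ h₄ h₆ (Or.inr ⟨xS, yS, hS, rfl, hxS⟩)
      (Or.inr ⟨xD, yD, hD, rfl, hxD⟩)).inE0
  · -- `v xD = 1`
    obtain ⟨x3, y3, h3, hsum, hx3⟩ := add_integral v V h₁ h₂ h₃ h₄ h₆ hS hD hxS hxD.symm.le
    rw [hsum]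
    right
    refine ⟨x3, y3, h3, rfl, ?_⟩
    by_contra hlt
    rw [not_le] at hlt
    -- `P = (x3, y3) - (xD, yD)` would be integral
    have hne : x3 ≠ xD := by
      rintro rfl
      rw [← hxD] at hlt
      exact lt_irrefl _ hlt
    have hPeq : Point.some xS yS hS = Point.some x3 y3 h3 - Point.some xD yD hD := by
      rw [← hsum, add_sub_cancel_right]
    rw [sub_eq_add_neg, Point.neg_some, Point.add_of_X_ne hne, Point.some.injEq,
      Affine.slope_of_X_ne hne] at hPeq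
    obtain ⟨e1, -⟩ := hPeq
    have hd : x3 - xD ≠ 0 := sub_ne_zero.mpr hne
    have E3 := (V.equation_iff x3 y3).mp h3.1
    have ED := (V.equation_iff xD yD).mp hD.1
    have hy3 : v y3 ≤ 1 := Fermat.Agent.S05.SameRed.val_y_le_one v V h₁ h₂ h₃ h₄ h₆ h3.1 hx3
    have hyD : v yD ≤ 1 :=
      Fermat.Agent.S05.SameRed.val_y_le_one v V h₁ h₂ h₃ h₄ h₆ hD.1 hxD.symm.le
    obtain ⟨lam, hlam⟩ : ∃ lam : K, lam = (y3 - V.negY xD yD) / (x3 - xD) := ⟨_, rfl⟩
    rw [← hlam] at e1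
    have hlamd : lam * (x3 - xD) = y3 + yD + V.a₁ * xD + V.a₃ := by
      rw [hlam, div_mul_cancel₀ _ hd, Affine.negY]; ring
    have key : V.addX x3 xD lam * (x3 - xD) ^ 2 =
        (y3 + yD + V.a₁ * xD + V.a₃) ^ 2 + V.a₁ * (y3 + yD + V.a₁ * xD + V.a₃) * (x3 - xD)
          - (V.a₂ + x3 + xD) * (x3 - xD) ^ 2 := by
      rw [Affine.addX]
      linear_combination (lam * (x3 - xD) + (y3 + yD + V.a₁ * xD + V.a₃) + V.a₁ * (x3 - xD)) * hlamd
    have hint : v ((y3 + yD + V.a₁ * xD + V.a₃) ^ 2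
        + V.a₁ * (y3 + yD + V.a₁ * xD + V.a₃) * (x3 - xD)
          - (V.a₂ + x3 + xD) * (x3 - xD) ^ 2) ≤ 1 := by
      have hx3' : x3 ∈ v.integer := hx3
      have hxD' : xD ∈ v.integer := hxD.symm.le
      have hy3' : y3 ∈ v.integer := hy3
      have hyD' : yD ∈ v.integer := hyD
      have ha₁ : V.a₁ ∈ v.integer := h₁
      have ha₂ : V.a₂ ∈ v.integer := h₂
      have ha₃ : V.a₃ ∈ v.integer := h₃
      have : (y3 + yD + V.a₁ * xD + V.a₃) ^ 2
          + V.a₁ * (y3 + yD + V.a₁ * xD + V.a₃) * (x3 - xD)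
            - (V.a₂ + x3 + xD) * (x3 - xD) ^ 2 ∈ v.integer := by
        repeat' first | assumption | apply add_mem | apply sub_mem | apply mul_mem | apply neg_mem | apply pow_mem
      exact this
    have hvd : v (x3 - xD) = 1 := by
      rw [v.map_sub_eq_of_lt_right (by rw [← hxD]; exact hlt)]
      exact hxD.symm
    have : v xS ≤ 1 := by
      rw [e1]
      have h5 : v (V.addX x3 xD lam) * v (x3 - xD) ^ 2 ≤ 1 := by
        rw [← map_pow, ← map_mul, key]; exact hint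
      rwa [hvd, one_pow, mul_one] at h5
    exact absurd hxS (not_lt.mpr this)

end Basic

/-- The origin of the node model is a nonsingular point as soon as `a₄ ≠ 0`. -/
lemma nonsingular_origin (V : Affine K) (ha₆ : V.a₆ = 0) (ha₄0 : V.a₄ ≠ 0) : V.Nonsingular 0 0 :=
  (Affine.nonsingular_zero).mpr ⟨ha₆, Or.inr ha₄0⟩

lemma some_congr {V : Affine K} {x x' y y' : K} (h : V.Nonsingular x y)
    (h' : V.Nonsingular x' y') (hx : x = x') (hy : y = y') :
    Point.some x y h = Point.some x' y' h' := by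
  subst hx hy; rfl

section Node

variable [DecidableEq K] (V : Affine K) (ha₃ : V.a₃ = 0) (ha₆ : V.a₆ = 0)
  (h₁ : v V.a₁ ≤ 1) (h₂ : v V.a₂ ≤ 1) (h₄ : v V.a₄ < 1)
  (hb₂ : v (V.a₁ ^ 2 + 4 * V.a₂) = 1)

include ha₃ ha₆ h₁ h₂ h₄ hb₂ in
/-- Two integral points congruent modulo the maximal ideal, with unit `x`-coordinate: their
difference lies in `E₁ ∪ {O}`. -/
theorem unit_sub {x y x' y' : K} (h : V.Nonsingular x y) (h' : V.Nonsingular x' y')
    (hx : v x = 1) (hxx : v (x' - x) < 1) (hyy : v (y' - y) < 1) :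
    InE1 v V (Point.some x' y' h' - Point.some x y h) := by
  by_cases hfix : x' = x ∧ y' = y
  · left
    have : Point.some x' y' h' = Point.some x y h := by
      rw [Point.some.injEq]; exact hfix
    rw [this, sub_self]
  · right
    obtain ⟨x3, y3, h3, hsub, hx3⟩ := Fermat.Agent.S05.SameRed.same_red_sub v V h₁ h₂
      h' h hx.le hxx hyy (node_nonsingular_reduction v V ha₃ ha₆ h₁ h₄ hb₂ h.1 hx) hfix
    exact ⟨x3, y3, h3, hsub, hx3⟩

include ha₃ ha₆ h₁ h₂ hb₂ in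
/-- Two points of the middle region `v a₄ < v x < 1` with the same `|x|` and on the same branch
(`y'/x' ≡ y/x`): their difference lies in `E₀ ∪ {O}`. -/
theorem middle_sub {x y x' y' : K} (h : V.Nonsingular x y) (h' : V.Nonsingular x' y')
    (hx1 : v x < 1) (hx4 : v V.a₄ < v x) (hxv : v x' = v x) (hu' : v (y' / x' - y / x) < 1) :
    InE0 v V (Point.some x' y' h' - Point.some x y h) := by
  have hvx0 : 0 < v x := lt_of_le_of_lt zero_le hx4
  have hx0 : x ≠ 0 := (v.ne_zero_iff).mp hvx0.ne'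
  have hx'0 : x' ≠ 0 := by
    rw [← v.ne_zero_iff, hxv]; exact hvx0.ne'
  have E := (V.equation_iff x y).mp h.1
  have E' := (V.equation_iff x' y').mp h'.1
  rw [ha₃, ha₆] at E E'
  obtain ⟨a₁, ha₁⟩ : ∃ a : K, a = V.a₁ := ⟨_, rfl⟩
  obtain ⟨a₂, ha₂⟩ : ∃ a : K, a = V.a₂ := ⟨_, rfl⟩
  obtain ⟨a₄, ha₄⟩ : ∃ a : K, a = V.a₄ := ⟨_, rfl⟩
  rw [← ha₁, ← ha₂, ← ha₄] at E E'
  rw [← ha₁] at h₁
  rw [← ha₂] at h₂
  rw [← ha₁, ← ha₂] at hb₂
  rw [← ha₄] at hx4
  obtain ⟨u, hu⟩ : ∃ u : K, u = y / x := ⟨_, rfl⟩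
  obtain ⟨w, hw⟩ : ∃ w : K, w = y' / x' := ⟨_, rfl⟩
  rw [← hu, ← hw] at hu'
  have hy : y = u * x := by rw [hu]; field_simp
  have hy' : y' = w * x' := by rw [hw]; field_simp
  obtain ⟨e, he⟩ : ∃ e : K, e = x + a₄ / x := ⟨_, rfl⟩
  have hve : v e < 1 := by
    rw [he]
    refine v.map_add_lt hx1 ?_
    rw [map_div₀]
    exact (div_lt_one₀ hvx0).mpr hx4
  have hu2 : u ^ 2 = -a₁ * u + (a₂ + e) := by
    rw [hu, he]
    field_simp
    linear_combination E
  have hvu : v u ≤ 1 := by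
    refine val_le_one_of_sq_eq v hu2 ?_ ?_
    · rw [Valuation.map_neg]; exact h₁
    · exact v.map_add_le h₂ hve.le
  have hvw : v w ≤ 1 := by
    have : w = (w - u) + u := by ring
    rw [this]
    exact v.map_add_le hu'.le hvu
  have h2 : v (2 : K) ≤ 1 := val_two_le_one v
  have h4' : v (4 : K) ≤ 1 := by
    have : (4 : K) = 2 * 2 := by norm_num
    rw [this, map_mul]
    exact mul_le_one' h2 h2
  have hc : v (2 * u + a₁) = 1 := by
    have e1 : (2 * u + a₁) ^ 2 = (a₁ ^ 2 + 4 * a₂) + 4 * e := by linear_combination 4 * hu2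
    have e2 : v ((2 * u + a₁) ^ 2) = 1 := by
      rw [e1, v.map_add_eq_of_lt_left, hb₂]
      rw [hb₂, map_mul]
      calc v 4 * v e ≤ 1 * v e := by gcongr
        _ = v e := one_mul _
        _ < 1 := hve
    rw [map_pow] at e2
    exact (pow_eq_one_iff_of_nonneg zero_le (by norm_num)).mp e2
  by_cases hxx : x' = x
  · left
    rcases Affine.Y_eq_of_X_eq h'.1 h.1 hxx with hyy | hyy
    · have : Point.some x' y' h' = Point.some x y h := by
        rw [Point.some.injEq]; exact ⟨hxx, hyy⟩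
      rw [this, sub_self]
    · exfalso
      rw [Affine.negY, ha₃, ← ha₁, hy', hxx, hy] at hyy
      have e1 : w - u = -(2 * u + a₁) := by
        have : (w - u + (2 * u + a₁)) * x = 0 := by linear_combination hyy
        rcases mul_eq_zero.mp this with h0 | h0
        · linear_combination h0
        · exact absurd h0 hx0
      rw [e1, Valuation.map_neg, hc] at hu'
      exact lt_irrefl _ hu'
  · right
    have hd : x' - x ≠ 0 := sub_ne_zero.mpr hxx
    rw [sub_eq_add_neg, Point.neg_some]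
    refine ⟨_, _, _, Point.add_of_X_ne hxx, ?_⟩
    rw [Affine.slope_of_X_ne hxx]
    obtain ⟨lam, hlam⟩ : ∃ lam : K, lam = (y' - V.negY x y) / (x' - x) := ⟨_, rfl⟩
    rw [← hlam]
    have hlamd : lam * (x' - x) = y' + y + a₁ * x := by
      rw [hlam, div_mul_cancel₀ _ hd, Affine.negY, ha₃, ← ha₁]; ring
    obtain ⟨B, hB⟩ : ∃ B : K, B = x' + x + 2 * a₂ + a₁ ^ 2 + a₁ * (u + w) + 2 * w * u :=
      ⟨_, rfl⟩
    have key : V.addX x' x lam * (x' - x) ^ 2 = x' * x * B + a₄ * (x' + x) := by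
      rw [Affine.addX, ← ha₁, ← ha₂, hB]
      rw [hy', hy] at hlamd
      rw [hy'] at E'
      rw [hy] at E
      linear_combination (lam * (x' - x) + (w * x' + u * x + a₁ * x) + a₁ * (x' - x)) * hlamd
        + E' + E
    have hvB : v B = 1 := by
      have e1 : B = (a₁ ^ 2 + 4 * a₂) + (x' + x + 2 * e + (w - u) * (a₁ + 2 * u)) := by
        rw [hB]; linear_combination 2 * hu2
      rw [e1, v.map_add_eq_of_lt_left, hb₂]
      rw [hb₂]
      refine v.map_add_lt (v.map_add_lt (v.map_add_lt ?_ hx1) ?_) ?_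
      · rw [hxv]; exact hx1
      · rw [map_mul]
        calc v 2 * v e ≤ 1 * v e := by gcongr
          _ = v e := one_mul _
          _ < 1 := hve
      · rw [map_mul]
        have : v (a₁ + 2 * u) ≤ 1 := by
          refine v.map_add_le h₁ ?_
          rw [map_mul]
          exact mul_le_one' h2 hvu
        calc v (w - u) * v (a₁ + 2 * u) ≤ v (w - u) * 1 := by gcongr
          _ = v (w - u) := mul_one _
          _ < 1 := hu'
    have hvN : v (x' * x * B + a₄ * (x' + x)) = v x * v x := by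
      have e1 : v (x' * x * B) = v x * v x := by
        rw [map_mul, map_mul, hxv, hvB, mul_one]
      rw [v.map_add_eq_of_lt_left, e1]
      rw [e1, map_mul]
      have e2 : v (x' + x) ≤ v x := v.map_add_le (le_of_eq hxv) le_rfl
      calc v a₄ * v (x' + x) ≤ v a₄ * v x := by gcongr
        _ < v x * v x := by gcongr
    have hvd : v (x' - x) ≤ v x := v.map_sub_le (le_of_eq hxv) le_rfl
    have hvd0 : 0 < v (x' - x) := by
      rw [pos_iff_ne_zero]; exact (v.ne_zero_iff).mpr hd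
    by_contra hlt
    rw [not_le] at hlt
    have h5 : v (V.addX x' x lam) * v (x' - x) ^ 2 = v x * v x := by
      rw [← hvN, ← key, map_mul, map_pow]
    have h6 : v (V.addX x' x lam) * v (x' - x) ^ 2 < 1 * v (x' - x) ^ 2 := by
      have : 0 < v (x' - x) ^ 2 := pow_pos hvd0 2
      gcongr
    rw [h5, one_mul, pow_two] at h6
    have h7 : v (x' - x) * v (x' - x) ≤ v x * v x := mul_le_mul' hvd hvd
    exact absurd h6 (not_lt.mpr h7)

include ha₃ ha₆ in
/-- A point of the lower region `v x ≤ v a₄` plus the origin lies in `E₀ ∪ {O}`. -/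
theorem lower_add (ha₄0 : V.a₄ ≠ 0) {x y : K} (h : V.Nonsingular x y) (hx4 : v x ≤ v V.a₄) :
    InE0 v V (Point.some x y h + Point.some 0 0 (nonsingular_origin V ha₆ ha₄0)) := by
  have E := (V.equation_iff x y).mp h.1
  rw [ha₃, ha₆] at E
  by_cases hx0 : x = 0
  · left
    have hy0 : y = 0 := by
      rw [hx0] at E
      have : y ^ 2 = 0 := by linear_combination E
      exact pow_eq_zero_iff (two_ne_zero) |>.mp this
    exact Point.add_of_Y_eq hx0 (by rw [hy0, Affine.negY, ha₃]; ring)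
  · right
    refine ⟨_, _, _, Point.add_of_X_ne hx0, ?_⟩
    rw [Affine.slope_of_X_ne hx0]
    have e : V.addX x 0 ((y - 0) / (x - 0)) = V.a₄ / x := by
      rw [Affine.addX, sub_zero, sub_zero, sub_zero]
      have hlx : y / x * x = y := div_mul_cancel₀ _ hx0
      have hx2 : x ^ 2 ≠ 0 := pow_ne_zero 2 hx0
      rw [eq_div_iff hx0]
      apply mul_left_cancel₀ hx0
      linear_combination (y / x * x + y + V.a₁ * x) * hlx + E
    rw [e, map_div₀]
    have hvx0 : 0 < v x := by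
      rw [pos_iff_ne_zero]; exact (v.ne_zero_iff).mpr hx0
    exact (one_le_div₀ hvx0).mpr hx4

omit [DecidableEq K] in
include ha₃ ha₆ h₁ h₂ in
/-- In the middle region the slope `y / x` from the node is integral. -/
lemma val_slope_le_one {x y : K} (h : V.Nonsingular x y) (hx1 : v x < 1) (hx4 : v V.a₄ < v x) :
    v (y / x) ≤ 1 := by
  have hvx0 : 0 < v x := lt_of_le_of_lt zero_le hx4
  have hx0 : x ≠ 0 := (v.ne_zero_iff).mp hvx0.ne'
  have E := (V.equation_iff x y).mp h.1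
  rw [ha₃, ha₆] at E
  have hve : v (x + V.a₄ / x) < 1 := by
    refine v.map_add_lt hx1 ?_
    rw [map_div₀]
    exact (div_lt_one₀ hvx0).mpr hx4
  have hu2 : (y / x) ^ 2 = -V.a₁ * (y / x) + (V.a₂ + (x + V.a₄ / x)) := by
    field_simp
    linear_combination E
  refine val_le_one_of_sq_eq v hu2 ?_ ?_
  · rw [Valuation.map_neg]; exact h₁
  · exact v.map_add_le h₂ hve.le

end Node

section Main

variable [DecidableEq K] (V : Affine K) (ha₃ : V.a₃ = 0) (ha₆ : V.a₆ = 0)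
  (h₁ : v V.a₁ ≤ 1) (h₂ : v V.a₂ ≤ 1) (h₄ : v V.a₄ < 1) (ha₄0 : V.a₄ ≠ 0)
  (hb₂ : v (V.a₁ ^ 2 + 4 * V.a₂) = 1)
  (f : K →+* K) (hf : ∀ x, v x ≤ 1 → v (f x - x) < 1) (hfv : ∀ x, v (f x) = v x)
  (ξ η : K) (hξ : v ξ < 1) (g : V.Point →+ V.Point)
  (hg : ∀ (x y : K) (h : V.Nonsingular x y), ∃ h' : V.Nonsingular (f x + ξ) (f y + η),
    g (Point.some x y h) = Point.some (f x + ξ) (f y + η) h')

include ha₃ ha₆ h₂ ha₄0 hb₂ hξ hg in
/-- The image `(ξ, η)` of the origin is a `2`-torsion point in the lower region. -/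
theorem shift_bounds :
    (∃ h' : V.Nonsingular ξ η,
      g (Point.some 0 0 (nonsingular_origin V ha₆ ha₄0)) = Point.some ξ η h') ∧
      v ξ ≤ v V.a₄ ∧ v η ≤ v V.a₄ := by
  obtain ⟨h0, e0⟩ := hg 0 0 (nonsingular_origin V ha₆ ha₄0)
  have hξη : V.Nonsingular ξ η := by
    have := h0
    rwa [map_zero, zero_add, zero_add] at this
  have e1 : g (Point.some 0 0 (nonsingular_origin V ha₆ ha₄0)) = Point.some ξ η hξη := by
    rw [e0]
    exact some_congr _ _ (by rw [map_zero, zero_add]) (by rw [map_zero, zero_add])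
  have hT2 : (2 : ℕ) • Point.some 0 0 (nonsingular_origin V ha₆ ha₄0) = 0 := by
    rw [two_nsmul]
    exact Point.add_self_of_Y_eq (by rw [Affine.negY, ha₃]; ring)
  have hT'2 : (2 : ℕ) • Point.some ξ η hξη = 0 := by
    rw [← e1, ← map_nsmul, hT2, map_zero]
  have hneg : η = V.negY ξ η := by
    by_contra hne
    rw [two_nsmul, Point.add_self_of_Y_ne hne] at hT'2
    exact Point.some_ne_zero _ hT'2
  have h2η : 2 * η + V.a₁ * ξ = 0 := by
    rw [Affine.negY, ha₃] at hneg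
    linear_combination hneg
  have E := (V.equation_iff ξ η).mp hξη.1
  rw [ha₃, ha₆] at E
  have h2 : v (2 : K) ≤ 1 := val_two_le_one v
  have h4' : v (4 : K) ≤ 1 := by
    have : (4 : K) = 2 * 2 := by norm_num
    rw [this, map_mul]
    exact mul_le_one' h2 h2
  have hξ4 : v ξ ≤ v V.a₄ := by
    by_cases hξ0 : ξ = 0
    · rw [hξ0, map_zero]; exact zero_le
    · have e2 : ξ * (4 * ξ + (V.a₁ ^ 2 + 4 * V.a₂)) = -4 * V.a₄ := by
        have : ξ * (ξ * (4 * ξ + (V.a₁ ^ 2 + 4 * V.a₂)) + 4 * V.a₄) = 0 := by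
          linear_combination (2 * η + V.a₁ * ξ) * h2η - 4 * E
        rcases mul_eq_zero.mp this with h0 | h0
        · exact absurd h0 hξ0
        · linear_combination h0
      have e3 : v (4 * ξ + (V.a₁ ^ 2 + 4 * V.a₂)) = 1 := by
        rw [v.map_add_eq_of_lt_right, hb₂]
        rw [hb₂, map_mul]
        calc v 4 * v ξ ≤ 1 * v ξ := by gcongr
          _ = v ξ := one_mul _
          _ < 1 := hξ
      have e4 : v ξ = v 4 * v V.a₄ := by
        have := congrArg v e2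
        rwa [map_mul, e3, mul_one, map_mul, Valuation.map_neg] at this
      rw [e4]
      calc v 4 * v V.a₄ ≤ 1 * v V.a₄ := by gcongr
        _ = v V.a₄ := one_mul _
  refine ⟨⟨hξη, e1⟩, hξ4, ?_⟩
  -- `-η² = ξ (ξ² + a₂ ξ + a₄)`
  have e5 : η ^ 2 = -(ξ * (ξ ^ 2 + V.a₂ * ξ + V.a₄)) := by
    linear_combination η * h2η - E
  have e6 : v (ξ ^ 2 + V.a₂ * ξ + V.a₄) ≤ v V.a₄ := by
    refine v.map_add_le (v.map_add_le ?_ ?_) le_rfl
    · rw [map_pow, pow_two]
      calc v ξ * v ξ ≤ 1 * v ξ := by gcongr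
        _ = v ξ := one_mul _
        _ ≤ v V.a₄ := hξ4
    · rw [map_mul]
      calc v V.a₂ * v ξ ≤ 1 * v ξ := by gcongr
        _ = v ξ := one_mul _
        _ ≤ v V.a₄ := hξ4
  have e7 : v η * v η ≤ v V.a₄ * v V.a₄ := by
    have := congrArg v e5
    rw [map_pow, pow_two, Valuation.map_neg, map_mul] at this
    rw [this]
    exact mul_le_mul' hξ4 e6
  by_contra hlt
  rw [not_le] at hlt
  have hpos : 0 < v η := lt_of_le_of_lt zero_le hlt
  have : v V.a₄ * v V.a₄ < v η * v η :=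
    calc v V.a₄ * v V.a₄ ≤ v V.a₄ * v η := by gcongr
      _ < v η * v η := by gcongr
  exact absurd e7 (not_le.mpr this)

include ha₃ ha₆ h₁ h₂ h₄ ha₄0 hb₂ hf hfv hξ hg in
/-- `g Q - Q ∈ E₁ ∪ {O}` for `Q ∈ E₀ ∪ {O}`. -/
theorem sub_mem_E1 {Q : V.Point} (hQ : InE0 v V Q) : InE1 v V (g Q - Q) := by
  have h₃ : v V.a₃ ≤ 1 := by rw [ha₃, map_zero]; exact zero_le_one
  have h₆ : v V.a₆ ≤ 1 := by rw [ha₆, map_zero]; exact zero_le_one
  obtain ⟨-, hξ4, hη4⟩ := shift_bounds v V ha₃ ha₆ h₂ ha₄0 hb₂ f ξ η hξ g hg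
  have hη : v η < 1 := lt_of_le_of_lt hη4 h₄
  rcases hQ with rfl | ⟨x, y, h, rfl, hx⟩
  · left; rw [map_zero, sub_zero]
  · obtain ⟨h', e⟩ := hg x y h
    rw [e]
    rcases hx.lt_or_eq with hx | hx
    · -- both points in `E₁`
      refine inE1_sub v h₁ h₂ h₃ h₄.le h₆ (Or.inr ⟨_, _, h', rfl, ?_⟩) (Or.inr ⟨x, y, h, rfl, hx⟩)
      have hfx : 1 < v (f x) := by rw [hfv]; exact hx
      rw [v.map_add_eq_of_lt_left (lt_trans hξ hfx)]
      exact hfx
    · have hy : v y ≤ 1 :=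
        Fermat.Agent.S05.SameRed.val_y_le_one v V h₁ h₂ h₃ h₄.le h₆ h.1 hx.symm.le
      refine unit_sub v V ha₃ ha₆ h₁ h₂ h₄ hb₂ h h' hx.symm ?_ ?_
      · have : f x + ξ - x = (f x - x) + ξ := by ring
        rw [this]
        exact v.map_add_lt (hf x hx.symm.le) hξ
      · have : f y + η - y = (f y - y) + η := by ring
        rw [this]
        exact v.map_add_lt (hf y hy) hη

include ha₃ ha₆ h₁ h₂ h₄ ha₄0 hb₂ hf hfv hξ hg in
/-- `g Q - Q ∈ E₀ ∪ {O}` for every point `Q`. -/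
theorem sub_mem_E0 (Q : V.Point) : InE0 v V (g Q - Q) := by
  have h₃ : v V.a₃ ≤ 1 := by rw [ha₃, map_zero]; exact zero_le_one
  have h₆ : v V.a₆ ≤ 1 := by rw [ha₆, map_zero]; exact zero_le_one
  obtain ⟨⟨hT', eT'⟩, hξ4, hη4⟩ := shift_bounds v V ha₃ ha₆ h₂ ha₄0 hb₂ f ξ η hξ g hg
  rcases Q with _ | ⟨x, y, h⟩
  · left
    change g 0 - 0 = 0
    rw [map_zero, sub_zero]
  · by_cases hx1 : 1 ≤ v x
    · exact (sub_mem_E1 v V ha₃ ha₆ h₁ h₂ h₄ ha₄0 hb₂ f hf hfv ξ η hξ g hg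
        (Or.inr ⟨x, y, h, rfl, hx1⟩)).inE0
    · rw [not_le] at hx1
      by_cases hx4 : v V.a₄ < v x
      · -- middle region
        obtain ⟨h', e⟩ := hg x y h
        rw [e]
        have hvx0 : 0 < v x := lt_of_le_of_lt zero_le hx4
        have hx0 : x ≠ 0 := (v.ne_zero_iff).mp hvx0.ne'
        have hfx0 : f x ≠ 0 := by
          rw [← v.ne_zero_iff, hfv]; exact hvx0.ne'
        have hxv : v (f x + ξ) = v x := by
          rw [v.map_add_eq_of_lt_left (by rw [hfv]; exact lt_of_le_of_lt hξ4 hx4), hfv]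
        have hx'0 : f x + ξ ≠ 0 := by
          rw [← v.ne_zero_iff, hxv]; exact hvx0.ne'
        have hu := val_slope_le_one v V ha₃ ha₆ h₁ h₂ h hx1 hx4
        refine middle_sub v V ha₃ ha₆ h₁ h₂ hb₂ h h' hx1 hx4 hxv ?_
        have e1 : (f y + η) / (f x + ξ) - y / x =
            (η - ξ * f (y / x)) / (f x + ξ) + (f (y / x) - y / x) := by
          rw [map_div₀]
          field_simp
          ring
        rw [e1]
        refine v.map_add_lt ?_ (hf _ hu)
        rw [map_div₀, hxv, div_lt_one₀ hvx0]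
        refine lt_of_le_of_lt ?_ hx4
        refine v.map_sub_le hη4 ?_
        rw [map_mul, hfv]
        calc v ξ * v (y / x) ≤ v ξ * 1 := by gcongr
          _ = v ξ := mul_one _
          _ ≤ v V.a₄ := hξ4
      · -- lower region
        rw [not_lt] at hx4
        have hQT := lower_add v V ha₃ ha₆ ha₄0 h hx4
        have hD := sub_mem_E1 v V ha₃ ha₆ h₁ h₂ h₄ ha₄0 hb₂ f hf hfv ξ η hξ g hg hQT
        have hTT := lower_add v V ha₃ ha₆ ha₄0 hT' hξ4
        have hT2 : Point.some 0 0 (nonsingular_origin V ha₆ ha₄0) +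
            Point.some 0 0 (nonsingular_origin V ha₆ ha₄0) = 0 :=
          Point.add_self_of_Y_eq (by rw [Affine.negY, ha₃]; ring)
        have e : g (Point.some x y h) - Point.some x y h =
            (g (Point.some x y h + Point.some 0 0 (nonsingular_origin V ha₆ ha₄0)) -
              (Point.some x y h + Point.some 0 0 (nonsingular_origin V ha₆ ha₄0))) +
            -(Point.some ξ η hT' + Point.some 0 0 (nonsingular_origin V ha₆ ha₄0)) := by
          rw [map_add, eT']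
          have h2 : Point.some 0 0 (nonsingular_origin V ha₆ ha₄0) =
              -Point.some 0 0 (nonsingular_origin V ha₆ ha₄0) := eq_neg_of_add_eq_zero_left hT2
          generalize Point.some 0 0 (nonsingular_origin V ha₆ ha₄0) = T at h2 ⊢
          generalize g (Point.some x y h) = G
          generalize Point.some ξ η hT' = T'
          generalize Point.some x y h = P
          have h3 : T + T = 0 := by
            nth_rewrite 1 [h2]; exact neg_add_cancel T
          calc G - P = G + T' - (P + T) + -(T' + T) + (T + T) := by abel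
            _ = G + T' - (P + T) + -(T' + T) := by rw [h3, add_zero]
        rw [e]
        exact inE0_add v h₁ h₂ h₃ h₄.le h₆ hD (inE0_neg v hTT)

include ha₃ ha₆ h₁ h₂ h₄ ha₄0 hb₂ hf hfv hξ hg in
/-- **Unipotency modulo the kernel of reduction**: `(g - 1)² Q ∈ E₁ ∪ {O}` for every `Q`. -/
theorem sq_mem_E1 (Q : V.Point) : InE1 v V (g (g Q - Q) - (g Q - Q)) :=
  sub_mem_E1 v V ha₃ ha₆ h₁ h₂ h₄ ha₄0 hb₂ f hf hfv ξ η hξ g hg
    (sub_mem_E0 v V ha₃ ha₆ h₁ h₂ h₄ ha₄0 hb₂ f hf hfv ξ η hξ g hg Q)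

end Main

end Fermat.Agent.S58.UnipNode
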