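import Mathlib
import Fermat.Agent.S58.UnipNode
import Fermat.Agent.S52.Glue.Short

set_option autoImplicit false

/-!
# Unipotency modulo `E₁` for an integral Weierstrass model with a node at a `2`-torsion point

`W'` a Weierstrass curve over `R`, `K` a valued field over `R`, all `aᵢ` integral, `f : K →ₐ[S] K`
valuation preserving and congruent to the identity modulo the maximal ideal.  Let `T = (r, t)` be a
`K`-point of `W = W'⁄K` with `2t + a₁r + a₃ = 0` (a `2`-torsion point), `r` integral, such that the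
translated model (origin at `T`) is a node model: `α = 3r² + 2a₂r + a₄ - a₁t` is a nonzero element
of the maximal ideal and `a₁² + 4a₂ + 12r` is a unit.  Then for every point `P` of `W(K)`

  `(f - 1)² P ∈ E₁ ∪ {O}`     (`sq_mem_E1`).

`f` is NOT assumed to fix `T`: the translated action is the semilinear map of `UnipNode`.
-/

namespace Fermat.Agent.S58.UnipGen

open WeierstrassCurve WeierstrassCurve.Affine
open Fermat.Agent.S13.InertiaSq Fermat.Agent.S05.VarChange

variable {K : Type*} [Field K] [DecidableEq K] {Γ₀ : Type*} [LinearOrderedCommGroupWithZero Γ₀]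
  (v : Valuation K Γ₀)

/-- The model translated to the point `(r, t)`. -/
def trans (W : Affine K) (r t : K) : Affine K :=
  ⟨W.a₁, W.a₂ + 3 * r, 0, 3 * r ^ 2 + 2 * W.a₂ * r + W.a₄ - W.a₁ * t, 0⟩

omit [DecidableEq K] in
theorem rel_trans (W : Affine K) {r t : K} (hT : W.Equation r t)
    (h2T : 2 * t + W.a₁ * r + W.a₃ = 0) : Rel W (trans W r t) 1 r 0 t := by
  have E := (W.equation_iff r t).mp hT
  refine ⟨one_ne_zero, ?_, ?_, ?_, ?_, ?_⟩
  · simp only [trans]; ring
  · simp only [trans]; ring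
  · simp only [trans]; linear_combination -h2T
  · simp only [trans]; ring
  · simp only [trans]; linear_combination E

/-- The group isomorphism `trans W r t (K) ≃ W(K)`, `(x, y) ↦ (x + r, y + t)`. -/
noncomputable def transEquiv (W : Affine K) {r t : K} (hT : W.Equation r t)
    (h2T : 2 * t + W.a₁ * r + W.a₃ = 0) : (trans W r t).Point ≃+ W.Point :=
  AddEquiv.ofBijective (rel_trans W hT h2T).pointHom
    ⟨(rel_trans W hT h2T).pointMap_injective,
      Fermat.Agent.S52.Glue.Rel.pointMap_surjective (rel_trans W hT h2T)⟩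

theorem transEquiv_some (W : Affine K) {r t : K} (hT : W.Equation r t)
    (h2T : 2 * t + W.a₁ * r + W.a₃ = 0) {x y : K} (h : (trans W r t).Nonsingular x y) :
    ∃ h' : W.Nonsingular (x + r) (y + t),
      transEquiv W hT h2T (Point.some x y h) = Point.some (x + r) (y + t) h' := by
  have h0 := ((rel_trans W hT h2T).nonsingular_iff x y).mp h
  have h' : W.Nonsingular (x + r) (y + t) := by
    have e1 : (1 : K) ^ 2 * x + r = x + r := by ring
    have e2 : (1 : K) ^ 3 * y + 1 ^ 2 * 0 * x + t = y + t := by ring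
    rwa [e1, e2] at h0
  refine ⟨h', ?_⟩
  change (rel_trans W hT h2T).pointMap (Point.some x y h) = _
  rw [Rel.pointMap_some]
  exact UnipNode.some_congr _ _ (by ring) (by ring)

theorem inE1_transEquiv (W : Affine K) {r t : K} (hT : W.Equation r t)
    (h2T : 2 * t + W.a₁ * r + W.a₃ = 0) (hr : v r ≤ 1) {Q : (trans W r t).Point}
    (hQ : InE1 v (trans W r t) Q) : InE1 v W (transEquiv W hT h2T Q) := by
  rcases hQ with rfl | ⟨x, y, h, rfl, hx⟩
  · left; exact map_zero _
  · obtain ⟨h', e⟩ := transEquiv_some W hT h2T h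
    rw [e]
    refine Or.inr ⟨_, _, h', rfl, ?_⟩
    rw [v.map_add_eq_of_lt_left (lt_of_le_of_lt hr hx)]
    exact hx

section Map

variable {R S : Type*} [CommRing R] [CommRing S] [Algebra R S] [Algebra R K] [Algebra S K]
  [IsScalarTower R S K]

/-- **Unipotency modulo the kernel of reduction**, node at a `2`-torsion point `T = (r, t)` which
need not be fixed by `f`. -/
theorem sq_mem_E1 (W' : Affine R) (f : K →ₐ[S] K)
    (hf : ∀ x, v x ≤ 1 → v (f x - x) < 1) (hfv : ∀ x, v (f x) = v x)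
    (h₁ : v (W'⁄K).a₁ ≤ 1) (h₂ : v (W'⁄K).a₂ ≤ 1)
    {r t : K} (hT : (W'⁄K).Equation r t)
    (h2T : 2 * t + (W'⁄K).a₁ * r + (W'⁄K).a₃ = 0) (hr : v r ≤ 1)
    (hα : v (3 * r ^ 2 + 2 * (W'⁄K).a₂ * r + (W'⁄K).a₄ - (W'⁄K).a₁ * t) < 1)
    (hα0 : 3 * r ^ 2 + 2 * (W'⁄K).a₂ * r + (W'⁄K).a₄ - (W'⁄K).a₁ * t ≠ 0)
    (hβ : v ((W'⁄K).a₁ ^ 2 + 4 * (W'⁄K).a₂ + 12 * r) = 1)
    (P : (W'⁄K).Point) :
    InE1 v (W'⁄K) (Point.map f (Point.map f P - P) - (Point.map f P - P)) := by
  set V : Affine K := trans (W'⁄K) r t with hV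
  set φ := transEquiv (W'⁄K) hT h2T with hφ
  -- the transported action
  let g : V.Point →+ V.Point :=
    φ.symm.toAddMonoidHom.comp ((Point.map f).comp φ.toAddMonoidHom)
  have hgφ : ∀ Q : V.Point, φ (g Q) = Point.map f (φ Q) := fun Q => φ.apply_symm_apply _
  have h3 : v (3 : K) ≤ 1 := by
    have : (3 : K) = 1 + 1 + 1 := by norm_num
    rw [this]
    exact v.map_add_le (v.map_add_le (le_of_eq v.map_one) (le_of_eq v.map_one))
      (le_of_eq v.map_one)
  have hV₁ : v V.a₁ ≤ 1 := h₁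
  have hV₂ : v V.a₂ ≤ 1 := by
    change v ((W'⁄K).a₂ + 3 * r) ≤ 1
    refine v.map_add_le h₂ ?_
    rw [map_mul]
    exact mul_le_one' h3 hr
  have hVb : v (V.a₁ ^ 2 + 4 * V.a₂) = 1 := by
    have : V.a₁ ^ 2 + 4 * V.a₂ = (W'⁄K).a₁ ^ 2 + 4 * (W'⁄K).a₂ + 12 * r := by
      change (W'⁄K).a₁ ^ 2 + 4 * ((W'⁄K).a₂ + 3 * r) = _
      ring
    rw [this]; exact hβ
  have hξ : v (f r - r) < 1 := hf r hr
  have hg : ∀ (x y : K) (h : V.Nonsingular x y),
      ∃ h' : V.Nonsingular ((f : K →+* K) x + (f r - r)) ((f : K →+* K) y + (f t - t)),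
        g (Point.some x y h) =
          Point.some ((f : K →+* K) x + (f r - r)) ((f : K →+* K) y + (f t - t)) h' := by
    intro x y h
    obtain ⟨h1, e1⟩ := transEquiv_some (W'⁄K) hT h2T h
    have h2 : (W'⁄K).Nonsingular (f (x + r)) (f (y + t)) :=
      (W'.baseChange_nonsingular f.injective ..).mpr h1
    have h' : V.Nonsingular ((f : K →+* K) x + (f r - r)) ((f : K →+* K) y + (f t - t)) := by
      rw [(rel_trans (W'⁄K) hT h2T).nonsingular_iff]
      have e2 : (1 : K) ^ 2 * ((f : K →+* K) x + (f r - r)) + r = f (x + r) := by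
        rw [map_add]; simp only [RingHom.coe_coe]; ring
      have e3 : (1 : K) ^ 3 * ((f : K →+* K) y + (f t - t))
          + 1 ^ 2 * 0 * ((f : K →+* K) x + (f r - r)) + t = f (y + t) := by
        rw [map_add]; simp only [RingHom.coe_coe]; ring
      rw [e2, e3]; exact h2
    refine ⟨h', ?_⟩
    apply φ.injective
    rw [hgφ]
    obtain ⟨h3', e3⟩ := transEquiv_some (W'⁄K) hT h2T h'
    rw [e3, hφ, e1, Point.map_some]
    refine UnipNode.some_congr _ _ ?_ ?_
    · rw [map_add]; simp only [RingHom.coe_coe]; ring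
    · rw [map_add]; simp only [RingHom.coe_coe]; ring
  have key := fun Q => UnipNode.sq_mem_E1 v V rfl rfl hV₁ hV₂ hα hα0 hVb (f : K →+* K)
    (fun x hx => hf x hx) (fun x => hfv x) (f r - r) (f t - t) hξ g hg Q
  obtain ⟨Q, hQ⟩ := φ.surjective P
  have e : Point.map f (Point.map f (φ Q) - φ Q) - (Point.map f (φ Q) - φ Q) =
      φ (g (g Q - Q) - (g Q - Q)) := by
    rw [map_sub φ, map_sub φ, hgφ, map_sub φ, hgφ]
  rw [← hQ, e]
  exact inE1_transEquiv v (W'⁄K) hT h2T hr (key Q)

end Map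

end Fermat.Agent.S58.UnipGen
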