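import Mathlib
import Fermat.Prelude.Def_FLTPrelim_Ramification
import Fermat.Agent.S58.Curve
import Fermat.Agent.Lib.ValFrac

set_option autoImplicit false

/-!
# S58: a `2`-torsion point reducing to the node of a multiplicative model

Let `W` be an integral Weierstrass model with `q ∣ Δ` and `q ∤ c₄` (multiplicative reduction at
`q`), and let `A` be a valuation subring of `AlgebraicClosure ℚ` above `q`.  We produce a point
`T = (r, t)` of the curve with `2t + a₁r + a₃ = 0` (a `2`-torsion point) and `r` integral such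
that the model translated to `T` is a node model: `α = 3r² + 2a₂r + a₄ - a₁t` is a nonzero element
of the maximal ideal of `A` and `a₁² + 4a₂ + 12r` is a unit of `A`
(`exists_node_point`).  These are exactly the hypotheses `hT h2T hr hα hα0 hβ` of
`Fermat.Agent.S58.UnipGen.sq_mem_E1`.

The construction is uniform in the residue characteristic (including `q = 2` and `q = 3`):
with `N = 18b₆ - b₂b₄` and `x₀ = N / c₄` the `2`-division cubic `4x³ + b₂x² + 2b₄x + b₆`, recentred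
at `x₀`, becomes `4ε³ + B₂ε² + 2B₄ε + B₆` with `c₄²B₄ = -72Δ`, `c₄³B₆ = 4c₆Δ` and
`B₂² - 24B₄ = c₄`; so `B₂` is a unit, `B₄, B₆` lie in the maximal ideal, and the cubic has a root
`ε` in the maximal ideal (`exists_small_root`).  Then `r = x₀ + ε`, `t = -(a₁r + a₃)/2`, and
`Δ = α²(β² - 64α)` gives the rest (`exists_node_point_core`).
-/

namespace Fermat.Agent.S58.UnipPoint

open WeierstrassCurve WeierstrassCurve.Affine

section Core

variable {K : Type*} [Field K] {Γ₀ : Type*} [LinearOrderedCommGroupWithZero Γ₀]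
  (v : Valuation K Γ₀)

/-- A root of a monic quadratic with integral coefficients is integral. -/
theorem val_le_one_of_quadratic {t p q : K} (hp : v p ≤ 1) (hq : v q ≤ 1)
    (h : t ^ 2 + p * t + q = 0) : v t ≤ 1 := by
  by_contra hlt
  rw [not_le] at hlt
  have hpos : 0 < v t := lt_trans zero_lt_one hlt
  have h1 : t * t = -(p * t + q) := by linear_combination h
  have h2 : v t * v t ≤ v t := by
    rw [← map_mul, h1, Valuation.map_neg]
    refine le_trans (v.map_add _ _) (max_le ?_ (hq.trans hlt.le))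
    rw [map_mul]
    exact mul_le_of_le_one_left' hp
  have h3 : v t * 1 < v t * v t := mul_lt_mul_of_pos_left hlt hpos
  rw [mul_one] at h3
  exact absurd h2 (not_le.mpr h3)

/-- A cubic `4X³ + B₂X² + 2B₄X + B₆` with `B₂` a unit and `B₄, B₆` in the maximal ideal has a root
in the maximal ideal (the lift of the double root `0` of the reduction). -/
theorem exists_small_root [IsAlgClosed K] (B₂ B₄ B₆ : K) (h4 : (4 : K) ≠ 0) (hB₂ : v B₂ = 1)
    (hB₄ : v B₄ < 1) (hB₆ : v B₆ < 1) :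
    ∃ ε : K, 4 * ε ^ 3 + B₂ * ε ^ 2 + 2 * B₄ * ε + B₆ = 0 ∧ v ε < 1 := by
  have hv2 : v (2 : K) ≤ 1 := (v.mem_integer_iff _).mp (ofNat_mem v.integer 2)
  obtain ⟨e₁, he₁⟩ : ∃ e : K, 4 * e ^ 3 + B₂ * e ^ 2 + 2 * B₄ * e + B₆ = 0 := by
    obtain ⟨e, he⟩ := IsAlgClosed.exists_root
      (Polynomial.C (4 : K) * Polynomial.X ^ 3 + Polynomial.C B₂ * Polynomial.X ^ 2
        + Polynomial.C (2 * B₄) * Polynomial.X + Polynomial.C B₆)
      (by rw [Polynomial.degree_cubic h4]; norm_num)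
    exact ⟨e, by simpa [Polynomial.IsRoot.def] using he⟩
  by_cases h1 : v e₁ < 1
  · exact ⟨e₁, he₁, h1⟩
  rw [not_lt] at h1
  have he₁pos : 0 < v e₁ := lt_of_lt_of_le zero_lt_one h1
  have hA : e₁ * (e₁ * (4 * e₁ + B₂)) = -(2 * B₄ * e₁ + B₆) := by linear_combination he₁
  have hR : v (2 * B₄ * e₁ + B₆) < v e₁ := by
    refine lt_of_le_of_lt (v.map_add _ _) (max_lt ?_ (lt_of_lt_of_le hB₆ h1))
    rw [map_mul, map_mul]
    exact mul_lt_of_lt_one_left he₁pos (Right.mul_lt_one_of_le_of_lt hv2 hB₄)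
  have hS : v (e₁ * (4 * e₁ + B₂)) < 1 := by
    have : v e₁ * v (e₁ * (4 * e₁ + B₂)) < v e₁ * 1 := by
      rw [← map_mul, hA, Valuation.map_neg, mul_one]; exact hR
    exact lt_of_mul_lt_mul_left' this
  have hS' : v (4 * e₁ + B₂) < 1 := by
    rw [map_mul] at hS
    exact lt_of_le_of_lt (le_mul_of_one_le_left' h1) hS
  have h4e : v (4 * e₁) = 1 := by
    have : (4 * e₁) = (4 * e₁ + B₂) - B₂ := by ring
    rw [this, v.map_sub_eq_of_lt_right (by rw [hB₂]; exact hS'), hB₂]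
  obtain ⟨c₁, hc₁⟩ : ∃ c : K, c = B₂ + 4 * e₁ := ⟨_, rfl⟩
  obtain ⟨c₀, hc₀⟩ : ∃ c : K, c = 2 * B₄ + B₂ * e₁ + 4 * e₁ ^ 2 := ⟨_, rfl⟩
  have hc₀e : e₁ * c₀ = -B₆ := by rw [hc₀]; linear_combination he₁
  obtain ⟨e₂, he₂⟩ : ∃ e : K, 4 * e ^ 2 + c₁ * e + c₀ = 0 := by
    obtain ⟨e, he⟩ := IsAlgClosed.exists_root
      (Polynomial.C (4 : K) * Polynomial.X ^ 2 + Polynomial.C c₁ * Polynomial.X + Polynomial.C c₀)
      (by rw [Polynomial.degree_quadratic h4]; norm_num)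
    exact ⟨e, by simpa [Polynomial.IsRoot.def] using he⟩
  have hroot : ∀ ε : K, 4 * ε ^ 2 + c₁ * ε + c₀ = 0 →
      4 * ε ^ 3 + B₂ * ε ^ 2 + 2 * B₄ * ε + B₆ = 0 := by
    intro ε hε
    rw [hc₁, hc₀] at hε
    linear_combination (ε - e₁) * hε + he₁
  by_cases h2 : v e₂ < 1
  · exact ⟨e₂, hroot e₂ he₂, h2⟩
  rw [not_lt] at h2
  obtain ⟨e₃, he₃⟩ : ∃ e : K, 4 * e = -c₁ - 4 * e₂ := ⟨(-c₁ - 4 * e₂) / 4, mul_div_cancel₀ _ h4⟩
  refine ⟨e₃, hroot _ ?_, ?_⟩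
  · apply mul_left_cancel₀ h4
    linear_combination (4 * e₃ - 4 * e₂) * he₃ + 4 * he₂
  · have h43 : 4 * e₂ * e₃ = c₀ := by linear_combination e₂ * he₃ - he₂
    have hprod : v e₂ * v e₃ = v B₆ := by
      have : (4 * e₁) * (e₂ * e₃) = -B₆ := by
        calc (4 * e₁) * (e₂ * e₃) = e₁ * (4 * e₂ * e₃) := by ring
          _ = e₁ * c₀ := by rw [h43]
          _ = -B₆ := hc₀e
      have h := congrArg v this
      rw [map_mul, h4e, one_mul, map_mul, Valuation.map_neg] at h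
      exact h
    calc v e₃ ≤ v e₂ * v e₃ := le_mul_of_one_le_left' h2
      _ = v B₆ := hprod
      _ < 1 := hB₆

/-- **The node point.**  A Weierstrass curve over an algebraically closed valued field of
characteristic `≠ 2` with integral coefficients, `Δ ≠ 0` in the maximal ideal and `c₄` a unit has a
`2`-torsion point `(r, t)` with `r` integral at which the translated model is a node model. -/
theorem exists_node_point_core [IsAlgClosed K] (W : Affine K) (h2 : (2 : K) ≠ 0)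
    (h₁ : v W.a₁ ≤ 1) (h₂ : v W.a₂ ≤ 1) (h₃ : v W.a₃ ≤ 1) (h₄ : v W.a₄ ≤ 1) (h₆ : v W.a₆ ≤ 1)
    (hΔ0 : W.Δ ≠ 0) (hΔ : v W.Δ < 1) (hc₄ : v W.c₄ = 1) :
    ∃ r t : K, W.Equation r t ∧ 2 * t + W.a₁ * r + W.a₃ = 0 ∧ v r ≤ 1 ∧
      v (3 * r ^ 2 + 2 * W.a₂ * r + W.a₄ - W.a₁ * t) < 1 ∧
      3 * r ^ 2 + 2 * W.a₂ * r + W.a₄ - W.a₁ * t ≠ 0 ∧
      v (W.a₁ ^ 2 + 4 * W.a₂ + 12 * r) = 1 := by
  have h4 : (4 : K) ≠ 0 := by
    have : (4 : K) = 2 * 2 := by norm_num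
    rw [this]; exact mul_ne_zero h2 h2
  have mnum : ∀ n : ℕ, (n : K) ∈ v.integer := fun n => natCast_mem v.integer n
  have m₁ : W.a₁ ∈ v.integer := (v.mem_integer_iff _).mpr h₁
  have m₂ : W.a₂ ∈ v.integer := (v.mem_integer_iff _).mpr h₂
  have m₃ : W.a₃ ∈ v.integer := (v.mem_integer_iff _).mpr h₃
  have m₄ : W.a₄ ∈ v.integer := (v.mem_integer_iff _).mpr h₄
  have m₆ : W.a₆ ∈ v.integer := (v.mem_integer_iff _).mpr h₆
  have mb₂ : W.b₂ ∈ v.integer := by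
    rw [WeierstrassCurve.b₂]
    exact add_mem (pow_mem m₁ 2) (mul_mem (ofNat_mem _ 4) m₂)
  have mb₄ : W.b₄ ∈ v.integer := by
    rw [WeierstrassCurve.b₄]
    exact add_mem (mul_mem (ofNat_mem _ 2) m₄) (mul_mem m₁ m₃)
  have mb₆ : W.b₆ ∈ v.integer := by
    rw [WeierstrassCurve.b₆]
    exact add_mem (pow_mem m₃ 2) (mul_mem (ofNat_mem _ 4) m₆)
  have mc₆ : W.c₆ ∈ v.integer := by
    rw [WeierstrassCurve.c₆]
    exact sub_mem (add_mem (neg_mem (pow_mem mb₂ 3))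
      (mul_mem (mul_mem (ofNat_mem _ 36) mb₂) mb₄)) (mul_mem (ofNat_mem _ 216) mb₆)
  have hc₄0 : W.c₄ ≠ 0 := by
    intro h
    rw [h, map_zero] at hc₄
    exact zero_ne_one hc₄
  -- the centre `x₀ = N / c₄`
  obtain ⟨N, hN⟩ : ∃ N : K, N = 18 * W.b₆ - W.b₂ * W.b₄ := ⟨_, rfl⟩
  have mN : N ∈ v.integer := by
    rw [hN]
    exact sub_mem (mul_mem (ofNat_mem _ 18) mb₆) (mul_mem mb₂ mb₄)
  obtain ⟨x₀, hx₀⟩ : ∃ x : K, W.c₄ * x = N := ⟨N / W.c₄, mul_div_cancel₀ _ hc₄0⟩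
  have mx₀ : x₀ ∈ v.integer := by
    rw [Valuation.mem_integer_iff]
    have h := congrArg v hx₀
    rw [map_mul, hc₄, one_mul] at h
    rw [h]
    exact (v.mem_integer_iff _).mp mN
  -- the recentred `2`-division cubic
  obtain ⟨B₂, hB₂⟩ : ∃ B : K, B = W.b₂ + 12 * x₀ := ⟨_, rfl⟩
  obtain ⟨B₄, hB₄⟩ : ∃ B : K, B = W.b₄ + W.b₂ * x₀ + 6 * x₀ ^ 2 := ⟨_, rfl⟩
  obtain ⟨B₆, hB₆⟩ : ∃ B : K, B = 4 * x₀ ^ 3 + W.b₂ * x₀ ^ 2 + 2 * W.b₄ * x₀ + W.b₆ := ⟨_, rfl⟩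
  have id₄ : W.c₄ ^ 2 * B₄ = -72 * W.Δ := by
    have e : W.c₄ ^ 2 * B₄
        = W.b₄ * W.c₄ ^ 2 + W.b₂ * (W.c₄ * x₀) * W.c₄ + 6 * (W.c₄ * x₀) ^ 2 := by
      rw [hB₄]; ring
    rw [e, hx₀, hN]
    simp only [WeierstrassCurve.Δ, WeierstrassCurve.c₄]
    linear_combination (-18 * W.b₂ ^ 2) * W.b_relation
  have id₆ : W.c₄ ^ 3 * B₆ = 4 * W.c₆ * W.Δ := by
    have e : W.c₄ ^ 3 * B₆
        = 4 * (W.c₄ * x₀) ^ 3 + W.b₂ * (W.c₄ * x₀) ^ 2 * W.c₄
          + 2 * W.b₄ * (W.c₄ * x₀) * W.c₄ ^ 2 + W.b₆ * W.c₄ ^ 3 := by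
      rw [hB₆]; ring
    rw [e, hx₀, hN]
    simp only [WeierstrassCurve.Δ, WeierstrassCurve.c₄, WeierstrassCurve.c₆]
    linear_combination ((-W.b₂ ^ 3 + 36 * W.b₂ * W.b₄ - 216 * W.b₆) * W.b₂ ^ 2) * W.b_relation
  have id₂ : B₂ ^ 2 - 24 * B₄ = W.c₄ := by
    rw [hB₂, hB₄, WeierstrassCurve.c₄]; ring
  have vB₄ : v B₄ < 1 := by
    have h := congrArg v id₄
    rw [map_mul, map_pow, hc₄, one_pow, one_mul, map_mul, Valuation.map_neg] at h
    rw [h]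
    exact Right.mul_lt_one_of_le_of_lt ((v.mem_integer_iff _).mp (ofNat_mem _ 72)) hΔ
  have vB₆ : v B₆ < 1 := by
    have h := congrArg v id₆
    rw [map_mul, map_pow, hc₄, one_pow, one_mul, map_mul] at h
    rw [h]
    exact Right.mul_lt_one_of_le_of_lt
      ((v.mem_integer_iff _).mp (mul_mem (ofNat_mem _ 4) mc₆)) hΔ
  have vB₂ : v B₂ = 1 := by
    have h24 : v (24 * B₄) < 1 := by
      rw [map_mul]
      exact Right.mul_lt_one_of_le_of_lt ((v.mem_integer_iff _).mp (ofNat_mem _ 24)) vB₄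
    have hsq : v (B₂ ^ 2) = 1 := by
      have : B₂ ^ 2 = W.c₄ + 24 * B₄ := by linear_combination id₂
      rw [this, v.map_add_eq_of_lt_left (by rw [hc₄]; exact h24), hc₄]
    rw [map_pow] at hsq
    exact sq_eq_one.mp hsq
  -- the small root and the point
  obtain ⟨ε, hε, vε⟩ := exists_small_root v B₂ B₄ B₆ h4 vB₂ vB₄ vB₆
  have mε : ε ∈ v.integer := (v.mem_integer_iff _).mpr vε.le
  obtain ⟨r, hr⟩ : ∃ r : K, r = x₀ + ε := ⟨_, rfl⟩
  have mr : r ∈ v.integer := by rw [hr]; exact add_mem mx₀ mε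
  obtain ⟨t, ht⟩ : ∃ t : K, 2 * t = -(W.a₁ * r + W.a₃) :=
    ⟨-(W.a₁ * r + W.a₃) / 2, mul_div_cancel₀ _ h2⟩
  have hp : 4 * r ^ 3 + W.b₂ * r ^ 2 + 2 * W.b₄ * r + W.b₆ = 0 := by
    rw [hB₂, hB₄, hB₆] at hε
    rw [hr]
    linear_combination hε
  have hE : t ^ 2 + W.a₁ * r * t + W.a₃ * t = r ^ 3 + W.a₂ * r ^ 2 + W.a₄ * r + W.a₆ := by
    apply mul_left_cancel₀ h4
    simp only [WeierstrassCurve.b₂, WeierstrassCurve.b₄, WeierstrassCurve.b₆] at hp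
    linear_combination (2 * t + W.a₁ * r + W.a₃) * ht - hp
  have mt : t ∈ v.integer := by
    rw [Valuation.mem_integer_iff]
    refine val_le_one_of_quadratic v (p := W.a₁ * r + W.a₃)
      (q := -(r ^ 3 + W.a₂ * r ^ 2 + W.a₄ * r + W.a₆)) ?_ ?_ (by linear_combination hE)
    · exact (v.mem_integer_iff _).mp (add_mem (mul_mem m₁ mr) m₃)
    · exact (v.mem_integer_iff _).mp (neg_mem (add_mem (add_mem (add_mem (pow_mem mr 3)
        (mul_mem m₂ (pow_mem mr 2))) (mul_mem m₄ mr)) m₆))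
  obtain ⟨α, hα⟩ : ∃ α : K, α = 3 * r ^ 2 + 2 * W.a₂ * r + W.a₄ - W.a₁ * t := ⟨_, rfl⟩
  obtain ⟨β, hβ⟩ : ∃ β : K, β = W.a₁ ^ 2 + 4 * W.a₂ + 12 * r := ⟨_, rfl⟩
  have mα : α ∈ v.integer := by
    rw [hα]
    exact sub_mem (add_mem (add_mem (mul_mem (ofNat_mem _ 3) (pow_mem mr 2))
      (mul_mem (mul_mem (ofNat_mem _ 2) m₂) mr)) m₄) (mul_mem m₁ mt)
  have h2α : 2 * α = 6 * ε ^ 2 + B₂ * ε + B₄ := by
    have e : 2 * α = 6 * r ^ 2 + W.b₂ * r + W.b₄ := by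
      rw [hα, WeierstrassCurve.b₂, WeierstrassCurve.b₄]
      linear_combination (-W.a₁) * ht
    rw [e, hr, hB₂, hB₄]; ring
  have v2α : v (2 * α) < 1 := by
    rw [h2α]
    refine lt_of_le_of_lt (v.map_add _ _)
      (max_lt (lt_of_le_of_lt (v.map_add _ _) (max_lt ?_ ?_)) vB₄)
    · have : (6 : K) * ε ^ 2 = (6 * ε) * ε := by ring
      rw [this, map_mul]
      exact Right.mul_lt_one_of_le_of_lt
        ((v.mem_integer_iff _).mp (mul_mem (ofNat_mem _ 6) mε)) vε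
    · rw [map_mul, vB₂, one_mul]; exact vε
  have hβ' : β = B₂ + 12 * ε := by
    rw [hβ, hB₂, WeierstrassCurve.b₂, hr]; ring
  have vβ : v β = 1 := by
    have h12 : v (12 * ε) < v B₂ := by
      rw [vB₂, map_mul]
      exact Right.mul_lt_one_of_le_of_lt ((v.mem_integer_iff _).mp (ofNat_mem _ 12)) vε
    rw [hβ', v.map_add_eq_of_lt_left h12, vB₂]
  have hΔαβ : W.Δ = α ^ 2 * (β ^ 2 - 64 * α) := by
    have ha₃ : W.a₃ = -2 * t - W.a₁ * r := by linear_combination ht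
    have ha₆ : W.a₆ = t ^ 2 + W.a₁ * r * t + W.a₃ * t - r ^ 3 - W.a₂ * r ^ 2 - W.a₄ * r := by
      linear_combination (-1 : K) * hE
    rw [hα, hβ]
    simp only [WeierstrassCurve.Δ, WeierstrassCurve.b₂, WeierstrassCurve.b₄, WeierstrassCurve.b₆,
      WeierstrassCurve.b₈]
    rw [ha₆, ha₃]
    ring
  have hα0 : α ≠ 0 := by
    intro h
    apply hΔ0
    rw [hΔαβ, h]; ring
  have vα : v α < 1 := by
    by_contra hnot
    have hα1 : v α = 1 := le_antisymm ((v.mem_integer_iff _).mp mα) (not_lt.mp hnot)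
    have hv2' : v (2 : K) < 1 := by
      rw [map_mul, hα1, mul_one] at v2α; exact v2α
    have h64 : v (64 * α) < 1 := by
      have : (64 : K) * α = 2 * (32 * α) := by ring
      rw [this, map_mul]
      exact mul_lt_one_of_lt_of_le hv2' ((v.mem_integer_iff _).mp (mul_mem (ofNat_mem _ 32) mα))
    have hβ2 : v (β ^ 2) = 1 := by rw [map_pow, vβ, one_pow]
    have hΔ1 : v W.Δ = 1 := by
      rw [hΔαβ, map_mul, map_pow, hα1, one_pow, one_mul,
        v.map_sub_eq_of_lt_left (by rw [hβ2]; exact h64), hβ2]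
    rw [hΔ1] at hΔ
    exact lt_irrefl _ hΔ
  refine ⟨r, t, (equation_iff r t).mpr hE, by linear_combination ht,
    (v.mem_integer_iff _).mp mr, ?_, ?_, ?_⟩
  · rw [← hα]; exact vα
  · rw [← hα]; exact hα0
  · rw [← hβ]; exact vβ

end Core

local notation "Qb" => AlgebraicClosure ℚ

open Fermat.Agent.S58.Curve

theorem baseChange_Δ (W : WeierstrassCurve ℤ) : ((EQ W)⁄Qb).Δ = ((W.Δ : ℤ) : Qb) := by
  change ((EQ W).map (algebraMap ℚ Qb)).Δ = _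
  rw [WeierstrassCurve.map_Δ, EQ_Δ]
  exact map_intCast (algebraMap ℚ Qb) _

theorem baseChange_c₄ (W : WeierstrassCurve ℤ) : ((EQ W)⁄Qb).c₄ = ((W.c₄ : ℤ) : Qb) := by
  change ((EQ W).map (algebraMap ℚ Qb)).c₄ = _
  rw [WeierstrassCurve.map_c₄, EQ_c₄]
  exact map_intCast (algebraMap ℚ Qb) _

/-- **(UP)** For an integral model `W` with multiplicative reduction at `q` (`q ∣ Δ`, `q ∤ c₄`) and
a valuation subring `A` of `AlgebraicClosure ℚ` above `q`, there is a `2`-torsion point `(r, t)` of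
the curve, with `r` integral, at which the translated model is a node model. -/
theorem exists_node_point (W : WeierstrassCurve ℤ) (hΔ : W.Δ ≠ 0) {q : ℕ} (hq : q.Prime)
    (hqΔ : (q : ℤ) ∣ W.Δ) (hqc : ¬ (q : ℤ) ∣ W.c₄) {A : ValuationSubring Qb}
    (hA : A.LiesOverPrime q) :
    ∃ r t : Qb, ((EQ W)⁄Qb).Equation r t ∧ 2 * t + ((EQ W)⁄Qb).a₁ * r + ((EQ W)⁄Qb).a₃ = 0 ∧
      A.valuation r ≤ 1 ∧
      A.valuation (3 * r ^ 2 + 2 * ((EQ W)⁄Qb).a₂ * r + ((EQ W)⁄Qb).a₄ - ((EQ W)⁄Qb).a₁ * t) < 1 ∧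
      3 * r ^ 2 + 2 * ((EQ W)⁄Qb).a₂ * r + ((EQ W)⁄Qb).a₄ - ((EQ W)⁄Qb).a₁ * t ≠ 0 ∧
      A.valuation (((EQ W)⁄Qb).a₁ ^ 2 + 4 * ((EQ W)⁄Qb).a₂ + 12 * r) = 1 := by
  have hint : ∀ d : ℤ, A.valuation ((d : ℤ) : Qb) ≤ 1 := fun d =>
    (A.valuation_le_one_iff _).mpr (intCast_mem A d)
  refine exists_node_point_core A.valuation ((EQ W)⁄Qb) two_ne_zero ?_ ?_ ?_ ?_ ?_ ?_ ?_ ?_
  · rw [baseChange_a₁]; exact hint _
  · rw [baseChange_a₂]; exact hint _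
  · rw [baseChange_a₃]; exact hint _
  · rw [baseChange_a₄]; exact hint _
  · rw [baseChange_a₆]; exact hint _
  · rw [baseChange_Δ]; exact Int.cast_ne_zero.mpr hΔ
  · rw [baseChange_Δ]
    obtain ⟨k, hk⟩ := hqΔ
    rw [hk, Int.cast_mul, map_mul, Int.cast_natCast]
    exact mul_lt_one_of_lt_of_le (A.mem_nonunits_iff.mp hA) (hint k)
  · rw [baseChange_c₄]
    exact Fermat.Agent.Lib.ValFrac.valuation_intCast_eq_one A q hq hA _ hqc

end Fermat.Agent.S58.UnipPoint
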