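import Mathlib
import Fermat.Agent.S58.UnipGen
import Fermat.Agent.S58.Curve
import Fermat.Agent.S58.UnipPoint

set_option autoImplicit false

/-!
# S58, brick (B1) UNIP: inertia at a multiplicative prime acts unipotently on prime-to-`q` torsion

`W` an integral Weierstrass model, `A` a place of `Qb = AlgebraicClosure ℚ` over a prime `q`,
`τ` in the inertia group of `A`.  Given a *node point* at `A` (`NodePoint W A`: a `2`-torsion point
`(r, t)` with integral `r` at which the translated model is a node model), every point `P` of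
`E(Qb)` killed by an `m` prime to `q` satisfies

  `τ • τ • P - 2 • τ • P + P = 0`     (`inertia_sq_of_nodePoint`),

i.e. `(τ - 1)² = 0` on `E[m]`.  This is the hypothesis `hτ1` of
`Fermat.Agent.S58.Transfer.charpoly_eq_sq_of_unipotent`.  The existence of a node point at every
place over a prime `q ∣ Δ`, `q ∤ c₄` is `Fermat.Agent.S58.UnipPoint.exists_node_point`.
-/

namespace Fermat.Agent.S58.Unip

open WeierstrassCurve WeierstrassCurve.Affine
open Fermat.Agent.S58.Curve Fermat.Agent.S13.InertiaSq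

local notation "Qb" => AlgebraicClosure ℚ
local notation "Γ" => (AlgebraicClosure ℚ ≃ₐ[ℚ] AlgebraicClosure ℚ)

/-- A node point of `W` at the place `A`: a `2`-torsion point `(r, t)` of `E(Qb)` with integral
`r` such that the model translated to `(r, t)` is a node model at `A`. -/
def NodePoint (W : WeierstrassCurve ℤ) (A : ValuationSubring Qb) : Prop :=
  ∃ r t : Qb, ((EQ W)⁄Qb).Equation r t ∧
    2 * t + ((EQ W)⁄Qb).a₁ * r + ((EQ W)⁄Qb).a₃ = 0 ∧
    A.valuation r ≤ 1 ∧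
    A.valuation (3 * r ^ 2 + 2 * ((EQ W)⁄Qb).a₂ * r + ((EQ W)⁄Qb).a₄ - ((EQ W)⁄Qb).a₁ * t) < 1 ∧
    3 * r ^ 2 + 2 * ((EQ W)⁄Qb).a₂ * r + ((EQ W)⁄Qb).a₄ - ((EQ W)⁄Qb).a₁ * t ≠ 0 ∧
    A.valuation (((EQ W)⁄Qb).a₁ ^ 2 + 4 * ((EQ W)⁄Qb).a₂ + 12 * r) = 1

theorem valuation_intCast_le_one (A : ValuationSubring Qb) (d : ℤ) :
    A.valuation (d : Qb) ≤ 1 :=
  (A.valuation_le_one_iff _).mpr (intCast_mem A d)

/-- `(τ - 1)² P` lies in the kernel of reduction, for every point `P`. -/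
theorem inertia_sq_mem_E1 (W : WeierstrassCurve ℤ) {A : ValuationSubring Qb}
    (hpt : NodePoint W A) {τ : Γ} (hτ : τ ∈ A.inertiaSubgroupIn ℚ) (P : ((EQ W)⁄Qb).Point) :
    InE1 A.valuation ((EQ W)⁄Qb) (τ • (τ • P - P) - (τ • P - P)) := by
  obtain ⟨r, t, hT, h2T, hr, hα, hα0, hβ⟩ := hpt
  have hf : ∀ x, A.valuation x ≤ 1 → A.valuation (τ.toAlgHom x - x) < 1 :=
    fun x hx => Fermat.Agent.S05.Glue.valuation_sub_lt_one_of_mem_inertia ℚ A τ hτ x
      ((A.valuation_le_one_iff x).mp hx)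
  have : Algebra.IsAlgebraic ℚ Qb := AlgebraicClosure.isAlgebraic ℚ
  have hfv : ∀ x, A.valuation (τ.toAlgHom x) = A.valuation x :=
    fun x => valuation_map_eq A τ (Fermat.Agent.S05.Glue.mem_iff_of_mem_inertia ℚ A τ hτ) x
  have h₁ : A.valuation ((EQ W)⁄Qb).a₁ ≤ 1 := by
    rw [Curve.baseChange_a₁]; exact valuation_intCast_le_one A _
  have h₂ : A.valuation ((EQ W)⁄Qb).a₂ ≤ 1 := by
    rw [Curve.baseChange_a₂]; exact valuation_intCast_le_one A _
  exact UnipGen.sq_mem_E1 A.valuation (EQ W) τ.toAlgHom hf hfv h₁ h₂ hT h2T hr hα hα0 hβ P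

/-- **Unipotency of inertia on prime-to-`q` torsion**, given a node point. -/
theorem inertia_sq_of_nodePoint (W : WeierstrassCurve ℤ) {q : ℕ} (hq : q.Prime)
    {A : ValuationSubring Qb} (hA : A.LiesOverPrime q) (hpt : NodePoint W A)
    {τ : Γ} (hτ : τ ∈ A.inertiaSubgroupIn ℚ) {m : ℕ} (hm : ¬ q ∣ m)
    (P : ((EQ W)⁄Qb).Point) (hP : m • P = 0) :
    τ • τ • P - (2 : ℤ) • τ • P + P = 0 := by
  have key := inertia_sq_mem_E1 W hpt hτ P
  have hvm : A.valuation ((m : ℕ) : Qb) = 1 := by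
    have := Fermat.Agent.S05.Shell.valuation_intCast_eq_one A q hq hA (m : ℤ)
      (fun h => hm (Int.natCast_dvd_natCast.mp h))
    simpa using this
  have hD : m • (τ • (τ • P - P) - (τ • P - P)) = 0 := by
    have e1 : m • (τ • P) = 0 := by rw [smul_comm m τ P, hP, smul_zero]
    have e2 : m • (τ • (τ • P)) = 0 := by rw [smul_comm m τ (τ • P), e1, smul_zero]
    have e3 : τ • (τ • P - P) = τ • τ • P - τ • P := smul_sub τ _ _
    rw [e3, nsmul_sub, nsmul_sub, nsmul_sub, e1, e2, hP, sub_zero, sub_zero]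
  have h₁ : A.valuation ((EQ W)⁄Qb).a₁ ≤ 1 := by
    rw [Curve.baseChange_a₁]; exact valuation_intCast_le_one A _
  have h₂ : A.valuation ((EQ W)⁄Qb).a₂ ≤ 1 := by
    rw [Curve.baseChange_a₂]; exact valuation_intCast_le_one A _
  have h₃ : A.valuation ((EQ W)⁄Qb).a₃ ≤ 1 := by
    rw [Curve.baseChange_a₃]; exact valuation_intCast_le_one A _
  have h₄ : A.valuation ((EQ W)⁄Qb).a₄ ≤ 1 := by
    rw [Curve.baseChange_a₄]; exact valuation_intCast_le_one A _
  have h₆ : A.valuation ((EQ W)⁄Qb).a₆ ≤ 1 := by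
    rw [Curve.baseChange_a₆]; exact valuation_intCast_le_one A _
  have hD0 : τ • (τ • P - P) - (τ • P - P) = 0 := by
    rcases key with h | ⟨x, y, h, heq, hx⟩
    · exact h
    · exfalso
      have := Fermat.Agent.S13.KerRedGen.torsion_integral' (v := A.valuation) h₁ h₂ h₃ h₄ h₆ m hvm
        _ hD x y h heq
      exact absurd hx (not_lt.mpr this)
  have e : τ • τ • P - (2 : ℤ) • τ • P + P = τ • (τ • P - P) - (τ • P - P) := by
    rw [smul_sub, two_zsmul]; abel
  rw [e, hD0]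

/-- A node point exists at every place above a prime of multiplicative reduction
(`Fermat.Agent.S58.UnipPoint.exists_node_point`). -/
theorem nodePoint_of_multiplicative (W : WeierstrassCurve ℤ) (hΔ : W.Δ ≠ 0) {q : ℕ}
    (hq : q.Prime) (hqΔ : (q : ℤ) ∣ W.Δ) (hqc : ¬ (q : ℤ) ∣ W.c₄) {A : ValuationSubring Qb}
    (hA : A.LiesOverPrime q) : NodePoint W A :=
  Fermat.Agent.S58.UnipPoint.exists_node_point W hΔ hq hqΔ hqc hA

/-- **(U) Unipotency of inertia at a multiplicative prime**: for `q ∣ Δ`, `q ∤ c₄`, every element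
`τ` of an inertia group above `q` satisfies `(τ - 1)² = 0` on the prime-to-`q` torsion of
`E(ℚ̄)`. -/
theorem inertia_sq (W : WeierstrassCurve ℤ) (hΔ : W.Δ ≠ 0) {q : ℕ} (hq : q.Prime)
    (hqΔ : (q : ℤ) ∣ W.Δ) (hqc : ¬ (q : ℤ) ∣ W.c₄) {A : ValuationSubring Qb}
    (hA : A.LiesOverPrime q) {τ : Γ} (hτ : τ ∈ A.inertiaSubgroupIn ℚ) {m : ℕ} (hm : ¬ q ∣ m)
    (P : ((EQ W)⁄Qb).Point) (hP : m • P = 0) :
    τ • τ • P - (2 : ℤ) • τ • P + P = 0 :=
  inertia_sq_of_nodePoint W hq hA (nodePoint_of_multiplicative W hΔ hq hqΔ hqc hA) hτ hm P hP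

end Fermat.Agent.S58.Unip
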