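/-
S58 (conductor-level matching), brick B1 "Descent" (route of helper168, sec. 0).

* `delta_ne_zero`, `level_ne_zero` : (0a) `W.Δ ≠ 0` and `N ≠ 0` from the hypotheses `hbad`, `hN3`
  of S58;
* `exists_isNewform_of_isNormalizedEigenform` : (0b) newform descent with the Prelude definition
  of `IsNewform`: the good eigensystem of a normalized eigenform `f` of level `N` occurs for a
  NEWFORM `g` of some level `M ∣ N` (`M` minimal for divisibility among the divisors of `N` at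
  which the good eigensystem of `f` occurs);
* `exists_isNewform_of_isModularModelOfLevel` : the same for a modular model: a newform `g` of
  level `M ∣ N`, `M ≠ 0`, with `a_ℓ(g) = a_ℓ(W)` for every good prime `ℓ ∤ N`.

Prelude + Mathlib only.
-/
import Mathlib
import Fermat.Prelude.Def_WeierstrassCurve_ConductorLevel
import Fermat.Prelude.Def_FLTPrelim_Modularity
import Fermat.Prelude.Def_CuspForm_Newforms

set_option autoImplicit false

namespace Fermat.Agent.S58.Descent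

open CuspForm ModularFormClass WeierstrassCurve

/-! ### (0a) -/

/-- `N ≠ 0` as soon as some cube does not divide `N`. -/
theorem level_ne_zero {N : ℕ} (hN3 : ∀ q : ℕ, q.Prime → ¬ q ^ 3 ∣ N) : N ≠ 0 := by
  rintro rfl
  exact hN3 2 Nat.prime_two (dvd_zero _)

/-- `W.Δ ≠ 0` if every prime dividing `W.Δ` divides the nonzero integer `N`. -/
theorem delta_ne_zero (W : WeierstrassCurve ℤ) {N : ℕ} (hN0 : N ≠ 0)
    (hbad : ∀ ℓ : ℕ, ℓ.Prime → (ℓ : ℤ) ∣ W.Δ → ℓ ∣ N) : W.Δ ≠ 0 := by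
  intro h0
  obtain ⟨ℓ, hNℓ, hℓ⟩ := Nat.exists_infinite_primes (N + 1)
  have hdvd : ℓ ∣ N := hbad ℓ hℓ (by rw [h0]; exact dvd_zero _)
  have hle : ℓ ≤ N := Nat.le_of_dvd (Nat.pos_of_ne_zero hN0) hdvd
  omega

/-- (0a) in the shape of the hypotheses of S58. -/
theorem delta_ne_zero_and_level_ne_zero (W : WeierstrassCurve ℤ) {N : ℕ}
    (hbad : ∀ ℓ : ℕ, ℓ.Prime → (ℓ : ℤ) ∣ W.Δ → ℓ ∣ N)
    (hN3 : ∀ q : ℕ, q.Prime → ¬ q ^ 3 ∣ N) : W.Δ ≠ 0 ∧ N ≠ 0 :=
  ⟨delta_ne_zero W (level_ne_zero hN3) hbad, level_ne_zero hN3⟩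

/-! ### (0b) -/

/-- **Newform descent.**  The good eigensystem of a normalized eigenform `f` of level `N` is the
good eigensystem (away from `N`) of a newform `g` of some level `M ∣ N`. -/
theorem exists_isNewform_of_isNormalizedEigenform {N : ℕ}
    {f : CuspForm (CongruenceSubgroup.Gamma0 N) 2} (hf : f.IsNormalizedEigenform) :
    ∃ M : ℕ, M ∣ N ∧ ∃ g : CuspForm (CongruenceSubgroup.Gamma0 M) 2, g.IsNewform ∧
      ∀ ℓ : ℕ, ℓ.Prime → ¬ ℓ ∣ N → qCoeff g ℓ = qCoeff f ℓ := by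
  classical
  -- the set of divisors of `N` at which the good eigensystem of `f` occurs
  let T : Set ℕ := {M | M ∣ N ∧ GoodEigensystemOccursAt f M}
  have hT : T.Nonempty := ⟨N, dvd_rfl, GoodEigensystemOccursAt.refl hf⟩
  obtain ⟨M, ⟨hMN, g, hg, hgf⟩, hmin⟩ :=
    (wellFounded_dvdNotUnit (α := ℕ)).has_min T hT
  refine ⟨M, hMN, g, ⟨hg, fun M' hM'M hne hocc => ?_⟩, hgf⟩
  obtain ⟨g', hg', hg'g⟩ := hocc
  -- `M'` is a proper divisor of `M` at which the good eigensystem of `f` occurs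
  have hM'T : M' ∈ T := ⟨hM'M.trans hMN, g', hg', fun ℓ hℓ hℓN =>
    (hg'g ℓ hℓ fun hℓM => hℓN (hℓM.trans hMN)).trans (hgf ℓ hℓ hℓN)⟩
  refine hmin M' hM'T ⟨?_, ?_⟩
  · rintro rfl
    exact hne (Nat.eq_zero_of_zero_dvd hM'M).symm
  · obtain ⟨x, rfl⟩ := hM'M
    refine ⟨x, fun hx => hne ?_, rfl⟩
    rw [Nat.isUnit_iff.mp hx, mul_one]

/-- **(0b) for a modular model**: a newform `g` of level `M ∣ N`, `M ≠ 0`, with
`a_ℓ(g) = a_ℓ(W)` for every good prime `ℓ ∤ N`. -/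
theorem exists_isNewform_of_isModularModelOfLevel (W : WeierstrassCurve ℤ) {N : ℕ}
    (hN0 : N ≠ 0) (hN : W.IsModularModelOfLevel N) :
    ∃ M : ℕ, M ∣ N ∧ M ≠ 0 ∧ ∃ g : CuspForm (CongruenceSubgroup.Gamma0 M) 2, g.IsNewform ∧
      ∀ ℓ : ℕ, ℓ.Prime → W.IsGoodPrimeFor ℓ → ¬ ℓ ∣ N →
        qCoeff g ℓ = (W.apOfModel ℓ : ℂ) := by
  obtain ⟨f, hf, hfW⟩ := hN
  obtain ⟨M, hMN, g, hg, hgf⟩ := exists_isNewform_of_isNormalizedEigenform hf
  refine ⟨M, hMN, ?_, g, hg, fun ℓ hℓ hgood hℓN => (hgf ℓ hℓ hℓN).trans (hfW ℓ hℓ hgood hℓN)⟩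
  rintro rfl
  exact hN0 (Nat.eq_zero_of_zero_dvd hMN)

/-- The level-`N` form itself: a normalized eigenform `f` of level `N` with
`a_ℓ(f) = a_ℓ(W)` at the good primes `ℓ ∤ N` (unfolding of `IsModularModelOfLevel`). -/
theorem exists_eigenform_of_isModularModelOfLevel (W : WeierstrassCurve ℤ) {N : ℕ}
    (hN : W.IsModularModelOfLevel N) :
    ∃ f : CuspForm (CongruenceSubgroup.Gamma0 N) 2, f.IsNormalizedEigenform ∧
      ∀ ℓ : ℕ, ℓ.Prime → W.IsGoodPrimeFor ℓ → ¬ ℓ ∣ N → qCoeff f ℓ = (W.apOfModel ℓ : ℂ) :=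
  hN

end Fermat.Agent.S58.Descent
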