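import Fermat.Prelude.Def_CuspForm_HeckeGaloisRepDatum
import Fermat.Prelude.Def_CuspForm_Newforms
import Fermat.Prelude.Def_GaloisRep_LocalConditions
import Fermat.Prelude.Def_GaloisRep_Residual

set_option autoImplicit false

/-!
# S58: the two external inputs, as explicit propositions

`S35Statement` is the frozen statement S35, verbatim (binder for binder).
`S36Core` is the frozen statement S36 with the hypotheses `hlam2` and `hres` DROPPED (the S36
route never uses them); S58 applies Carayol at auxiliary primes `lam ≠ q` where no residual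
irreducibility is known, so it needs this form.

Nothing is proved here and no reserved name is cited: these are `def`s of type `Prop`.
-/

open Polynomial
open CuspForm CuspForm.IsNewform

namespace Fermat.Agent.S58.Hyps

/-- The frozen statement S35 (newforms have `λ`-adic representations, with the Frobenius
characteristic polynomials at `ℓ ∉ S` and at the Steinberg primes `q ∥ M`, `q ≠ λ`). -/
def S35Statement : Prop :=
  ∀ {M : ℕ} [NeZero M] {g : CuspForm (CongruenceSubgroup.Gamma0 M) 2} (_ : g.IsNewform)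
    (lam : ℕ) [Fact lam.Prime]
    (S : Finset ℕ)
    (O' : Type) [CommRing O'] [IsDomain O'] [IsDiscreteValuationRing O']
    [IsAdicComplete (IsLocalRing.maximalIdeal O') O'] [Finite (IsLocalRing.ResidueField O')]
    [CharZero O'] (_ : (lam : O') ∈ IsLocalRing.maximalIdeal O')
    (chig : CuspForm.heckeAlgebra M 2 (↑S : Set ℕ) →+* ℂ)
    (_ : ∀ (ℓ : ℕ) (hℓ : ℓ.Prime) (hℓM : ¬ ℓ ∣ M) (hℓS : ℓ ∉ (↑S : Set ℕ)),
      chig (CuspForm.heckeAlgebra.T hℓ hℓM hℓS) = ModularFormClass.qCoeff g ℓ)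
    (iota : chig.range →+* O')
    (_ : lam ∈ S) (_ : ∀ q : ℕ, q.Prime → q ∣ M → q ∈ S),
    ∃ (O'' : Type) (_ : CommRing O'') (_ : IsDomain O'') (_ : IsDiscreteValuationRing O'')
      (_ : IsAdicComplete (IsLocalRing.maximalIdeal O'') O'') (_ : Finite (IsLocalRing.ResidueField O''))
      (_ : CharZero O'') (_ : Algebra O' O'') (_ : Module.Finite O' O'') (_ : IsLocalHom (algebraMap O' O'')),
      Function.Injective (algebraMap O' O'') ∧
      ∃ ρ : GaloisRepAdic O'',
        (∀ (ℓ : ℕ) (hℓ : ℓ.Prime) (hℓM : ¬ ℓ ∣ M) (hℓS : ℓ ∉ (↑S : Set ℕ)),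
          ∀ A : ValuationSubring (AlgebraicClosure ℚ), A.LiesOverPrime ℓ →
            ∀ σ : AlgebraicClosure ℚ ≃ₐ[ℚ] AlgebraicClosure ℚ, A.IsFrobeniusAt σ ℓ →
              LinearMap.charpoly (ρ.ρ σ) =
                X ^ 2 - C (algebraMap O' O'' ((iota.comp chig.rangeRestrict) (CuspForm.heckeAlgebra.T hℓ hℓM hℓS))) * X
                  + C ((ℓ : O''))) ∧
        (∀ q : ℕ, q.Prime → q ≠ lam → q ∣ M → ¬ q ^ 2 ∣ M →
          ∀ A : ValuationSubring (AlgebraicClosure ℚ), A.LiesOverPrime q →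
            ∀ σ : AlgebraicClosure ℚ ≃ₐ[ℚ] AlgebraicClosure ℚ, A.IsFrobeniusAt σ q →
              LinearMap.charpoly (ρ.ρ σ) = X ^ 2 - C ((q : O'') + 1) * X + C ((q : O'')) ∨
              LinearMap.charpoly (ρ.ρ σ) = X ^ 2 + C ((q : O'') + 1) * X + C ((q : O'')))

/-- The frozen statement S36 without `hlam2` and `hres` (Carayol: at `q² ∥ M`, `q ≠ λ`, some
attached representation is not unipotent on inertia at `q`). -/
def S36Core : Prop :=
  ∀ {M : ℕ} [NeZero M] {g : CuspForm (CongruenceSubgroup.Gamma0 M) 2} (_ : g.IsNewform)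
    (lam : ℕ) [Fact lam.Prime]
    (S : Finset ℕ)
    (O' : Type) [CommRing O'] [IsDomain O'] [IsDiscreteValuationRing O']
    [IsAdicComplete (IsLocalRing.maximalIdeal O') O'] [Finite (IsLocalRing.ResidueField O')]
    [CharZero O'] (_ : (lam : O') ∈ IsLocalRing.maximalIdeal O')
    (chig : CuspForm.heckeAlgebra M 2 (↑S : Set ℕ) →+* ℂ)
    (_ : ∀ (ℓ : ℕ) (hℓ : ℓ.Prime) (hℓM : ¬ ℓ ∣ M) (hℓS : ℓ ∉ (↑S : Set ℕ)),
      chig (CuspForm.heckeAlgebra.T hℓ hℓM hℓS) = ModularFormClass.qCoeff g ℓ)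
    (iota : chig.range →+* O')
    (_ : lam ∈ S) (_ : ∀ q : ℕ, q.Prime → q ∣ M → q ∈ S),
    ∃ (O'' : Type) (_ : CommRing O'') (_ : IsDomain O'') (_ : IsDiscreteValuationRing O'')
      (_ : IsAdicComplete (IsLocalRing.maximalIdeal O'') O'') (_ : Finite (IsLocalRing.ResidueField O''))
      (_ : CharZero O'') (_ : Algebra O' O'') (_ : Module.Finite O' O'') (_ : IsLocalHom (algebraMap O' O'')),
      Function.Injective (algebraMap O' O'') ∧
      ∃ ρ : GaloisRepAdic O'',
        (∀ (ℓ : ℕ) (hℓ : ℓ.Prime) (hℓM : ¬ ℓ ∣ M) (hℓS : ℓ ∉ (↑S : Set ℕ)),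
          ∀ A : ValuationSubring (AlgebraicClosure ℚ), A.LiesOverPrime ℓ →
            ∀ σ : AlgebraicClosure ℚ ≃ₐ[ℚ] AlgebraicClosure ℚ, A.IsFrobeniusAt σ ℓ →
              LinearMap.charpoly (ρ.ρ σ) =
                X ^ 2 - C (algebraMap O' O'' ((iota.comp chig.rangeRestrict) (CuspForm.heckeAlgebra.T hℓ hℓM hℓS))) * X
                  + C ((ℓ : O''))) ∧
        (∀ q : ℕ, q.Prime → q ≠ lam → M.factorization q = 2 → ¬ ρ.IsUnipotentOnInertiaAt q)

end Fermat.Agent.S58.Hyps
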