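/-
S58, brick (B4) STAB (route of helper68, report #3722; file by helper116).

* `raise M q F` : the cusp form `z ↦ F (q z)` of level `Γ₀(M q)` for `F` of level `Γ₀(M)`,
  with `qCoeff (raise M q F) n = if q ∣ n then qCoeff F (n / q) else 0`;
* `incl M q F`  : `F` itself viewed at level `Γ₀(M q)`;
* `exists_stab_prime` : a normalized eigenform (Prelude sense) of level `M` gives one of level
  `M q` (`q` prime) with the same coefficients at all `n` prime to `q`
  (`q ∣ M`: inclusion; `q ∤ M`: `g - β • g(qz)`, `α + β = a_q`, `α β = q`);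
* `exists_stab` : the same from level `M` to any multiple `R ≠ 0` of `M`, keeping the
  coefficients at all `n` prime to `R / M`.
-/
import Mathlib
import Fermat.Prelude.Def_FLTPrelim_Modularity
import Fermat.Prelude.Def_WeierstrassCurve_ConductorLevel
import Fermat.Agent.S23.LevelRaise

set_option autoImplicit false

namespace Fermat.Agent.S58.Stab

open UpperHalfPlane ModularForm CongruenceSubgroup Matrix.SpecialLinearGroup ModularFormClass
open scoped MatrixGroups Manifold ModularForm Pointwise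
open Fermat.Agent.S23.LevelRaise

/-- `Γ₀(Mq) ≤ diag(q,1)⁻¹ Γ₀(M) diag(q,1)`. -/
lemma gamma0_mul_le_conj (M q : ℕ) [NeZero q] :
    (Gamma0 (M * q)).map (mapGL ℝ) ≤
      ConjAct.toConjAct (dg q)⁻¹ • ((Gamma0 M).map (mapGL ℝ) : Subgroup (GL (Fin 2) ℝ)) := by
  rintro x ⟨γ, hγ, rfl⟩
  rw [Subgroup.mem_pointwise_smul_iff_inv_smul_mem, ← map_inv, inv_inv, ConjAct.toConjAct_smul]
  rw [SetLike.mem_coe, Gamma0_mem] at hγ
  obtain ⟨c', hc⟩ : ((M * q : ℕ) : ℤ) ∣ γ 1 0 := (ZMod.intCast_zmod_eq_zero_iff_dvd _ _).mp hγ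
  have hc2 : γ 1 0 = q * (M * c') := by rw [hc]; push_cast; ring
  refine ⟨conjSL q γ (M * c') hc2, ?_, by
    rw [dg_mul_mapGL q γ (M * c') hc2, mul_inv_cancel_right]⟩
  rw [SetLike.mem_coe, Gamma0_mem]
  show (((conjSL q γ (M * c') hc2 : Matrix (Fin 2) (Fin 2) ℤ) 1 0 : ℤ) : ZMod M) = 0
  rw [coe_conjSL]
  simp

/-- `Γ₀(Mq) ≤ Γ₀(M)`. -/
lemma gamma0_mul_le (M q : ℕ) :
    ((Gamma0 (M * q)).map (mapGL ℝ) : Subgroup (GL (Fin 2) ℝ)) ≤ (Gamma0 M).map (mapGL ℝ) := by
  refine Subgroup.map_mono ?_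
  intro γ hγ
  rw [Gamma0_mem] at hγ ⊢
  have h1 : ((M * q : ℕ) : ℤ) ∣ γ 1 0 := (ZMod.intCast_zmod_eq_zero_iff_dvd _ _).mp hγ
  exact (ZMod.intCast_zmod_eq_zero_iff_dvd _ _).mpr
    (dvd_trans (by exact_mod_cast Dvd.intro q rfl) h1)

/-- `τ ↦ F (q τ)` as a cusp form of level `Γ₀(M q)`, for a cusp form `F` of level `Γ₀(M)`. -/
noncomputable def raise (M q : ℕ) [NeZero q] {k : ℤ} (F : CuspForm (Gamma0 M) k) :
    CuspForm (Gamma0 (M * q)) k :=
  ((q : ℂ) ^ (1 - k)) • restrictCusp (gamma0_mul_le_conj M q) (CuspForm.translate F (dg q))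

lemma raise_apply (M q : ℕ) [NeZero q] {k : ℤ} (F : CuspForm (Gamma0 M) k) (τ : ℍ) :
    raise M q F τ = F (dg q • τ) := by
  have hN : (q : ℂ) ≠ 0 := Nat.cast_ne_zero.mpr (NeZero.ne q)
  have h1 : (restrictCusp (gamma0_mul_le_conj M q) (CuspForm.translate F (dg q))) τ
      = ((F : ℍ → ℂ) ∣[k] dg q) τ := rfl
  simp only [raise, smul_apply, h1, slash_dg_apply, smul_eq_mul]
  rw [mul_comm, mul_assoc, ← zpow_add₀ hN]
  simp

/-- `F` itself at level `Γ₀(M q)`. -/
def incl (M q : ℕ) {k : ℤ} (F : CuspForm (Gamma0 M) k) : CuspForm (Gamma0 (M * q)) k :=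
  restrictCusp (gamma0_mul_le M q) F

lemma coe_incl (M q : ℕ) {k : ℤ} (F : CuspForm (Gamma0 M) k) : ⇑(incl M q F) = ⇑F := rfl

lemma qCoeff_incl (M q : ℕ) {k : ℤ} (F : CuspForm (Gamma0 M) k) (n : ℕ) :
    qCoeff (incl M q F) n = qCoeff F n := rfl

lemma analyticAt_cusp (M : ℕ) {k : ℤ} (F : CuspForm (Gamma0 M) k) :
    AnalyticAt ℂ (cuspFunction 1 F) 0 :=
  ModularFormClass.analyticAt_cuspFunction_zero F one_pos
    (CongruenceSubgroup.one_mem_strictPeriods_Gamma0 M)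

/-- The `q`-expansion of `F(qτ)` is the `q`-expansion of `F` in `q^q`. -/
theorem qCoeff_raise (M q : ℕ) [NeZero q] {k : ℤ} (F : CuspForm (Gamma0 M) k) (n : ℕ) :
    qCoeff (raise M q F) n = if q ∣ n then qCoeff F (n / q) else 0 := by
  have : Fact (IsCusp OnePoint.infty ((Gamma0 M).map (mapGL ℝ) : Subgroup (GL (Fin 2) ℝ))) :=
    ⟨Subgroup.isCusp_of_mem_strictPeriods one_pos
      (CongruenceSubgroup.one_mem_strictPeriods_Gamma0 M)⟩
  exact qExpansion_coeff_of_eq_comp_dg q (raise M q F)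
    (SlashInvariantFormClass.periodic_comp_ofComplex F
      (CongruenceSubgroup.one_mem_strictPeriods_Gamma0 M))
    (ModularFormClass.holo F) (ModularFormClass.bdd_at_infty F) (raise_apply M q F)
    (analyticAt_cusp (M * q) (raise M q F)) n

/-- Coefficients of `incl g - β • raise g`. -/
theorem qCoeff_stab (M q : ℕ) [NeZero q] {k : ℤ} (F : CuspForm (Gamma0 M) k) (β : ℂ) (n : ℕ) :
    qCoeff (⇑(incl M q F - β • raise M q F : CuspForm (Gamma0 (M * q)) k)) n =
      qCoeff F n - β * (if q ∣ n then qCoeff F (n / q) else 0) := by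
  have h1 : (⇑(incl M q F - β • raise M q F : CuspForm (Gamma0 (M * q)) k) : ℍ → ℂ) =
      (⇑(incl M q F) : ℍ → ℂ) - β • (⇑(raise M q F) : ℍ → ℂ) := rfl
  have ha := analyticAt_cusp (M * q) (incl M q F)
  have hb := analyticAt_cusp (M * q) (raise M q F)
  have hb' : AnalyticAt ℂ (cuspFunction 1 (β • (⇑(raise M q F) : ℍ → ℂ))) 0 :=
    analyticAt_cusp (M * q) (β • raise M q F)
  have h2 := qCoeff_raise M q F n
  have h3 := qCoeff_incl M q F n
  unfold qCoeff at h2 h3 ⊢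
  rw [h1, qExpansion_sub ha hb', qExpansion_smul hb]
  rw [map_sub, PowerSeries.coeff_smul, smul_eq_mul, h2, h3]

/-! ### The coefficient relations -/

/-- The coefficient relations of a normalized eigenform of level `N` (Prelude sense). -/
structure IsNE (N : ℕ) (a : ℕ → ℂ) : Prop where
  one : a 1 = 1
  mul : ∀ m n : ℕ, m.Coprime n → a (m * n) = a m * a n
  rec_nd : ∀ p r : ℕ, p.Prime → ¬ p ∣ N →
    a (p ^ (r + 2)) = a p * a (p ^ (r + 1)) - p * a (p ^ r)
  rec_d : ∀ p r : ℕ, p.Prime → p ∣ N → a (p ^ (r + 2)) = a p * a (p ^ (r + 1))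

lemma isNE_iff {N : ℕ} (f : CuspForm (Gamma0 N) 2) :
    f.IsNormalizedEigenform ↔ IsNE N (fun n => qCoeff f n) :=
  ⟨fun h => ⟨h.1, h.2, h.3, h.4⟩, fun h => ⟨h.1, h.2, h.3, h.4⟩⟩

/-- The `q`-stabilised coefficients. -/
noncomputable def stabCoeff (a : ℕ → ℂ) (q : ℕ) (β : ℂ) (n : ℕ) : ℂ :=
  a n - β * (if q ∣ n then a (n / q) else 0)

lemma stabCoeff_of_not_dvd (a : ℕ → ℂ) {q : ℕ} (β : ℂ) {n : ℕ} (h : ¬ q ∣ n) :
    stabCoeff a q β n = a n := by
  simp [stabCoeff, h]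

lemma stabCoeff_mul_left (a : ℕ → ℂ) {q : ℕ} (hq : 0 < q) (β : ℂ) (n : ℕ) :
    stabCoeff a q β (q * n) = a (q * n) - β * a n := by
  simp [stabCoeff, Nat.mul_div_cancel_left _ hq]

theorem isNE_stab {M q : ℕ} {a : ℕ → ℂ} (ha : IsNE M a) (hq : q.Prime) (hqM : ¬ q ∣ M)
    {α β : ℂ} (hs : α + β = a q) (hp : α * β = q) :
    IsNE (M * q) (stabCoeff a q β) := by
  have hpow : ∀ k : ℕ, a (q ^ (k + 1)) - β * a (q ^ k) = α ^ (k + 1) := by
    intro k
    induction k with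
    | zero =>
      simp only [zero_add, pow_one, pow_zero, ha.one]
      linear_combination -hs
    | succ k ih =>
      have h := ha.rec_nd q k hq hqM
      have e : k + 1 + 1 = k + 2 := rfl
      rw [e, h, pow_succ α (k + 1), ← ih, ← hs, ← hp]
      ring
  have hstab_pow : ∀ k : ℕ, stabCoeff a q β (q ^ (k + 1)) = α ^ (k + 1) := by
    intro k
    rw [pow_succ', stabCoeff_mul_left a hq.pos, ← pow_succ']
    exact hpow k
  have hnd_pow : ∀ {p : ℕ}, p.Prime → p ≠ q → ∀ k, ¬ q ∣ p ^ k := by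
    intro p hp' hpq k h
    exact hpq ((Nat.prime_dvd_prime_iff_eq hq hp').mp (hq.dvd_of_dvd_pow h)).symm
  refine ⟨?_, ?_, ?_, ?_⟩
  · rw [stabCoeff_of_not_dvd a β (fun h => hq.one_lt.ne' (Nat.dvd_one.mp h)), ha.one]
  · intro m n hmn
    by_cases hm : q ∣ m
    · have hn : ¬ q ∣ n := fun hn => hq.one_lt.ne' (Nat.eq_one_of_dvd_coprimes hmn hm hn)
      obtain ⟨m', rfl⟩ := hm
      have hcop : m'.Coprime n := Nat.Coprime.coprime_mul_left hmn
      rw [Nat.mul_assoc, stabCoeff_mul_left a hq.pos, stabCoeff_mul_left a hq.pos,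
        stabCoeff_of_not_dvd a β hn, ← Nat.mul_assoc, ha.mul _ _ hmn, ha.mul _ _ hcop]
      ring
    · by_cases hn : q ∣ n
      · obtain ⟨n', rfl⟩ := hn
        have hcop : m.Coprime n' := Nat.Coprime.coprime_mul_left_right hmn
        rw [Nat.mul_left_comm, stabCoeff_mul_left a hq.pos, stabCoeff_mul_left a hq.pos,
          stabCoeff_of_not_dvd a β hm, ← Nat.mul_left_comm, ha.mul _ _ hmn, ha.mul _ _ hcop]
        ring
      · have hmn' : ¬ q ∣ m * n := fun h => (hq.dvd_mul.mp h).elim hm hn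
        rw [stabCoeff_of_not_dvd a β hm, stabCoeff_of_not_dvd a β hn,
          stabCoeff_of_not_dvd a β hmn', ha.mul m n hmn]
  · intro p r hp' hpN
    have hpq : p ≠ q := fun h => hpN (h ▸ Dvd.intro_left M rfl)
    have hpM : ¬ p ∣ M := fun h => hpN (dvd_mul_of_dvd_left h q)
    have h1 : ¬ q ∣ p := by simpa using hnd_pow hp' hpq 1
    rw [stabCoeff_of_not_dvd a β (hnd_pow hp' hpq _), stabCoeff_of_not_dvd a β h1,
      stabCoeff_of_not_dvd a β (hnd_pow hp' hpq _), stabCoeff_of_not_dvd a β (hnd_pow hp' hpq _)]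
    exact ha.rec_nd p r hp' hpM
  · intro p r hp' hpN
    by_cases hpq : p = q
    · subst hpq
      have e0 : stabCoeff a p β p = α := by simpa using hstab_pow 0
      rw [hstab_pow (r + 1), e0, hstab_pow r]
      ring
    · have hpM : p ∣ M := (hp'.dvd_mul.mp hpN).resolve_right
        (fun h => hpq ((Nat.prime_dvd_prime_iff_eq hp' hq).mp h))
      have h1 : ¬ q ∣ p := by simpa using hnd_pow hp' hpq 1
      rw [stabCoeff_of_not_dvd a β (hnd_pow hp' hpq _), stabCoeff_of_not_dvd a β h1,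
        stabCoeff_of_not_dvd a β (hnd_pow hp' hpq _)]
      exact ha.rec_d p r hp' hpM

theorem isNE_incl {M q : ℕ} {a : ℕ → ℂ} (ha : IsNE M a) (hqM : q ∣ M) : IsNE (M * q) a := by
  refine ⟨ha.one, ha.mul, ?_, ?_⟩
  · intro p r hp' hpN
    exact ha.rec_nd p r hp' (fun h => hpN (dvd_mul_of_dvd_left h q))
  · intro p r hp' hpN
    exact ha.rec_d p r hp' ((hp'.dvd_mul.mp hpN).elim id (fun h => dvd_trans h hqM))

/-- **Stabilisation at one prime.** -/
theorem exists_stab_prime {M q : ℕ} (hq : q.Prime) (g : CuspForm (Gamma0 M) 2)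
    (hg : g.IsNormalizedEigenform) :
    ∃ g' : CuspForm (Gamma0 (M * q)) 2, g'.IsNormalizedEigenform ∧
      ∀ n : ℕ, ¬ q ∣ n → qCoeff g' n = qCoeff g n := by
  have : NeZero q := ⟨hq.ne_zero⟩
  by_cases hqM : q ∣ M
  · exact ⟨incl M q g, (isNE_iff _).mpr (isNE_incl ((isNE_iff g).mp hg) hqM), fun n _ => rfl⟩
  · -- roots of `X² - a_q X + q`
    obtain ⟨s, hs⟩ : ∃ s : ℂ, s ^ 2 = qCoeff g q ^ 2 - 4 * q :=
      IsAlgClosed.exists_pow_nat_eq _ (by norm_num)
    set α : ℂ := (qCoeff g q + s) / 2 with hα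
    set β : ℂ := (qCoeff g q - s) / 2 with hβ
    have hsum : α + β = qCoeff g q := by rw [hα, hβ]; ring
    have hprod : α * β = q := by
      rw [hα, hβ]
      linear_combination (-1 / 4 : ℂ) * hs
    refine ⟨incl M q g - β • raise M q g, (isNE_iff _).mpr ?_, fun n hn => ?_⟩
    · have h := isNE_stab ((isNE_iff g).mp hg) hq hqM hsum hprod
      have e : (fun n => qCoeff (⇑(incl M q g - β • raise M q g :
          CuspForm (Gamma0 (M * q)) 2)) n) = stabCoeff (fun n => qCoeff g n) q β := by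
        funext n
        rw [qCoeff_stab]
        rfl
      rw [e]
      exact h
    · rw [qCoeff_stab, if_neg hn, mul_zero, sub_zero]

/-- **Stabilisation**: from level `M` to any nonzero multiple `R`, keeping the coefficients
at all `n` prime to `R / M`. -/
theorem exists_stab {M R : ℕ} (hR : R ≠ 0) (hMR : M ∣ R) (g : CuspForm (Gamma0 M) 2)
    (hg : g.IsNormalizedEigenform) :
    ∃ g' : CuspForm (Gamma0 R) 2, g'.IsNormalizedEigenform ∧
      ∀ n : ℕ, n.Coprime (R / M) → qCoeff g' n = qCoeff g n := by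
  obtain ⟨d, rfl⟩ := hMR
  have hM : M ≠ 0 := fun h => hR (by rw [h, zero_mul])
  have hd : d ≠ 0 := fun h => hR (by rw [h, mul_zero])
  rw [Nat.mul_div_cancel_left _ (Nat.pos_of_ne_zero hM)]
  clear hR
  induction d using Nat.strong_induction_on generalizing M with
  | _ d ih =>
    by_cases hd1 : d = 1
    · subst hd1
      have key : ∀ R' : ℕ, R' = M → ∃ g' : CuspForm (Gamma0 R') 2, g'.IsNormalizedEigenform ∧
          ∀ n : ℕ, n.Coprime 1 → qCoeff g' n = qCoeff g n := by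
        rintro R' rfl
        exact ⟨g, hg, fun _ _ => rfl⟩
      exact key _ (mul_one M)
    · obtain ⟨q, hq, hqd⟩ := Nat.exists_prime_and_dvd hd1
      obtain ⟨d', rfl⟩ := hqd
      have hd' : d' ≠ 0 := fun h => hd (by rw [h, mul_zero])
      have hlt : d' < q * d' := by
        have := hq.one_lt
        have hpos : 0 < d' := Nat.pos_of_ne_zero hd'
        nlinarith
      obtain ⟨g₁, hg₁, h₁⟩ := exists_stab_prime hq g hg
      obtain ⟨g₂, hg₂, h₂⟩ := ih d' hlt g₁ hg₁ (Nat.mul_ne_zero hM hq.ne_zero) hd'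
      have key : ∀ R' : ℕ, R' = M * q * d' → ∃ g' : CuspForm (Gamma0 R') 2,
          g'.IsNormalizedEigenform ∧ ∀ n : ℕ, n.Coprime (q * d') → qCoeff g' n = qCoeff g n := by
        rintro R' rfl
        refine ⟨g₂, hg₂, fun n hn => ?_⟩
        have hn1 : n.Coprime d' := Nat.Coprime.coprime_mul_left_right hn
        have hn2 : ¬ q ∣ n := fun h =>
          hq.one_lt.ne' (Nat.eq_one_of_dvd_coprimes hn h (Dvd.intro d' rfl))
        rw [h₂ n hn1, h₁ n hn2]
      exact key _ (by ring)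

/-- Step (6) of the S58 route: a normalized eigenform of level `M ∣ R` with the right `a_ℓ`
at the good primes `ℓ ∤ R` makes `W` modular of level `R`. -/
theorem isModularModelOfLevel_of_dvd {W : WeierstrassCurve ℤ} {M R : ℕ} (hR : R ≠ 0)
    (hMR : M ∣ R) (g : CuspForm (Gamma0 M) 2) (hg : g.IsNormalizedEigenform)
    (h : ∀ ℓ : ℕ, ℓ.Prime → W.IsGoodPrimeFor ℓ → ¬ ℓ ∣ R → qCoeff g ℓ = (W.apOfModel ℓ : ℂ)) :
    W.IsModularModelOfLevel R := by
  obtain ⟨g', hg', h'⟩ := exists_stab hR hMR g hg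
  refine ⟨g', hg', fun ℓ hℓ hgood hℓR => ?_⟩
  have hcop : ℓ.Coprime (R / M) :=
    Nat.Coprime.coprime_dvd_right (Nat.div_dvd_of_dvd hMR) ((Nat.Prime.coprime_iff_not_dvd hℓ).mpr hℓR)
  rw [h' ℓ hcop]
  exact h ℓ hℓ hgood hℓR

/-- The conductor-level form. -/
theorem isModularModelOfLevel_conductorLevel {W : WeierstrassCurve ℤ} {M : ℕ}
    (hM : M ∣ W.conductorLevel) (g : CuspForm (Gamma0 M) 2) (hg : g.IsNormalizedEigenform)
    (h : ∀ ℓ : ℕ, ℓ.Prime → W.IsGoodPrimeFor ℓ → qCoeff g ℓ = (W.apOfModel ℓ : ℂ)) :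
    W.IsModularModelOfLevel W.conductorLevel :=
  isModularModelOfLevel_of_dvd W.conductorLevel_pos.ne' hM g hg (fun ℓ hℓ hgood _ => h ℓ hℓ hgood)

end Fermat.Agent.S58.Stab
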