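import Mathlib
import Fermat.Prelude.Def_CuspForm_Newforms
import Fermat.Prelude.Def_WeierstrassCurve_ConductorLevel
import Fermat.Agent.S58.Stab

set_option autoImplicit false

/-!
# S58, wiring core: from the three local facts about the minimal-level newform to level `rad Δ`

`g` a newform of level `M ∣ N` (`N` cube-free) attached to the integral model `W`.  Given

* `h2`    : no prime has `M.factorization q = 2`            (Carayol + unipotent inertia),
* `hdisc` : every `q ∥ M` divides `Δ`                        (Steinberg Frobenius vs `|a_q| ≤ q`),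
* `hcoef` : `a_ℓ(g) = a_ℓ(W)` at the good primes `ℓ ∤ M`     (Frobenius traces),

the level `M` divides `W.conductorLevel = rad Δ` and `W` is modular of level `rad Δ`.
Pure arithmetic + `Fermat.Agent.S58.Stab`.
-/

namespace Fermat.Agent.S58.MainCore

open WeierstrassCurve CuspForm

/-- A cube-free `M` with no exponent `2` all of whose prime factors divide `Δ` divides the
radical of `Δ`. -/
theorem dvd_conductorLevel (W : WeierstrassCurve ℤ) (hΔ : W.Δ ≠ 0) {M : ℕ} (hM : M ≠ 0)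
    (h3 : ∀ q : ℕ, q.Prime → ¬ q ^ 3 ∣ M) (h2 : ∀ q : ℕ, q.Prime → M.factorization q ≠ 2)
    (hbad : ∀ q : ℕ, q.Prime → q ∣ M → ¬ q ^ 2 ∣ M → (q : ℤ) ∣ W.Δ) :
    M ∣ W.conductorLevel := by
  have hR : W.conductorLevel ≠ 0 := W.conductorLevel_pos.ne'
  rw [← Nat.factorization_le_iff_dvd hM hR]
  intro q
  by_cases hq : q.Prime
  · have h2' := h2 q hq
    have h3' : ¬ 3 ≤ M.factorization q := fun h =>
      h3 q hq ((hq.pow_dvd_iff_le_factorization hM).mpr h)
    rcases Nat.eq_zero_or_pos (M.factorization q) with h0 | hpos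
    · rw [h0]; exact Nat.zero_le _
    · have hqM : q ∣ M := Nat.dvd_of_factorization_pos hpos.ne'
      have hq2 : ¬ q ^ 2 ∣ M := fun h => by
        have := (hq.pow_dvd_iff_le_factorization hM).mp h
        omega
      have hqΔ := hbad q hq hqM hq2
      have hqR : q ∣ W.conductorLevel := (W.prime_dvd_conductorLevel_iff hΔ hq).mpr hqΔ
      have h1 : 1 ≤ W.conductorLevel.factorization q :=
        (hq.dvd_iff_one_le_factorization hR).mp hqR
      omega
  · rw [Nat.factorization_eq_zero_of_not_prime _ hq]; exact Nat.zero_le _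

/-- **Wiring core of S58.** -/
theorem isModularModelOfLevel_conductorLevel_of (W : WeierstrassCurve ℤ) (hΔ : W.Δ ≠ 0)
    {N M : ℕ} [NeZero M] (hMN : M ∣ N) (hN3 : ∀ q : ℕ, q.Prime → ¬ q ^ 3 ∣ N)
    {g : CuspForm (CongruenceSubgroup.Gamma0 M) 2} (hg : g.IsNewform)
    (h2 : ∀ q : ℕ, q.Prime → M.factorization q ≠ 2)
    (hdisc : ∀ q : ℕ, q.Prime → q ∣ M → ¬ q ^ 2 ∣ M → (q : ℤ) ∣ W.Δ)
    (hcoef : ∀ ℓ : ℕ, ℓ.Prime → W.IsGoodPrimeFor ℓ → ¬ ℓ ∣ M →
      ModularFormClass.qCoeff g ℓ = (W.apOfModel ℓ : ℂ)) :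
    W.IsModularModelOfLevel W.conductorLevel := by
  have hM : M ≠ 0 := NeZero.ne M
  have h3 : ∀ q : ℕ, q.Prime → ¬ q ^ 3 ∣ M := fun q hq h => hN3 q hq (h.trans hMN)
  have hdvd := dvd_conductorLevel W hΔ hM h3 h2 hdisc
  refine Fermat.Agent.S58.Stab.isModularModelOfLevel_conductorLevel hdvd g hg.isNormalizedEigenform
    fun ℓ hℓ hgood => hcoef ℓ hℓ hgood fun hℓM => ?_
  -- a good prime cannot divide `M`
  have hℓ2 : ¬ ℓ ^ 2 ∣ M := fun h => by
    have h2' := h2 ℓ hℓ
    have h3' : ¬ 3 ≤ M.factorization ℓ := fun h' =>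
      h3 ℓ hℓ ((hℓ.pow_dvd_iff_le_factorization hM).mpr h')
    have := (hℓ.pow_dvd_iff_le_factorization hM).mp h
    omega
  exact hgood (hdisc ℓ hℓ hℓM hℓ2)

end Fermat.Agent.S58.MainCore
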