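import Mathlib
import Fermat.Prelude.Def_GaloisRep_Adic
import Fermat.Prelude.Def_EllipticCurve_FrobeniusTrace
import Fermat.Prelude.Def_FLTPrelim_Ramification
import Fermat.Agent.Lib.FrobeniusDensity
import Fermat.Agent.S31.Lucas
import Fermat.Agent.S31.Cyclo

/-!
# S58, brick (B3): finite-level transfer between an adic representation and a torsion module

`ρ` is a rank-two adic representation of `Γ = Gal(ℚ̄/ℚ)` over a local ring `A` whose Frobenius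
characteristic polynomials at the primes outside a finite set `S` are `X² - a_ℓ X + ℓ` with
`a_ℓ ∈ ℤ`.  `T` is an abelian group with an action of `Γ` (think `E(ℚ̄)`) on whose `p^k`-torsion
the same Frobenius elements satisfy `s² - a_ℓ s + ℓ = 0`, and whose `p^k`-torsion is fixed by an
open subgroup of `Γ`.

* `exists_quad` : for every `τ ∈ Γ` and every `n` there are integers `t`, `d` with
  `tr ρ(τ) ≡ t`, `det ρ(τ) ≡ d` modulo `𝔪^n`, `τ² - t τ + d = 0` on `T[p^k]` and `τ ζ = ζ^d` on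
  the `p^k`-th roots of unity.  (Frobenius density + Lucas sequences; no determinant on the
  `T`-side, no Tate module.)
* `charpoly_eq_sq_of_unipotent` : if `(τ - 1)² = 0` on all `T[p^k]` and `τ` fixes the `p`-power
  roots of unity, then `charpoly ρ(τ) = (X - 1)²`.
* `coeff_eq_of_quadratic` : if `σ² - a σ + q = 0` on all `T[p^k]`, `σ ζ = ζ^q` on `p`-power roots
  of unity and `charpoly ρ(σ) = X² - c X + q`, then `c = a`.
-/

set_option autoImplicit false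

open Polynomial

namespace Fermat.Agent.S58.Transfer

local notation "Qb" => AlgebraicClosure ℚ
local notation "Γ" => (AlgebraicClosure ℚ ≃ₐ[ℚ] AlgebraicClosure ℚ)

/-! ### Linear algebra over a commutative ring -/

section LinAlg

variable {A V : Type*} [CommRing A] [AddCommGroup V] [Module A V] [Module.Free A V]
  [Module.Finite A V]

/-- The characteristic polynomial of an endomorphism of a free module of rank 2. -/
theorem charpoly_eq_trace_det (h2 : Module.finrank A V = 2) (f : Module.End A V) :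
    f.charpoly = X ^ 2 - C (LinearMap.trace A V f) * X + C (LinearMap.det f) := by
  rcases subsingleton_or_nontrivial A with hA | hA
  · exact Subsingleton.elim _ _
  let b : Module.Basis (Fin 2) A V := Module.finBasisOfFinrankEq A V h2
  rw [← LinearMap.charpoly_toMatrix f b, Matrix.charpoly_fin_two,
    LinearMap.trace_eq_matrix_trace A b, LinearMap.det_toMatrix]

omit [Module.Free A V] [Module.Finite A V] in
/-- Coordinates of an element of `I • ⊤` lie in `I`. -/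
theorem repr_mem_of_mem_smul_top (I : Ideal A) {ι : Type*} (e : Module.Basis ι A V) {w : V}
    (hw : w ∈ I • (⊤ : Submodule A V)) (j : ι) : e.repr w j ∈ I := by
  refine Submodule.smul_induction_on (p := fun w => e.repr w j ∈ I) hw ?_ ?_
  · intro a ha v _
    rw [map_smul, Finsupp.smul_apply, smul_eq_mul]
    exact Ideal.mul_mem_right _ _ ha
  · intro x y hx hy
    rw [map_add, Finsupp.add_apply]
    exact Ideal.add_mem _ hx hy

/-- Two endomorphisms congruent modulo `I` have the same matrix modulo `I`. -/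
theorem mapMatrix_toMatrix_eq (I : Ideal A) (f g : Module.End A V)
    (h : ∀ v, f v - g v ∈ I • (⊤ : Submodule A V)) :
    (Ideal.Quotient.mk I).mapMatrix
        (LinearMap.toMatrix (Module.Free.chooseBasis A V) (Module.Free.chooseBasis A V) f) =
      (Ideal.Quotient.mk I).mapMatrix
        (LinearMap.toMatrix (Module.Free.chooseBasis A V) (Module.Free.chooseBasis A V) g) := by
  ext i j
  rw [RingHom.mapMatrix_apply, RingHom.mapMatrix_apply, Matrix.map_apply, Matrix.map_apply,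
    LinearMap.toMatrix_apply, LinearMap.toMatrix_apply]
  have h1 := repr_mem_of_mem_smul_top I (Module.Free.chooseBasis A V)
    (h (Module.Free.chooseBasis A V j)) i
  rw [map_sub, Finsupp.sub_apply] at h1
  exact Ideal.Quotient.eq.mpr h1

theorem trace_sub_mem (I : Ideal A) (f g : Module.End A V)
    (h : ∀ v, f v - g v ∈ I • (⊤ : Submodule A V)) :
    LinearMap.trace A V f - LinearMap.trace A V g ∈ I := by
  classical
  have hM := mapMatrix_toMatrix_eq I f g h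
  rw [LinearMap.trace_eq_matrix_trace A (Module.Free.chooseBasis A V),
    LinearMap.trace_eq_matrix_trace A (Module.Free.chooseBasis A V), ← Ideal.Quotient.eq]
  have e1 : ∀ M : Matrix (Module.Free.ChooseBasisIndex A V) (Module.Free.ChooseBasisIndex A V) A,
      Ideal.Quotient.mk I M.trace = ((Ideal.Quotient.mk I).mapMatrix M).trace := by
    intro M
    rw [Matrix.trace, Matrix.trace, map_sum]
    rfl
  rw [e1, e1, hM]

theorem det_sub_mem (I : Ideal A) (f g : Module.End A V)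
    (h : ∀ v, f v - g v ∈ I • (⊤ : Submodule A V)) :
    LinearMap.det f - LinearMap.det g ∈ I := by
  classical
  have hM := mapMatrix_toMatrix_eq I f g h
  rw [← LinearMap.det_toMatrix (Module.Free.chooseBasis A V) f,
    ← LinearMap.det_toMatrix (Module.Free.chooseBasis A V) g, ← Ideal.Quotient.eq,
    RingHom.map_det, RingHom.map_det, hM]

end LinAlg

/-! ### The torsion subgroup with its Galois action -/

section Tors

variable (T : Type*) [AddCommGroup T] [DistribMulAction Γ T]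

/-- The `m`-torsion subgroup. -/
def tors (m : ℕ) : AddSubgroup T := (nsmulAddMonoidHom (α := T) m).ker

variable {T}

omit [DistribMulAction Γ T] in
theorem mem_tors {m : ℕ} {P : T} : P ∈ tors T m ↔ m • P = 0 := Iff.rfl

theorem smul_mem_tors {m : ℕ} (σ : Γ) {P : T} (hP : P ∈ tors T m) : σ • P ∈ tors T m := by
  rw [mem_tors] at hP ⊢
  rw [smul_comm, hP, smul_zero]

/-- The action of `Γ` on the `m`-torsion, as a monoid homomorphism to the endomorphism ring. -/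
noncomputable def actHom (T : Type*) [AddCommGroup T] [DistribMulAction Γ T] (m : ℕ) :
    Γ →* AddMonoid.End (tors T m) where
  toFun σ :=
    { toFun := fun P => ⟨σ • (P : T), smul_mem_tors σ P.2⟩
      map_zero' := Subtype.ext (smul_zero σ)
      map_add' := fun P Q => Subtype.ext (smul_add σ (P : T) (Q : T)) }
  map_one' := by
    ext P
    exact one_smul Γ (P : T)
  map_mul' σ τ := by
    ext P
    exact mul_smul σ τ (P : T)

@[simp] theorem actHom_apply_coe (m : ℕ) (σ : Γ) (P : tors T m) :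
    ((actHom T m σ P : tors T m) : T) = σ • (P : T) := rfl

end Tors

/-! ### Pointwise formulas in `AddMonoid.End` -/

section EndLemmas

variable {M : Type*} [AddCommGroup M]

theorem end_add_apply (f g : AddMonoid.End M) (x : M) : (f + g) x = f x + g x := rfl

theorem end_sub_apply (f g : AddMonoid.End M) (x : M) : (f - g) x = f x - g x := rfl

theorem end_mul_apply (f g : AddMonoid.End M) (x : M) : (f * g) x = f (g x) := rfl

theorem end_intCast_apply (n : ℤ) (x : M) : (n : AddMonoid.End M) x = n • x := rfl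

theorem end_zero_apply (x : M) : (0 : AddMonoid.End M) x = 0 := rfl

end EndLemmas

/-! ### The transfer -/

section Main

variable {A : Type} [CommRing A] [IsLocalRing A] (ρ : GaloisRepAdic A)
  (S : Finset ℕ) (a : ℕ → ℤ)
  {T : Type*} [AddCommGroup T] [DistribMulAction Γ T]

/-- **Transfer.**  For every `τ` and `n` there are integers `t`, `d` such that `ρ(τ)` has trace
`t` and determinant `d` modulo `𝔪^n`, `τ` satisfies `X² - tX + d` on `T[p^k]` and `τ` raises the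
`p^k`-th roots of unity to the `d`-th power. -/
theorem exists_quad
    (hρ : ∀ ℓ : ℕ, ℓ.Prime → ℓ ∉ S → ∀ B : ValuationSubring Qb, B.LiesOverPrime ℓ →
      ∀ s : Γ, B.IsFrobeniusAt s ℓ →
        LinearMap.charpoly (ρ.ρ s) = X ^ 2 - C ((a ℓ : ℤ) : A) * X + C ((ℓ : ℕ) : A))
    {p : ℕ} (hp : p.Prime) (hpS : p ∈ S) (k : ℕ)
    (hT : ∀ ℓ : ℕ, ℓ.Prime → ℓ ∉ S → ∀ B : ValuationSubring Qb, B.LiesOverPrime ℓ →
      ∀ s : Γ, B.IsFrobeniusAt s ℓ → ∀ P : T, (p ^ k) • P = 0 →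
        s • s • P - a ℓ • s • P + (ℓ : ℤ) • P = 0)
    (hfin : ∃ L : IntermediateField ℚ Qb, FiniteDimensional ℚ L ∧
      ∀ σ : Γ, (∀ x ∈ L, σ x = x) → ∀ P : T, (p ^ k) • P = 0 → σ • P = P)
    (τ : Γ) (n : ℕ) :
    ∃ (t : ℤ) (d : ℕ),
      LinearMap.trace A ρ.V (ρ.ρ τ) - (t : A) ∈ IsLocalRing.maximalIdeal A ^ n ∧
      LinearMap.det (ρ.ρ τ) - (d : A) ∈ IsLocalRing.maximalIdeal A ^ n ∧
      (∀ P : T, (p ^ k) • P = 0 → τ • τ • P - t • τ • P + (d : ℤ) • P = 0) ∧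
      (∀ ζ : Qb, ζ ^ (p ^ k) = 1 → τ ζ = ζ ^ d) := by
  classical
  -- the three fields
  obtain ⟨L₁, hL₁, hcont⟩ := ρ.isAdicContinuous n
  obtain ⟨L₂, hL₂, hfix⟩ := hfin
  have hpk : p ^ k ≠ 0 := pow_ne_zero _ hp.ne_zero
  have : NeZero (p ^ k) := ⟨hpk⟩
  obtain ⟨ζ₀, hζ₀⟩ := HasEnoughRootsOfUnity.exists_primitiveRoot Qb (p ^ k)
  have hint : IsIntegral ℚ ζ₀ := (hζ₀.isIntegral (Nat.pos_of_ne_zero hpk)).tower_top
  let L₃ : IntermediateField ℚ Qb := IntermediateField.adjoin ℚ {ζ₀}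
  have hL₃ : FiniteDimensional ℚ L₃ := IntermediateField.adjoin.finiteDimensional hint
  let L : IntermediateField ℚ Qb := L₁ ⊔ L₂ ⊔ L₃
  have hL : FiniteDimensional ℚ L := by
    have h12 : FiniteDimensional ℚ (L₁ ⊔ L₂ : IntermediateField ℚ Qb) :=
      IntermediateField.finiteDimensional_sup L₁ L₂
    exact IntermediateField.finiteDimensional_sup (L₁ ⊔ L₂) L₃
  have hL₁L : L₁ ≤ L := le_sup_of_le_left le_sup_left
  have hL₂L : L₂ ≤ L := le_sup_of_le_left le_sup_right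
  have hL₃L : L₃ ≤ L := le_sup_right
  -- Frobenius density
  obtain ⟨ℓ, B, s, b, hℓ, hℓS, hB, hs, -, hsb⟩ :=
    Fermat.Agent.Lib.FrobeniusDensity.exists_frobenius_pow_eq L S τ
  have hℓp : ℓ ≠ p := fun h => hℓS (h ▸ hpS)
  -- `σ₀ = τ⁻¹ s^b` fixes `L`
  set σ₀ : Γ := τ⁻¹ * s ^ b with hσ₀
  have hσ₀L : ∀ x ∈ L, σ₀ x = x := by
    intro x hx
    rw [hσ₀, AlgEquiv.mul_apply, hsb x hx]
    exact (AlgEquiv.symm_apply_apply τ x)
  have hsbτ : s ^ b = τ * σ₀ := by rw [hσ₀, mul_inv_cancel_left]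
  -- the representation side
  have hcp := hρ ℓ hℓ hℓS B hB s hs
  have hdet1 : LinearMap.det (ρ.ρ s) = ((ℓ : ℕ) : A) := by
    have h1 := charpoly_eq_trace_det ρ.finrank_eq (ρ.ρ s)
    rw [hcp] at h1
    have h2 := congrArg (fun q : A[X] => q.coeff 0) h1
    simpa using h2.symm
  have htr : LinearMap.trace A ρ.V (ρ.ρ (s ^ b)) =
      ((Fermat.Agent.S31.Lucas.lucasV (a ℓ) (ℓ : ℤ) b : ℤ) : A) := by
    rw [map_pow, Fermat.Agent.S31.Lucas.trace_pow_eq_lucasV ρ.finrank_eq (ρ.ρ s) _ _ hcp b]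
    have h1 := Fermat.Agent.S31.Lucas.map_lucasV (Int.castRingHom A) (a ℓ) (ℓ : ℤ) b
    rw [eq_intCast, eq_intCast, eq_intCast, Int.cast_natCast] at h1
    exact h1.symm
  have hdet : LinearMap.det (ρ.ρ (s ^ b)) = ((ℓ ^ b : ℕ) : A) := by
    rw [map_pow, map_pow, hdet1, Nat.cast_pow]
  have hcong : ∀ v : ρ.V, ρ.ρ τ v - ρ.ρ (s ^ b) v ∈
      (IsLocalRing.maximalIdeal A ^ n) • (⊤ : Submodule A ρ.V) := by
    intro v
    have h1 := hcont σ₀ (fun x hx => hσ₀L x (hL₁L hx)) v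
    have h2 : ρ.ρ τ v - ρ.ρ (s ^ b) v = - ρ.ρ τ (ρ.ρ σ₀ v - v) := by
      rw [hsbτ, map_mul, Module.End.mul_apply, map_sub]
      abel
    rw [h2]
    refine Submodule.neg_mem _ ?_
    have h3 : Submodule.map (ρ.ρ τ) ((IsLocalRing.maximalIdeal A ^ n) • (⊤ : Submodule A ρ.V)) ≤
        (IsLocalRing.maximalIdeal A ^ n) • (⊤ : Submodule A ρ.V) := by
      rw [Submodule.map_smul'']
      exact Submodule.smul_mono le_rfl le_top
    exact h3 (Submodule.mem_map_of_mem h1)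
  refine ⟨Fermat.Agent.S31.Lucas.lucasV (a ℓ) (ℓ : ℤ) b, ℓ ^ b, ?_, ?_, ?_, ?_⟩
  · rw [← htr]
    exact trace_sub_mem _ _ _ hcong
  · rw [← hdet]
    exact det_sub_mem _ _ _ hcong
  · -- the torsion side
    intro P hP
    let x : AddMonoid.End (tors T (p ^ k)) := actHom T (p ^ k) s
    have hx : x * x - (Int.castRingHom (AddMonoid.End (tors T (p ^ k)))) (a ℓ) * x +
        (Int.castRingHom (AddMonoid.End (tors T (p ^ k)))) (ℓ : ℤ) = 0 := by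
      ext Q
      have h1 := hT ℓ hℓ hℓS B hB s hs (Q : T) Q.2
      rw [eq_intCast, eq_intCast, end_add_apply, end_sub_apply, end_mul_apply, end_mul_apply,
        end_intCast_apply, end_intCast_apply, end_zero_apply]
      exact h1
    have hL := Fermat.Agent.S31.Lucas.lucas_pow
      (Int.castRingHom (AddMonoid.End (tors T (p ^ k)))) x (a ℓ) (ℓ : ℤ)
      (Int.commute_cast x (a ℓ)) hx b
    have hxb : x ^ b = actHom T (p ^ k) (s ^ b) := (map_pow _ _ _).symm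
    have hact : ∀ Q : T, (p ^ k) • Q = 0 → (s ^ b) • Q = τ • Q := by
      intro Q hQ
      rw [hsbτ, mul_smul, hfix σ₀ (fun y hy => hσ₀L y (hL₂L hy)) Q hQ]
    have hτP : (p ^ k) • (τ • P) = 0 := smul_mem_tors τ hP
    have h2 := DFunLike.congr_fun hL (⟨P, hP⟩ : tors T (p ^ k))
    rw [eq_intCast, eq_intCast, ← Int.cast_pow, hxb, end_add_apply, end_sub_apply, end_mul_apply,
      end_mul_apply, end_intCast_apply, end_intCast_apply, end_zero_apply] at h2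
    have h3 := congrArg (Subtype.val : tors T (p ^ k) → T) h2
    have h4 : (s ^ b) • (s ^ b) • P -
        Fermat.Agent.S31.Lucas.lucasV (a ℓ) (ℓ : ℤ) b • (s ^ b) • P + ((ℓ : ℤ) ^ b) • P = 0 := h3
    rw [hact P hP, hact (τ • P) hτP] at h4
    rw [Nat.cast_pow]
    exact h4
  · -- roots of unity
    intro ζ hζ
    obtain ⟨i, -, rfl⟩ := hζ₀.eq_pow_of_pow_eq_one hζ
    have hmem : ζ₀ ^ i ∈ L := hL₃L (pow_mem (IntermediateField.mem_adjoin_simple_self ℚ ζ₀) i)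
    rw [← hsb _ hmem]
    exact Fermat.Agent.S31.Cyclo.frobenius_pow_apply_root B hℓ hp hℓp hB hs hζ b

/-- **Comparison modulo `𝔪^n`.**  If `τ² - t₀ τ + d₀ = 0` on `T[p^n]`, `τ ζ = ζ^{d₀}` on the
`p^n`-th roots of unity, and `T[p^n]` has exponent exactly `p^n`, then
`tr ρ(τ) ≡ t₀` and `det ρ(τ) ≡ d₀` modulo `𝔪^n`. -/
theorem trace_det_sub_mem_of_quadratic
    (hρ : ∀ ℓ : ℕ, ℓ.Prime → ℓ ∉ S → ∀ B : ValuationSubring Qb, B.LiesOverPrime ℓ →
      ∀ s : Γ, B.IsFrobeniusAt s ℓ →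
        LinearMap.charpoly (ρ.ρ s) = X ^ 2 - C ((a ℓ : ℤ) : A) * X + C ((ℓ : ℕ) : A))
    {p : ℕ} (hp : p.Prime) (hpS : p ∈ S) (hpA : (p : A) ∈ IsLocalRing.maximalIdeal A) (n : ℕ)
    (hT : ∀ ℓ : ℕ, ℓ.Prime → ℓ ∉ S → ∀ B : ValuationSubring Qb, B.LiesOverPrime ℓ →
      ∀ s : Γ, B.IsFrobeniusAt s ℓ → ∀ P : T, (p ^ n) • P = 0 →
        s • s • P - a ℓ • s • P + (ℓ : ℤ) • P = 0)
    (hfin : ∃ L : IntermediateField ℚ Qb, FiniteDimensional ℚ L ∧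
      ∀ σ : Γ, (∀ x ∈ L, σ x = x) → ∀ P : T, (p ^ n) • P = 0 → σ • P = P)
    (hexp : ∀ c : ℤ, (∀ P : T, (p ^ n) • P = 0 → c • P = 0) → ((p ^ n : ℕ) : ℤ) ∣ c)
    (τ : Γ) (t₀ : ℤ) (d₀ : ℕ)
    (hτ1 : ∀ P : T, (p ^ n) • P = 0 → τ • τ • P - t₀ • τ • P + (d₀ : ℤ) • P = 0)
    (hτζ : ∀ ζ : Qb, ζ ^ (p ^ n) = 1 → τ ζ = ζ ^ d₀) :
    LinearMap.trace A ρ.V (ρ.ρ τ) - (t₀ : A) ∈ IsLocalRing.maximalIdeal A ^ n ∧
      LinearMap.det (ρ.ρ τ) - (d₀ : A) ∈ IsLocalRing.maximalIdeal A ^ n := by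
  obtain ⟨t, d, htr, hdet, hq, hζ⟩ := exists_quad ρ S a hρ hp hpS n hT hfin τ n
  have hpn : p ^ n ≠ 0 := pow_ne_zero _ hp.ne_zero
  have : NeZero (p ^ n) := ⟨hpn⟩
  -- `d ≡ d₀` modulo `p^n`
  obtain ⟨ζ₀, hζ₀⟩ := HasEnoughRootsOfUnity.exists_primitiveRoot Qb (p ^ n)
  have hdd : ((p ^ n : ℕ) : ℤ) ∣ (d : ℤ) - (d₀ : ℤ) := by
    have h1 : ζ₀ ^ d = ζ₀ ^ d₀ := by rw [← hζ ζ₀ hζ₀.pow_eq_one, ← hτζ ζ₀ hζ₀.pow_eq_one]
    have hfo : IsOfFinOrder ζ₀ :=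
      isOfFinOrder_iff_pow_eq_one.mpr ⟨p ^ n, Nat.pos_of_ne_zero hpn, hζ₀.pow_eq_one⟩
    have h2 : d ≡ d₀ [MOD p ^ n] := by
      have h3 := hfo.pow_eq_pow_iff_modEq.mp h1
      rwa [← hζ₀.eq_orderOf] at h3
    exact (Int.natCast_modEq_iff.mpr h2).symm.dvd
  -- an integer multiple of `p^n` kills `T[p^n]`
  have hkill : ∀ c : ℤ, ((p ^ n : ℕ) : ℤ) ∣ c → ∀ P : T, (p ^ n) • P = 0 → c • P = 0 := by
    rintro c ⟨m, rfl⟩ P hP
    rw [mul_comm, mul_smul, natCast_zsmul, hP, smul_zero]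
  -- `t ≡ t₀` modulo `p^n`
  have htt : ((p ^ n : ℕ) : ℤ) ∣ t₀ - t := by
    refine hexp _ fun Q hQ => ?_
    have hP : (p ^ n) • (τ⁻¹ • Q) = 0 := smul_mem_tors τ⁻¹ hQ
    have h1 := hq (τ⁻¹ • Q) hP
    have h2 := hτ1 (τ⁻¹ • Q) hP
    have h3 := hkill _ hdd (τ⁻¹ • Q) hP
    rw [smul_inv_smul] at h1 h2
    rw [sub_smul] at h3 ⊢
    have h4 : t₀ • Q - t • Q =
        (τ • Q - t • Q + (d : ℤ) • τ⁻¹ • Q) - (τ • Q - t₀ • Q + (d₀ : ℤ) • τ⁻¹ • Q) -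
          ((d : ℤ) • τ⁻¹ • Q - (d₀ : ℤ) • τ⁻¹ • Q) := by abel
    rw [h4, h1, h2, h3, sub_zero, sub_zero]
  -- cast to `A`
  have hmem : ∀ c : ℤ, ((p ^ n : ℕ) : ℤ) ∣ c → (c : A) ∈ IsLocalRing.maximalIdeal A ^ n := by
    rintro c ⟨m, rfl⟩
    rw [Int.cast_mul, Int.cast_natCast, Nat.cast_pow]
    exact Ideal.mul_mem_right _ _ (Ideal.pow_mem_pow hpA n)
  constructor
  · have h1 := hmem _ htt
    rw [Int.cast_sub] at h1
    have h2 : LinearMap.trace A ρ.V (ρ.ρ τ) - (t₀ : A) =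
        (LinearMap.trace A ρ.V (ρ.ρ τ) - (t : A)) - ((t₀ : A) - (t : A)) := by ring
    rw [h2]
    exact Ideal.sub_mem _ htr h1
  · have h1 := hmem _ hdd
    rw [Int.cast_sub, Int.cast_natCast, Int.cast_natCast] at h1
    have h2 : LinearMap.det (ρ.ρ τ) - (d₀ : A) =
        (LinearMap.det (ρ.ρ τ) - (d : A)) + ((d : A) - (d₀ : A)) := by ring
    rw [h2]
    exact Ideal.add_mem _ hdet h1

/-- **Comparison.**  If `τ² - t₀ τ + d₀ = 0` on every `T[p^k]` and `τ ζ = ζ^{d₀}` on the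
`p`-power roots of unity, then `tr ρ(τ) = t₀` and `det ρ(τ) = d₀`. -/
theorem trace_det_eq_of_quadratic [IsNoetherianRing A]
    (hρ : ∀ ℓ : ℕ, ℓ.Prime → ℓ ∉ S → ∀ B : ValuationSubring Qb, B.LiesOverPrime ℓ →
      ∀ s : Γ, B.IsFrobeniusAt s ℓ →
        LinearMap.charpoly (ρ.ρ s) = X ^ 2 - C ((a ℓ : ℤ) : A) * X + C ((ℓ : ℕ) : A))
    {p : ℕ} (hp : p.Prime) (hpS : p ∈ S) (hpA : (p : A) ∈ IsLocalRing.maximalIdeal A)
    (hT : ∀ k : ℕ, ∀ ℓ : ℕ, ℓ.Prime → ℓ ∉ S → ∀ B : ValuationSubring Qb, B.LiesOverPrime ℓ →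
      ∀ s : Γ, B.IsFrobeniusAt s ℓ → ∀ P : T, (p ^ k) • P = 0 →
        s • s • P - a ℓ • s • P + (ℓ : ℤ) • P = 0)
    (hfin : ∀ k : ℕ, ∃ L : IntermediateField ℚ Qb, FiniteDimensional ℚ L ∧
      ∀ σ : Γ, (∀ x ∈ L, σ x = x) → ∀ P : T, (p ^ k) • P = 0 → σ • P = P)
    (hexp : ∀ (k : ℕ) (c : ℤ), (∀ P : T, (p ^ k) • P = 0 → c • P = 0) → ((p ^ k : ℕ) : ℤ) ∣ c)
    (τ : Γ) (t₀ : ℤ) (d₀ : ℕ)
    (hτ1 : ∀ (k : ℕ) (P : T), (p ^ k) • P = 0 → τ • τ • P - t₀ • τ • P + (d₀ : ℤ) • P = 0)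
    (hτζ : ∀ (k : ℕ) (ζ : Qb), ζ ^ (p ^ k) = 1 → τ ζ = ζ ^ d₀) :
    LinearMap.trace A ρ.V (ρ.ρ τ) = (t₀ : A) ∧ LinearMap.det (ρ.ρ τ) = (d₀ : A) := by
  have hbot : ⨅ i : ℕ, IsLocalRing.maximalIdeal A ^ i = ⊥ :=
    Ideal.iInf_pow_eq_bot_of_isLocalRing _ Ideal.IsPrime.ne_top'
  have key := fun n : ℕ => trace_det_sub_mem_of_quadratic ρ S a hρ hp hpS hpA n (hT n) (hfin n)
    (hexp n) τ t₀ d₀ (hτ1 n) (hτζ n)
  constructor
  · have h1 : LinearMap.trace A ρ.V (ρ.ρ τ) - (t₀ : A) ∈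
        ⨅ i : ℕ, IsLocalRing.maximalIdeal A ^ i := by
      rw [Ideal.mem_iInf]
      exact fun n => (key n).1
    rw [hbot, Ideal.mem_bot] at h1
    exact sub_eq_zero.mp h1
  · have h1 : LinearMap.det (ρ.ρ τ) - (d₀ : A) ∈
        ⨅ i : ℕ, IsLocalRing.maximalIdeal A ^ i := by
      rw [Ideal.mem_iInf]
      exact fun n => (key n).2
    rw [hbot, Ideal.mem_bot] at h1
    exact sub_eq_zero.mp h1

/-- The characteristic polynomial of `ρ(τ)` when `τ² - t₀ τ + d₀ = 0` on every `T[p^k]` and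
`τ ζ = ζ^{d₀}` on the `p`-power roots of unity. -/
theorem charpoly_eq_of_quadratic [IsNoetherianRing A]
    (hρ : ∀ ℓ : ℕ, ℓ.Prime → ℓ ∉ S → ∀ B : ValuationSubring Qb, B.LiesOverPrime ℓ →
      ∀ s : Γ, B.IsFrobeniusAt s ℓ →
        LinearMap.charpoly (ρ.ρ s) = X ^ 2 - C ((a ℓ : ℤ) : A) * X + C ((ℓ : ℕ) : A))
    {p : ℕ} (hp : p.Prime) (hpS : p ∈ S) (hpA : (p : A) ∈ IsLocalRing.maximalIdeal A)
    (hT : ∀ k : ℕ, ∀ ℓ : ℕ, ℓ.Prime → ℓ ∉ S → ∀ B : ValuationSubring Qb, B.LiesOverPrime ℓ →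
      ∀ s : Γ, B.IsFrobeniusAt s ℓ → ∀ P : T, (p ^ k) • P = 0 →
        s • s • P - a ℓ • s • P + (ℓ : ℤ) • P = 0)
    (hfin : ∀ k : ℕ, ∃ L : IntermediateField ℚ Qb, FiniteDimensional ℚ L ∧
      ∀ σ : Γ, (∀ x ∈ L, σ x = x) → ∀ P : T, (p ^ k) • P = 0 → σ • P = P)
    (hexp : ∀ (k : ℕ) (c : ℤ), (∀ P : T, (p ^ k) • P = 0 → c • P = 0) → ((p ^ k : ℕ) : ℤ) ∣ c)
    (τ : Γ) (t₀ : ℤ) (d₀ : ℕ)
    (hτ1 : ∀ (k : ℕ) (P : T), (p ^ k) • P = 0 → τ • τ • P - t₀ • τ • P + (d₀ : ℤ) • P = 0)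
    (hτζ : ∀ (k : ℕ) (ζ : Qb), ζ ^ (p ^ k) = 1 → τ ζ = ζ ^ d₀) :
    LinearMap.charpoly (ρ.ρ τ) = X ^ 2 - C ((t₀ : ℤ) : A) * X + C ((d₀ : ℕ) : A) := by
  obtain ⟨h1, h2⟩ := trace_det_eq_of_quadratic ρ S a hρ hp hpS hpA hT hfin hexp τ t₀ d₀ hτ1 hτζ
  rw [charpoly_eq_trace_det ρ.finrank_eq, h1, h2]

/-- **Unipotence.**  If `(τ - 1)² = 0` on every `T[p^k]` and `τ` fixes the `p`-power roots of
unity, then `charpoly ρ(τ) = (X - 1)²`. -/
theorem charpoly_eq_sq_of_unipotent [IsNoetherianRing A]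
    (hρ : ∀ ℓ : ℕ, ℓ.Prime → ℓ ∉ S → ∀ B : ValuationSubring Qb, B.LiesOverPrime ℓ →
      ∀ s : Γ, B.IsFrobeniusAt s ℓ →
        LinearMap.charpoly (ρ.ρ s) = X ^ 2 - C ((a ℓ : ℤ) : A) * X + C ((ℓ : ℕ) : A))
    {p : ℕ} (hp : p.Prime) (hpS : p ∈ S) (hpA : (p : A) ∈ IsLocalRing.maximalIdeal A)
    (hT : ∀ k : ℕ, ∀ ℓ : ℕ, ℓ.Prime → ℓ ∉ S → ∀ B : ValuationSubring Qb, B.LiesOverPrime ℓ →
      ∀ s : Γ, B.IsFrobeniusAt s ℓ → ∀ P : T, (p ^ k) • P = 0 →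
        s • s • P - a ℓ • s • P + (ℓ : ℤ) • P = 0)
    (hfin : ∀ k : ℕ, ∃ L : IntermediateField ℚ Qb, FiniteDimensional ℚ L ∧
      ∀ σ : Γ, (∀ x ∈ L, σ x = x) → ∀ P : T, (p ^ k) • P = 0 → σ • P = P)
    (hexp : ∀ (k : ℕ) (c : ℤ), (∀ P : T, (p ^ k) • P = 0 → c • P = 0) → ((p ^ k : ℕ) : ℤ) ∣ c)
    (τ : Γ)
    (hτ1 : ∀ (k : ℕ) (P : T), (p ^ k) • P = 0 → τ • τ • P - (2 : ℤ) • τ • P + P = 0)
    (hτζ : ∀ (k : ℕ) (ζ : Qb), ζ ^ (p ^ k) = 1 → τ ζ = ζ) :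
    LinearMap.charpoly (ρ.ρ τ) = (X - 1) ^ 2 := by
  have h := charpoly_eq_of_quadratic ρ S a hρ hp hpS hpA hT hfin hexp τ 2 1
    (fun k P hP => by rw [Nat.cast_one, one_smul]; exact hτ1 k P hP)
    (fun k ζ hζ => by rw [pow_one]; exact hτζ k ζ hζ)
  rw [h]
  simp only [Int.cast_ofNat, Nat.cast_one, map_one]
  have h2 : (C (2 : A) : A[X]) = 2 := rfl
  rw [h2]
  ring

/-- **Coefficient comparison.**  If `σ² - a_q σ + q = 0` on every `T[p^k]`, `σ ζ = ζ^q` on the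
`p`-power roots of unity and `charpoly ρ(σ) = X² - c X + q`, then `c = a_q`. -/
theorem coeff_eq_of_quadratic [IsNoetherianRing A]
    (hρ : ∀ ℓ : ℕ, ℓ.Prime → ℓ ∉ S → ∀ B : ValuationSubring Qb, B.LiesOverPrime ℓ →
      ∀ s : Γ, B.IsFrobeniusAt s ℓ →
        LinearMap.charpoly (ρ.ρ s) = X ^ 2 - C ((a ℓ : ℤ) : A) * X + C ((ℓ : ℕ) : A))
    {p : ℕ} (hp : p.Prime) (hpS : p ∈ S) (hpA : (p : A) ∈ IsLocalRing.maximalIdeal A)
    (hT : ∀ k : ℕ, ∀ ℓ : ℕ, ℓ.Prime → ℓ ∉ S → ∀ B : ValuationSubring Qb, B.LiesOverPrime ℓ →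
      ∀ s : Γ, B.IsFrobeniusAt s ℓ → ∀ P : T, (p ^ k) • P = 0 →
        s • s • P - a ℓ • s • P + (ℓ : ℤ) • P = 0)
    (hfin : ∀ k : ℕ, ∃ L : IntermediateField ℚ Qb, FiniteDimensional ℚ L ∧
      ∀ σ : Γ, (∀ x ∈ L, σ x = x) → ∀ P : T, (p ^ k) • P = 0 → σ • P = P)
    (hexp : ∀ (k : ℕ) (c : ℤ), (∀ P : T, (p ^ k) • P = 0 → c • P = 0) → ((p ^ k : ℕ) : ℤ) ∣ c)
    (σ : Γ) (aq : ℤ) (q : ℕ)
    (hσ1 : ∀ (k : ℕ) (P : T), (p ^ k) • P = 0 → σ • σ • P - aq • σ • P + (q : ℤ) • P = 0)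
    (hσζ : ∀ (k : ℕ) (ζ : Qb), ζ ^ (p ^ k) = 1 → σ ζ = ζ ^ q)
    (c d : A) (hc : LinearMap.charpoly (ρ.ρ σ) = X ^ 2 - C c * X + C d) :
    c = (aq : A) ∧ d = (q : A) := by
  have h := charpoly_eq_of_quadratic ρ S a hρ hp hpS hpA hT hfin hexp σ aq q hσ1 hσζ
  rw [hc] at h
  have h1 := congrArg (fun f : A[X] => f.coeff 1) h
  have h0 := congrArg (fun f : A[X] => f.coeff 0) h
  simp at h1 h0
  exact ⟨h1, h0⟩

end Main

end Fermat.Agent.S58.Transfer
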