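import Mathlib
import Fermat.Prelude.Def_GaloisRep_LocalConditions
import Fermat.Agent.S58.Transfer
import Fermat.Agent.S41.NonEis.Main
import Fermat.Agent.Lib.TorsionCard
import Fermat.Agent.S58.Curve

/-!
# S58, brick (B3), elliptic-curve side: the transfer for `T = E(ℚ̄)`

`E / ℚ` an elliptic curve.  The two structural hypotheses of `S58.Transfer` hold for
`T = (E⁄Qb).Point` with the Galois action of the Prelude:

* `exists_field_fixing_torsion` : the `m`-torsion is fixed by an open subgroup (`hfin`);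
* `dvd_of_forall_zsmul_eq_zero` : `E[p^k]` has exponent exactly `p^k` (`hexp`);
* `frobRel_outside` : the Frobenius relation at the good primes `ℓ ≥ 5` (`hT`).

With these, for an adic representation `ρ` whose Frobenius characteristic polynomials outside a
finite set `S ∋ p` are `X² - a_ℓ(W) X + ℓ`:

* `charpoly_eq_of_quadratic_E` : `τ² - t₀ τ + d₀ = 0` on `E[p^∞]` and `τ ζ = ζ^{d₀}` on
  `μ_{p^∞}` imply `charpoly ρ(τ) = X² - t₀ X + d₀`;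
* `charpoly_inertia`, `isUnipotentOnInertiaAt` : inertia at `q ≠ p` acting unipotently on
  `E[p^∞]` acts unipotently through `ρ`;
* `charpoly_frobenius`, `charpoly_frobenius_of_good` : the characteristic polynomial of a
  Frobenius element at ANY good prime `q ≠ p` (inside `S` or not) is `X² - a_q(W) X + q`.

The last section specialises to `E = Curve.EQ W` for an integral model `W`
(`charpoly_inertia_of`, `isUnipotentOnInertiaAt_of`, `charpoly_frobenius_of`,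
`coeff_frobenius_of`), with the three E-side inputs as the explicit propositions `FrobAll W`
(Frobenius relation at all good primes), `UnipBad W` (unipotent inertia at the multiplicative
primes) and `TrivGood W` (trivial inertia at the good primes).
-/

set_option autoImplicit false

open Polynomial WeierstrassCurve WeierstrassCurve.Affine WeierstrassCurve.Affine.Point

namespace Fermat.Agent.S58.TransferE

open Fermat.Agent.S41.NonEis Fermat.Agent.S41.NonEis.Main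

local notation "Qb" => AlgebraicClosure ℚ
local notation "Γ" => (AlgebraicClosure ℚ ≃ₐ[ℚ] AlgebraicClosure ℚ)

/-! ### The structural hypotheses for `E(ℚ̄)` -/

section Point

variable (E : WeierstrassCurve ℚ) [E.IsElliptic]

/-- The `m`-torsion of `E(ℚ̄)` is fixed by the Galois group of a finite extension of `ℚ`. -/
theorem exists_field_fixing_torsion (m : ℕ) (hm : 0 < m) :
    ∃ L : IntermediateField ℚ Qb, FiniteDimensional ℚ L ∧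
      ∀ σ : Γ, (∀ x ∈ L, σ x = x) → ∀ P : (E⁄Qb).Point, m • P = 0 → σ • P = P := by
  refine ⟨fieldL E m 1, finiteDimensional_fieldL E m hm 1, fun σ hσ P hP => ?_⟩
  have hv : P ∈ Submodule.torsionBy ℤ (E⁄Qb).Point (m : ℤ) := by
    rw [Submodule.mem_torsionBy_iff, natCast_zsmul]
    exact hP
  have h := smul_eq_of_eqOn E m 1 σ 1 (fun x hx => by rw [hσ x hx]; rfl) ⟨P, hv⟩
  have h2 : σ • P = (1 : Γ) • P := congrArg Subtype.val h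
  rw [h2, one_smul]

/-- `E[p^k]` has exponent exactly `p^k`: an integer killing it is divisible by `p^k`. -/
theorem dvd_of_forall_zsmul_eq_zero {p : ℕ} (hp : p.Prime) (k : ℕ) (c : ℤ)
    (h : ∀ P : (E⁄Qb).Point, (p ^ k) • P = 0 → c • P = 0) : ((p ^ k : ℕ) : ℤ) ∣ c := by
  have hpk : 0 < p ^ k := pow_pos hp.pos k
  set g : ℕ := Nat.gcd c.natAbs (p ^ k) with hg
  have hgdvd : g ∣ p ^ k := Nat.gcd_dvd_right _ _
  have hgpos : 0 < g := Nat.gcd_pos_of_pos_right _ hpk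
  -- Bezout
  have hbez : (g : ℤ) = c * Int.gcdA c ((p ^ k : ℕ) : ℤ) +
      ((p ^ k : ℕ) : ℤ) * Int.gcdB c ((p ^ k : ℕ) : ℤ) := by
    rw [← Int.gcd_eq_gcd_ab, hg]
    rfl
  -- `E[p^k] ⊆ E[g]`
  have hsub : ∀ P : (E⁄Qb).Point, (p ^ k) • P = 0 → g • P = 0 := by
    intro P hP
    have h1 : (g : ℤ) • P = 0 := by
      rw [hbez, add_zsmul, mul_comm c, mul_zsmul, h P hP, zsmul_zero, mul_comm, mul_zsmul,
        natCast_zsmul, hP, zsmul_zero, add_zero]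
    rwa [natCast_zsmul] at h1
  have hle : Submodule.torsionBy ℤ (E⁄Qb).Point ((p ^ k : ℕ) : ℤ) ≤
      Submodule.torsionBy ℤ (E⁄Qb).Point (g : ℤ) := by
    intro P hP
    rw [Submodule.mem_torsionBy_iff, natCast_zsmul] at hP ⊢
    exact hsub P hP
  have hfin := Fermat.Agent.Lib.TorsionCard.finite_torsionBy (E⁄Qb) g hgpos
  have hcard := Nat.card_le_card_of_injective _ (Submodule.inclusion_injective hle)
  rw [Fermat.Agent.Lib.TorsionCard.card_torsionBy (E⁄Qb) (p ^ k) hpk,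
    Fermat.Agent.Lib.TorsionCard.card_torsionBy (E⁄Qb) g hgpos] at hcard
  have hle2 : p ^ k ≤ g := le_of_not_gt fun hlt =>
    absurd hcard (not_le.mpr (Nat.pow_lt_pow_left hlt (by norm_num)))
  have hgeq : g = p ^ k := le_antisymm (Nat.le_of_dvd hpk hgdvd) hle2
  rw [Int.natCast_dvd, ← hgeq]
  exact Nat.gcd_dvd_left _ _

omit [E.IsElliptic] in
/-- The Frobenius relation on `E[p^k]` at the primes outside a finite set `S ∋ p` containing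
`2`, `3` and the primes of bad reduction. -/
theorem frobRel_outside {W : WeierstrassCurve ℤ} (hW : W.IsIntegralModelOf E) (S : Finset ℕ)
    (hS : ∀ ℓ : ℕ, ℓ.Prime → ℓ ∉ S → 5 ≤ ℓ ∧ W.IsGoodPrimeFor ℓ)
    {p : ℕ} (hp : p.Prime) (hpS : p ∈ S) (k : ℕ) (ℓ : ℕ) (hℓ : ℓ.Prime) (hℓS : ℓ ∉ S)
    (B : ValuationSubring Qb) (hB : B.LiesOverPrime ℓ) (s : Γ) (hs : B.IsFrobeniusAt s ℓ)
    (P : (E⁄Qb).Point) (hP : (p ^ k) • P = 0) :
    s • s • P - W.apOfModel ℓ • s • P + (ℓ : ℤ) • P = 0 := by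
  have hn : ¬ ℓ ∣ p ^ k := fun h =>
    hℓS (((Nat.prime_dvd_prime_iff_eq hℓ hp).mp (hℓ.dvd_of_dvd_pow h)) ▸ hpS)
  exact FrobRel.frobenius_relation E hW hℓ (hS ℓ hℓ hℓS).1 (hS ℓ hℓ hℓS).2 hn hB s hs P hP

end Point

/-! ### The transfer for `E(ℚ̄)` -/

section Wired

variable {A : Type} [CommRing A] [IsLocalRing A] [IsNoetherianRing A] (ρ : GaloisRepAdic A)
  (E : WeierstrassCurve ℚ) [E.IsElliptic] (S : Finset ℕ) (a : ℕ → ℤ)

/-- **Transfer for `E(ℚ̄)`, general element.**  `hT` is the Frobenius relation on `E[p^k]`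
outside `S` (see `frobRel_outside`). -/
theorem charpoly_eq_of_quadratic_E
    (hρ : ∀ ℓ : ℕ, ℓ.Prime → ℓ ∉ S → ∀ B : ValuationSubring Qb, B.LiesOverPrime ℓ →
      ∀ s : Γ, B.IsFrobeniusAt s ℓ →
        LinearMap.charpoly (ρ.ρ s) = X ^ 2 - C ((a ℓ : ℤ) : A) * X + C ((ℓ : ℕ) : A))
    {p : ℕ} (hp : p.Prime) (hpS : p ∈ S) (hpA : (p : A) ∈ IsLocalRing.maximalIdeal A)
    (hT : ∀ k : ℕ, ∀ ℓ : ℕ, ℓ.Prime → ℓ ∉ S → ∀ B : ValuationSubring Qb, B.LiesOverPrime ℓ →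
      ∀ s : Γ, B.IsFrobeniusAt s ℓ → ∀ P : (E⁄Qb).Point, (p ^ k) • P = 0 →
        s • s • P - a ℓ • s • P + (ℓ : ℤ) • P = 0)
    (τ : Γ) (t₀ : ℤ) (d₀ : ℕ)
    (hτ1 : ∀ (k : ℕ) (P : (E⁄Qb).Point), (p ^ k) • P = 0 →
      τ • τ • P - t₀ • τ • P + (d₀ : ℤ) • P = 0)
    (hτζ : ∀ (k : ℕ) (ζ : Qb), ζ ^ (p ^ k) = 1 → τ ζ = ζ ^ d₀) :
    LinearMap.charpoly (ρ.ρ τ) = X ^ 2 - C ((t₀ : ℤ) : A) * X + C ((d₀ : ℕ) : A) :=
  Fermat.Agent.S58.Transfer.charpoly_eq_of_quadratic ρ S a hρ hp hpS hpA hT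
    (fun k => exists_field_fixing_torsion E (p ^ k) (pow_pos hp.pos k))
    (fun k c h => dvd_of_forall_zsmul_eq_zero E hp k c h) τ t₀ d₀ hτ1 hτζ

/-- **Inertia.**  An element of an inertia group at `q ≠ p` with `(τ - 1)² = 0` on every
`E[p^k]` has `charpoly ρ(τ) = (X - 1)²`. -/
theorem charpoly_inertia
    (hρ : ∀ ℓ : ℕ, ℓ.Prime → ℓ ∉ S → ∀ B : ValuationSubring Qb, B.LiesOverPrime ℓ →
      ∀ s : Γ, B.IsFrobeniusAt s ℓ →
        LinearMap.charpoly (ρ.ρ s) = X ^ 2 - C ((a ℓ : ℤ) : A) * X + C ((ℓ : ℕ) : A))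
    {p : ℕ} (hp : p.Prime) (hpS : p ∈ S) (hpA : (p : A) ∈ IsLocalRing.maximalIdeal A)
    (hT : ∀ k : ℕ, ∀ ℓ : ℕ, ℓ.Prime → ℓ ∉ S → ∀ B : ValuationSubring Qb, B.LiesOverPrime ℓ →
      ∀ s : Γ, B.IsFrobeniusAt s ℓ → ∀ P : (E⁄Qb).Point, (p ^ k) • P = 0 →
        s • s • P - a ℓ • s • P + (ℓ : ℤ) • P = 0)
    {q : ℕ} (hq : q.Prime) (hqp : q ≠ p) (Pv : ValuationSubring Qb) (hPv : Pv.LiesOverPrime q)
    (τ : Γ) (hτ : τ ∈ Pv.inertiaSubgroupIn ℚ)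
    (hτ1 : ∀ (k : ℕ) (P : (E⁄Qb).Point), (p ^ k) • P = 0 →
      τ • τ • P - (2 : ℤ) • τ • P + P = 0) :
    LinearMap.charpoly (ρ.ρ τ) = (X - 1) ^ 2 :=
  Fermat.Agent.S58.Transfer.charpoly_eq_sq_of_unipotent ρ S a hρ hp hpS hpA hT
    (fun k => exists_field_fixing_torsion E (p ^ k) (pow_pos hp.pos k))
    (fun k c h => dvd_of_forall_zsmul_eq_zero E hp k c h) τ hτ1
    (fun _ _ hζ => Fermat.Agent.S31.Cyclo.inertia_apply_root Pv hq hp hqp hPv hτ hζ)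

/-- **Unipotence on inertia.**  If every inertia group at `q ≠ p` acts on every `E[p^k]`
through elements with `(τ - 1)² = 0`, then `ρ` is unipotent on inertia at `q`. -/
theorem isUnipotentOnInertiaAt
    (hρ : ∀ ℓ : ℕ, ℓ.Prime → ℓ ∉ S → ∀ B : ValuationSubring Qb, B.LiesOverPrime ℓ →
      ∀ s : Γ, B.IsFrobeniusAt s ℓ →
        LinearMap.charpoly (ρ.ρ s) = X ^ 2 - C ((a ℓ : ℤ) : A) * X + C ((ℓ : ℕ) : A))
    {p : ℕ} (hp : p.Prime) (hpS : p ∈ S) (hpA : (p : A) ∈ IsLocalRing.maximalIdeal A)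
    (hT : ∀ k : ℕ, ∀ ℓ : ℕ, ℓ.Prime → ℓ ∉ S → ∀ B : ValuationSubring Qb, B.LiesOverPrime ℓ →
      ∀ s : Γ, B.IsFrobeniusAt s ℓ → ∀ P : (E⁄Qb).Point, (p ^ k) • P = 0 →
        s • s • P - a ℓ • s • P + (ℓ : ℤ) • P = 0)
    {q : ℕ} (hq : q.Prime) (hqp : q ≠ p)
    (hunip : ∀ Pv : ValuationSubring Qb, Pv.LiesOverPrime q → ∀ τ ∈ Pv.inertiaSubgroupIn ℚ,
      ∀ (k : ℕ) (P : (E⁄Qb).Point), (p ^ k) • P = 0 → τ • τ • P - (2 : ℤ) • τ • P + P = 0) :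
    ρ.IsUnipotentOnInertiaAt q :=
  fun Pv hPv τ hτ =>
    charpoly_inertia ρ E S a hρ hp hpS hpA hT hq hqp Pv hPv τ hτ (hunip Pv hPv τ hτ)

/-- **Frobenius.**  A Frobenius element at `q ≠ p` (inside `S` or not) satisfying
`σ² - a_q σ + q = 0` on every `E[p^k]` has `charpoly ρ(σ) = X² - a_q X + q`. -/
theorem charpoly_frobenius
    (hρ : ∀ ℓ : ℕ, ℓ.Prime → ℓ ∉ S → ∀ B : ValuationSubring Qb, B.LiesOverPrime ℓ →
      ∀ s : Γ, B.IsFrobeniusAt s ℓ →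
        LinearMap.charpoly (ρ.ρ s) = X ^ 2 - C ((a ℓ : ℤ) : A) * X + C ((ℓ : ℕ) : A))
    {p : ℕ} (hp : p.Prime) (hpS : p ∈ S) (hpA : (p : A) ∈ IsLocalRing.maximalIdeal A)
    (hT : ∀ k : ℕ, ∀ ℓ : ℕ, ℓ.Prime → ℓ ∉ S → ∀ B : ValuationSubring Qb, B.LiesOverPrime ℓ →
      ∀ s : Γ, B.IsFrobeniusAt s ℓ → ∀ P : (E⁄Qb).Point, (p ^ k) • P = 0 →
        s • s • P - a ℓ • s • P + (ℓ : ℤ) • P = 0)
    {q : ℕ} (hq : q.Prime) (hqp : q ≠ p) (Bq : ValuationSubring Qb) (hBq : Bq.LiesOverPrime q)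
    (σ : Γ) (hσ : Bq.IsFrobeniusAt σ q) (aq : ℤ)
    (hσ1 : ∀ (k : ℕ) (P : (E⁄Qb).Point), (p ^ k) • P = 0 →
      σ • σ • P - aq • σ • P + (q : ℤ) • P = 0) :
    LinearMap.charpoly (ρ.ρ σ) = X ^ 2 - C ((aq : ℤ) : A) * X + C ((q : ℕ) : A) :=
  charpoly_eq_of_quadratic_E ρ E S a hρ hp hpS hpA hT σ aq q hσ1
    (fun _ _ hζ => Fermat.Agent.S31.Cyclo.frobenius_apply_root Bq hq hp hqp hBq hσ hζ)

/-- **Frobenius at a good prime `q ≥ 5`, `q ≠ p`** (inside `S` or not):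
`charpoly ρ(Frob_q) = X² - a_q(W) X + q`. -/
theorem charpoly_frobenius_of_good {W : WeierstrassCurve ℤ} (hW : W.IsIntegralModelOf E)
    (hρ : ∀ ℓ : ℕ, ℓ.Prime → ℓ ∉ S → ∀ B : ValuationSubring Qb, B.LiesOverPrime ℓ →
      ∀ s : Γ, B.IsFrobeniusAt s ℓ →
        LinearMap.charpoly (ρ.ρ s) = X ^ 2 - C ((a ℓ : ℤ) : A) * X + C ((ℓ : ℕ) : A))
    {p : ℕ} (hp : p.Prime) (hpS : p ∈ S) (hpA : (p : A) ∈ IsLocalRing.maximalIdeal A)
    (hT : ∀ k : ℕ, ∀ ℓ : ℕ, ℓ.Prime → ℓ ∉ S → ∀ B : ValuationSubring Qb, B.LiesOverPrime ℓ →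
      ∀ s : Γ, B.IsFrobeniusAt s ℓ → ∀ P : (E⁄Qb).Point, (p ^ k) • P = 0 →
        s • s • P - a ℓ • s • P + (ℓ : ℤ) • P = 0)
    {q : ℕ} (hq : q.Prime) (hqp : q ≠ p) (h5 : 5 ≤ q) (hgood : W.IsGoodPrimeFor q)
    (Bq : ValuationSubring Qb) (hBq : Bq.LiesOverPrime q) (σ : Γ) (hσ : Bq.IsFrobeniusAt σ q) :
    LinearMap.charpoly (ρ.ρ σ) =
      X ^ 2 - C ((W.apOfModel q : ℤ) : A) * X + C ((q : ℕ) : A) := by
  refine charpoly_frobenius ρ E S a hρ hp hpS hpA hT hq hqp Bq hBq σ hσ (W.apOfModel q)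
    fun k P hP => ?_
  have hn : ¬ q ∣ p ^ k := fun h =>
    hqp ((Nat.prime_dvd_prime_iff_eq hq hp).mp (hq.dvd_of_dvd_pow h))
  exact FrobRel.frobenius_relation E hW hq h5 hgood hn hBq σ hσ P hP

end Wired

/-! ### The integral model `W`: steps (3), (4), (5) of the S58 route -/

section Model

open Fermat.Agent.S58.Curve

variable (W : WeierstrassCurve ℤ)

/-- `EQ W` is an elliptic curve when `Δ(W) ≠ 0`. -/
theorem isElliptic_EQ (hΔ : W.Δ ≠ 0) : (EQ W).IsElliptic :=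
  ⟨by rw [EQ_Δ]; exact isUnit_iff_ne_zero.mpr (Int.cast_ne_zero.mpr hΔ)⟩

/-- Input (FA): the Frobenius relation on prime-to-`ℓ` torsion at every good prime `ℓ`. -/
def FrobAll : Prop :=
  ∀ (ℓ n : ℕ), ℓ.Prime → W.IsGoodPrimeFor ℓ → ¬ ℓ ∣ n → ∀ B : ValuationSubring Qb,
    B.LiesOverPrime ℓ → ∀ σ : Γ, B.IsFrobeniusAt σ ℓ → ∀ P : ((EQ W)⁄Qb).Point, n • P = 0 →
      σ • σ • P - W.apOfModel ℓ • σ • P + (ℓ : ℤ) • P = 0

/-- Input (U): inertia at a multiplicative prime `q` acts unipotently on prime-to-`q` torsion. -/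
def UnipBad : Prop :=
  ∀ (q : ℕ), q.Prime → (q : ℤ) ∣ W.Δ → ¬ (q : ℤ) ∣ W.c₄ → ∀ B : ValuationSubring Qb,
    B.LiesOverPrime q → ∀ τ : Γ, τ ∈ B.inertiaSubgroupIn ℚ → ∀ m : ℕ, ¬ q ∣ m →
      ∀ P : ((EQ W)⁄Qb).Point, m • P = 0 → τ • τ • P - (2 : ℤ) • τ • P + P = 0

/-- Input (G): inertia at a good prime `q` acts trivially on prime-to-`q` torsion. -/
def TrivGood : Prop :=
  ∀ (q : ℕ), q.Prime → W.IsGoodPrimeFor q → ∀ B : ValuationSubring Qb,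
    B.LiesOverPrime q → ∀ τ : Γ, τ ∈ B.inertiaSubgroupIn ℚ → ∀ m : ℕ, ¬ q ∣ m →
      ∀ P : ((EQ W)⁄Qb).Point, m • P = 0 → τ • P = P

/-- The part of (FA) at the primes `ℓ ≥ 5` is the landed `FrobRel.frobenius_relation`. -/
theorem frobAll_of_ge_five {ℓ n : ℕ} (hℓ : ℓ.Prime) (h5 : 5 ≤ ℓ) (hgood : W.IsGoodPrimeFor ℓ)
    (hn : ¬ ℓ ∣ n) (B : ValuationSubring Qb) (hB : B.LiesOverPrime ℓ) (σ : Γ)
    (hσ : B.IsFrobeniusAt σ ℓ) (P : ((EQ W)⁄Qb).Point) (hP : n • P = 0) :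
    σ • σ • P - W.apOfModel ℓ • σ • P + (ℓ : ℤ) • P = 0 :=
  FrobRel.frobenius_relation (EQ W) (isIntegralModelOf_EQ W) hℓ h5 hgood hn hB σ hσ P hP

variable {W}

/-- A prime different from `p` does not divide `p ^ k`. -/
theorem not_dvd_pow_of_ne {q p : ℕ} (hq : q.Prime) (hp : p.Prime) (hqp : q ≠ p) (k : ℕ) :
    ¬ q ∣ p ^ k :=
  fun h => hqp ((Nat.prime_dvd_prime_iff_eq hq hp).mp (hq.dvd_of_dvd_pow h))

variable {A : Type} [CommRing A] [IsLocalRing A] [IsNoetherianRing A] (ρ : GaloisRepAdic A)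
  (Sf : Finset ℕ)

/-- `hT` of the transfer from (FA), for a set `Sf ∋ p` containing the bad primes. -/
theorem hT_of_frobAll (hFA : FrobAll W) (hSf : ∀ ℓ : ℕ, ℓ.Prime → ℓ ∉ Sf → W.IsGoodPrimeFor ℓ)
    {p : ℕ} (hp : p.Prime) (hpS : p ∈ Sf) (k : ℕ) (ℓ : ℕ) (hℓ : ℓ.Prime) (hℓS : ℓ ∉ Sf)
    (B : ValuationSubring Qb) (hB : B.LiesOverPrime ℓ) (s : Γ) (hs : B.IsFrobeniusAt s ℓ)
    (P : ((EQ W)⁄Qb).Point) (hP : (p ^ k) • P = 0) :
    s • s • P - W.apOfModel ℓ • s • P + (ℓ : ℤ) • P = 0 :=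
  hFA ℓ (p ^ k) hℓ (hSf ℓ hℓ hℓS)
    (not_dvd_pow_of_ne hℓ hp (fun h => hℓS (h ▸ hpS)) k) B hB s hs P hP

/-- **(TE1), step (3).**  `W` semistable, `ρ` with Frobenius characteristic polynomials
`X² - a_ℓ(W) X + ℓ` outside `Sf ∋ p`, `Sf` containing the bad primes.  Every element of an
inertia group at a prime `q ≠ p` has `charpoly ρ(τ) = (X - 1)²`. -/
theorem charpoly_inertia_of (hΔ : W.Δ ≠ 0) (hss : W.IsSemistableModel)
    (hFA : FrobAll W) (hU : UnipBad W) (hG : TrivGood W)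
    (hρ : ∀ ℓ : ℕ, ℓ.Prime → ℓ ∉ Sf → ∀ B : ValuationSubring Qb, B.LiesOverPrime ℓ →
      ∀ s : Γ, B.IsFrobeniusAt s ℓ →
        LinearMap.charpoly (ρ.ρ s) = X ^ 2 - C ((W.apOfModel ℓ : ℤ) : A) * X + C ((ℓ : ℕ) : A))
    {p : ℕ} (hp : p.Prime) (hpS : p ∈ Sf) (hpA : (p : A) ∈ IsLocalRing.maximalIdeal A)
    (hSf : ∀ ℓ : ℕ, ℓ.Prime → ℓ ∉ Sf → W.IsGoodPrimeFor ℓ)
    {q : ℕ} (hq : q.Prime) (hqp : q ≠ p) (B : ValuationSubring Qb) (hB : B.LiesOverPrime q)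
    (τ : Γ) (hτ : τ ∈ B.inertiaSubgroupIn ℚ) :
    LinearMap.charpoly (ρ.ρ τ) = (X - 1) ^ 2 := by
  have := isElliptic_EQ W hΔ
  refine charpoly_inertia ρ (EQ W) Sf W.apOfModel hρ hp hpS hpA
    (fun k => hT_of_frobAll Sf hFA hSf hp hpS k) hq hqp B hB τ hτ fun k P hP => ?_
  have hn := not_dvd_pow_of_ne hq hp hqp k
  by_cases hbad : (q : ℤ) ∣ W.Δ
  · exact hU q hq hbad (hss q hq hbad) B hB τ hτ (p ^ k) hn P hP
  · have h1 : τ • P = P := hG q hq hbad B hB τ hτ (p ^ k) hn P hP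
    rw [h1, h1, two_zsmul]
    abel

/-- **Step (3), packaged.**  `ρ` is unipotent on inertia at every prime `q ≠ p`. -/
theorem isUnipotentOnInertiaAt_of (hΔ : W.Δ ≠ 0) (hss : W.IsSemistableModel)
    (hFA : FrobAll W) (hU : UnipBad W) (hG : TrivGood W)
    (hρ : ∀ ℓ : ℕ, ℓ.Prime → ℓ ∉ Sf → ∀ B : ValuationSubring Qb, B.LiesOverPrime ℓ →
      ∀ s : Γ, B.IsFrobeniusAt s ℓ →
        LinearMap.charpoly (ρ.ρ s) = X ^ 2 - C ((W.apOfModel ℓ : ℤ) : A) * X + C ((ℓ : ℕ) : A))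
    {p : ℕ} (hp : p.Prime) (hpS : p ∈ Sf) (hpA : (p : A) ∈ IsLocalRing.maximalIdeal A)
    (hSf : ∀ ℓ : ℕ, ℓ.Prime → ℓ ∉ Sf → W.IsGoodPrimeFor ℓ)
    {q : ℕ} (hq : q.Prime) (hqp : q ≠ p) : ρ.IsUnipotentOnInertiaAt q :=
  fun B hB τ hτ =>
    charpoly_inertia_of ρ Sf hΔ hss hFA hU hG hρ hp hpS hpA hSf hq hqp B hB τ hτ

/-- **Steps (4), (5), polynomial form.**  For a good prime `q ≠ p` (in `Sf` or not) and a
Frobenius element `σ` at `q`: `charpoly ρ(σ) = X² - a_q(W) X + q`. -/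
theorem charpoly_frobenius_of (hΔ : W.Δ ≠ 0) (hFA : FrobAll W)
    (hρ : ∀ ℓ : ℕ, ℓ.Prime → ℓ ∉ Sf → ∀ B : ValuationSubring Qb, B.LiesOverPrime ℓ →
      ∀ s : Γ, B.IsFrobeniusAt s ℓ →
        LinearMap.charpoly (ρ.ρ s) = X ^ 2 - C ((W.apOfModel ℓ : ℤ) : A) * X + C ((ℓ : ℕ) : A))
    {p : ℕ} (hp : p.Prime) (hpS : p ∈ Sf) (hpA : (p : A) ∈ IsLocalRing.maximalIdeal A)
    (hSf : ∀ ℓ : ℕ, ℓ.Prime → ℓ ∉ Sf → W.IsGoodPrimeFor ℓ)
    {q : ℕ} (hq : q.Prime) (hqp : q ≠ p) (hgood : W.IsGoodPrimeFor q)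
    (B : ValuationSubring Qb) (hB : B.LiesOverPrime q) (σ : Γ) (hσ : B.IsFrobeniusAt σ q) :
    LinearMap.charpoly (ρ.ρ σ) =
      X ^ 2 - C ((W.apOfModel q : ℤ) : A) * X + C ((q : ℕ) : A) := by
  have := isElliptic_EQ W hΔ
  exact charpoly_frobenius ρ (EQ W) Sf W.apOfModel hρ hp hpS hpA
    (fun k => hT_of_frobAll Sf hFA hSf hp hpS k) hq hqp B hB σ hσ (W.apOfModel q)
    fun k P hP => hFA q (p ^ k) hq hgood (not_dvd_pow_of_ne hq hp hqp k) B hB σ hσ P hP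

/-- **(TE2), steps (4), (5).**  For a good prime `q ≠ p` and a Frobenius element `σ` at `q`:
if `charpoly ρ(σ) = X² - c X + d` then `c = a_q(W)` and `d = q`. -/
theorem coeff_frobenius_of (hΔ : W.Δ ≠ 0) (hFA : FrobAll W)
    (hρ : ∀ ℓ : ℕ, ℓ.Prime → ℓ ∉ Sf → ∀ B : ValuationSubring Qb, B.LiesOverPrime ℓ →
      ∀ s : Γ, B.IsFrobeniusAt s ℓ →
        LinearMap.charpoly (ρ.ρ s) = X ^ 2 - C ((W.apOfModel ℓ : ℤ) : A) * X + C ((ℓ : ℕ) : A))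
    {p : ℕ} (hp : p.Prime) (hpS : p ∈ Sf) (hpA : (p : A) ∈ IsLocalRing.maximalIdeal A)
    (hSf : ∀ ℓ : ℕ, ℓ.Prime → ℓ ∉ Sf → W.IsGoodPrimeFor ℓ)
    {q : ℕ} (hq : q.Prime) (hqp : q ≠ p) (hgood : W.IsGoodPrimeFor q)
    (B : ValuationSubring Qb) (hB : B.LiesOverPrime q) (σ : Γ) (hσ : B.IsFrobeniusAt σ q)
    (c d : A) (hc : LinearMap.charpoly (ρ.ρ σ) = X ^ 2 - C c * X + C d) :
    c = ((W.apOfModel q : ℤ) : A) ∧ d = ((q : ℕ) : A) := by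
  have h := charpoly_frobenius_of ρ Sf hΔ hFA hρ hp hpS hpA hSf hq hqp hgood B hB σ hσ
  rw [hc] at h
  have h1 := congrArg (fun f : A[X] => f.coeff 1) h
  have h0 := congrArg (fun f : A[X] => f.coeff 0) h
  simp at h1 h0
  exact ⟨h1, h0⟩

end Model

end Fermat.Agent.S58.TransferE
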