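/-
# S58 — the trivial point count bound `|a_q| ≤ q` (helper299)

A Weierstrass curve over a finite field `F` has at most `2 #F + 1` points (at most two `y`
over each `x`, plus the point at infinity) and at least one.  Hence
`|W.apOfModel q| ≤ q` for every integral Weierstrass model and every prime `q`
(no good-reduction hypothesis), and in particular `a_q(W) ≠ ± (q + 1)`.
-/
import Mathlib
import Fermat.Prelude.Def_FLTPrelim_Modularity

set_option autoImplicit false

namespace Fermat.Agent.S58.ApBound

open WeierstrassCurve Polynomial

section Field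

variable {F : Type*} [Field F] [Fintype F] (W : WeierstrassCurve.Affine F)

/-- At most two `y` over each `x`. -/
theorem card_fiber_le (x : F) : Nat.card {y : F // W.Equation x y} ≤ 2 := by
  classical
  have hmonic : (W.polynomial.map (evalRingHom x)).Monic := Affine.monic_polynomial.map _
  have hdeg : (W.polynomial.map (evalRingHom x)).natDegree ≤ 2 :=
    natDegree_map_le.trans Affine.natDegree_polynomial.le
  have hsub : Finset.univ.filter (fun y : F => W.Equation x y) ⊆
      (W.polynomial.map (evalRingHom x)).roots.toFinset := by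
    intro y hy
    rw [Finset.mem_filter] at hy
    rw [Multiset.mem_toFinset, mem_roots hmonic.ne_zero, IsRoot.def, map_evalRingHom_eval]
    exact hy.2
  rw [Nat.card_eq_fintype_card, Fintype.card_subtype]
  calc (Finset.univ.filter (fun y : F => W.Equation x y)).card
      ≤ (W.polynomial.map (evalRingHom x)).roots.toFinset.card := Finset.card_le_card hsub
    _ ≤ Multiset.card (W.polynomial.map (evalRingHom x)).roots := Multiset.toFinset_card_le _
    _ ≤ (W.polynomial.map (evalRingHom x)).natDegree := card_roots' _
    _ ≤ 2 := hdeg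

/-- The affine solutions of the Weierstrass equation: at most `2 #F`. -/
theorem card_equation_le : Nat.card (Σ x : F, {y : F // W.Equation x y}) ≤ 2 * Nat.card F := by
  classical
  rw [Nat.card_sigma]
  calc ∑ x : F, Nat.card {y : F // W.Equation x y} ≤ ∑ _x : F, 2 :=
        Finset.sum_le_sum (fun x _ => card_fiber_le W x)
    _ = 2 * Nat.card F := by
        rw [Finset.sum_const, Finset.card_univ, Nat.card_eq_fintype_card, smul_eq_mul, mul_comm]

/-- Encoding of a point. -/
def encode : W.Point → Option (Σ x : F, {y : F // W.Equation x y})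
  | .zero => none
  | .some x y h => some ⟨x, y, h.1⟩

theorem encode_injective : Function.Injective (encode W) := by
  rintro (_ | ⟨x₁, y₁, h₁⟩) (_ | ⟨x₂, y₂, h₂⟩) h <;>
    simp only [encode, Option.some.injEq, reduceCtorEq] at h
  · rfl
  · obtain ⟨rfl, h'⟩ := Sigma.mk.inj_iff.mp h
    have := Subtype.mk.inj (eq_of_heq h')
    subst this
    rfl

/-- A Weierstrass curve over a finite field has at most `2 #F + 1` points. -/
theorem card_point_le : Nat.card W.Point ≤ 2 * Nat.card F + 1 := by
  classical
  calc Nat.card W.Point ≤ Nat.card (Option (Σ x : F, {y : F // W.Equation x y})) :=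
        Nat.card_le_card_of_injective _ (encode_injective W)
    _ = Nat.card (Σ x : F, {y : F // W.Equation x y}) + 1 := by
        rw [Nat.card_eq_fintype_card, Fintype.card_option, Nat.card_eq_fintype_card]
    _ ≤ 2 * Nat.card F + 1 := Nat.add_le_add_right (card_equation_le W) 1

/-- A Weierstrass curve over a finite field has at least one point. -/
theorem one_le_card_point : 1 ≤ Nat.card W.Point := by
  haveI : Finite W.Point := Finite.of_injective _ (encode_injective W)
  haveI : Nonempty W.Point := ⟨0⟩
  exact Nat.card_pos

end Field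

/-- `|q + 1 - #W(F_q)| ≤ q` over a finite field. -/
theorem abs_traceOfFrobenius_le {F : Type*} [Field F] [Fintype F] (W : WeierstrassCurve F) :
    |W.traceOfFrobenius| ≤ (Nat.card F : ℤ) := by
  have h1 := card_point_le W.toAffine
  have h2 := one_le_card_point W.toAffine
  unfold WeierstrassCurve.traceOfFrobenius WeierstrassCurve.card
  rw [abs_le]
  constructor <;> omega

/-- **Trivial bound**: `|a_q(W)| ≤ q` for every prime `q` (no good-reduction hypothesis). -/
theorem abs_apOfModel_le (W : WeierstrassCurve ℤ) {q : ℕ} (hq : q.Prime) :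
    |W.apOfModel q| ≤ (q : ℤ) := by
  haveI : Fact q.Prime := ⟨hq⟩
  have := abs_traceOfFrobenius_le (W.reductionMod q)
  rwa [Nat.card_zmod] at this

theorem apOfModel_ne_add_one (W : WeierstrassCurve ℤ) {q : ℕ} (hq : q.Prime) :
    W.apOfModel q ≠ (q : ℤ) + 1 := by
  intro h
  have := abs_apOfModel_le W hq
  rw [h, abs_le] at this
  omega

theorem apOfModel_ne_neg_add_one (W : WeierstrassCurve ℤ) {q : ℕ} (hq : q.Prime) :
    W.apOfModel q ≠ -((q : ℤ) + 1) := by
  intro h
  have := abs_apOfModel_le W hq
  rw [h, abs_le] at this
  omega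

/-- Complex form, as consumed next to `qCoeff`. -/
theorem apOfModel_cast_ne (W : WeierstrassCurve ℤ) {q : ℕ} (hq : q.Prime) :
    (W.apOfModel q : ℂ) ≠ (q : ℂ) + 1 ∧ (W.apOfModel q : ℂ) ≠ -((q : ℂ) + 1) := by
  constructor
  · intro h
    exact apOfModel_ne_add_one W hq (by exact_mod_cast h)
  · intro h
    exact apOfModel_ne_neg_add_one W hq (by exact_mod_cast h)

end Fermat.Agent.S58.ApBound
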