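/-
S58 (conductor-level matching), coefficient data for S35 / S36 (route of helper68 #3722, (B5);
route note of helper168, sec. 1).

For a normalized eigenform `g` of level `M`, a prime `lam` and a finite set `S` containing the
primes of `M`, `exists_coeff` produces the binders `O'`, `hlamO'`, `chig`, `hchig`, `iota` of the
frozen statements S35 / S36, with `iota` INJECTIVE:

* `chig` is the eigencharacter of `g` (`S29.Eigen.eigenChar`);
* its range is a finite `ℤ`-algebra inside `ℂ`, hence embeds into the ring of integers of a number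
  field `E` (`S29.Eigen.exists_numberField_factor`);
* `O'` is the complete DVR of `S29.CompleteDVR.exists_complete_dvr` at a prime of `𝓞 E` over `lam`.

Adapters: `comp_rangeRestrict_eq_intCast` (the S35 / S36 Frobenius coefficient is an integer when
the eigenvalue is) and `eq_intCast_of_algebraMap` (back from `O''` to `ℂ`, by injectivity).
-/
import Mathlib
import Fermat.Agent.S29.Eigen
import Fermat.Agent.S29.CompleteDVR

set_option autoImplicit false
set_option linter.style.haveILetI false

open scoped NumberField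

namespace Fermat.Agent.S58.Coeff

open Fermat.Agent.S29

/-! ### Adapters (any character, any coefficient ring) -/

section adapters

variable {T O' : Type*} [CommRing T] [CommRing O'] (chig : T →+* ℂ) (iota : chig.range →+* O')

/-- If the eigenvalue `chig t` is the integer `a`, then the coefficient of S35 / S36 is `a`. -/
theorem comp_rangeRestrict_eq_intCast (t : T) (a : ℤ) (h : chig t = (a : ℂ)) :
    (iota.comp chig.rangeRestrict) t = (a : O') := by
  have h1 : chig.rangeRestrict t = ((a : ℤ) : chig.range) := Subtype.ext (by simpa using h)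
  rw [RingHom.comp_apply, h1, map_intCast]

/-- Conversely, for an injective `iota` and an injective `O' → O''`: if the coefficient of
S35 / S36 is the integer `a` in `O''`, then the eigenvalue `chig t` is `a`. -/
theorem eq_intCast_of_algebraMap (hiota : Function.Injective iota) {O'' : Type*} [CommRing O'']
    [Algebra O' O''] (hinj : Function.Injective (algebraMap O' O'')) (t : T) (a : ℤ)
    (h : algebraMap O' O'' ((iota.comp chig.rangeRestrict) t) = (a : O'')) :
    chig t = (a : ℂ) := by
  have h1 : (iota.comp chig.rangeRestrict) t = (a : O') := hinj (by rw [h, map_intCast])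
  have h2 : chig.rangeRestrict t = ((a : ℤ) : chig.range) :=
    hiota (by rw [← RingHom.comp_apply, h1, map_intCast])
  have h3 := congrArg Subtype.val h2
  simpa using h3

end adapters

/-! ### A prime of `𝓞 E` over `lam` -/

/-- A ring homomorphism from `𝓞 E` onto a field of characteristic `lam`. -/
theorem exists_charP_point (lam : ℕ) [Fact lam.Prime] (E : Type) [Field E] [NumberField E] :
    ∃ (k : Type) (_ : Field k) (_ : CharP k lam), Nonempty (𝓞 E →+* k) := by
  have hlam : lam.Prime := Fact.out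
  haveI hmax : (Ideal.span {(lam : ℤ)}).IsMaximal :=
    PrincipalIdealRing.isMaximal_of_irreducible (Nat.prime_iff_prime_int.mp hlam).irreducible
  obtain ⟨Q, hQ, hQP⟩ := Ideal.exists_ideal_over_maximal_of_isIntegral (S := 𝓞 E)
    (Ideal.span {(lam : ℤ)}) (by
      rw [(RingHom.injective_iff_ker_eq_bot _).mp (RingHom.injective_int (algebraMap ℤ (𝓞 E)))]
      exact bot_le)
  letI : Field (𝓞 E ⧸ Q) := Ideal.Quotient.field Q
  have h0 : ((lam : ℕ) : 𝓞 E ⧸ Q) = 0 := by
    have h1 : algebraMap ℤ (𝓞 E) (lam : ℤ) ∈ Q := by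
      have : (lam : ℤ) ∈ Q.comap (algebraMap ℤ (𝓞 E)) := by
        rw [hQP]; exact Ideal.mem_span_singleton_self _
      exact this
    have h2 : Ideal.Quotient.mk Q (algebraMap ℤ (𝓞 E) (lam : ℤ)) = 0 :=
      Ideal.Quotient.eq_zero_iff_mem.mpr h1
    simpa using h2
  obtain ⟨c, hc⟩ := CharP.exists (𝓞 E ⧸ Q)
  have hdvd : c ∣ lam := (CharP.cast_eq_zero_iff (𝓞 E ⧸ Q) c lam).mp h0
  have hc1 : c ≠ 1 := CharP.char_ne_one (𝓞 E ⧸ Q) c
  have hceq : c = lam := (Nat.dvd_prime hlam).mp hdvd |>.resolve_left hc1
  subst hceq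
  exact ⟨𝓞 E ⧸ Q, inferInstance, hc, ⟨Ideal.Quotient.mk Q⟩⟩

/-- A ring homomorphism from `𝓞 E` to a domain of characteristic zero is injective. -/
theorem injective_of_charZero {E : Type} [Field E] [NumberField E] {O' : Type} [CommRing O']
    [IsDomain O'] [CharZero O'] (ι : 𝓞 E →+* O') : Function.Injective ι := by
  rw [RingHom.injective_iff_ker_eq_bot]
  haveI : (RingHom.ker ι).IsPrime := RingHom.ker_isPrime ι
  apply Ideal.eq_bot_of_comap_eq_bot (R := ℤ)
  rw [eq_bot_iff]
  intro n hn
  rw [Ideal.mem_comap, RingHom.mem_ker, eq_intCast, map_intCast] at hn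
  rw [Ideal.mem_bot]
  exact_mod_cast hn

/-! ### The coefficient data -/

/-- **Coefficient data for S35 / S36**: a complete DVR `O'` with `lam` in its maximal ideal, the
eigencharacter `chig` of `g` and an injective `iota : chig.range →+* O'`. -/
theorem exists_coeff {M : ℕ} [NeZero M] {g : CuspForm (CongruenceSubgroup.Gamma0 M) 2}
    (hg : g.IsNormalizedEigenform) (lam : ℕ) [Fact lam.Prime] (S : Finset ℕ)
    (hMS : ∀ q : ℕ, q.Prime → q ∣ M → q ∈ S) :
    ∃ (O' : Type) (_ : CommRing O') (_ : IsDomain O') (_ : IsDiscreteValuationRing O')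
      (_ : IsAdicComplete (IsLocalRing.maximalIdeal O') O')
      (_ : Finite (IsLocalRing.ResidueField O')) (_ : CharZero O'),
      (lam : O') ∈ IsLocalRing.maximalIdeal O' ∧
      ∃ chig : CuspForm.heckeAlgebra M 2 (↑S : Set ℕ) →+* ℂ,
        (∀ (ℓ : ℕ) (hℓ : ℓ.Prime) (hℓM : ¬ ℓ ∣ M) (hℓS : ℓ ∉ (↑S : Set ℕ)),
          chig (CuspForm.heckeAlgebra.T hℓ hℓM hℓS) = ModularFormClass.qCoeff g ℓ) ∧
        ∃ iota : chig.range →+* O', Function.Injective iota := by
  classical
  have hMS' : ∀ q : ℕ, q.Prime → q ∣ M → q ∈ (↑S : Set ℕ) := fun q hq hqM =>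
    Finset.mem_coe.mpr (hMS q hq hqM)
  -- the eigencharacter
  let chig : CuspForm.heckeAlgebra M 2 (↑S : Set ℕ) →+* ℂ := Eigen.eigenChar hg hMS'
  have hchig : ∀ (ℓ : ℕ) (hℓ : ℓ.Prime) (hℓM : ¬ ℓ ∣ M) (hℓS : ℓ ∉ (↑S : Set ℕ)),
      chig (CuspForm.heckeAlgebra.T hℓ hℓM hℓS) = ModularFormClass.qCoeff g ℓ :=
    fun ℓ hℓ hℓM hℓS => Eigen.eigenChar_T hg hMS' hℓ hℓM hℓS
  -- its range is a finite `ℤ`-algebra of algebraic integers
  haveI hfinT : Module.Finite ℤ (CuspForm.heckeAlgebra M 2 (↑S : Set ℕ)) :=
    Fermat.Agent.S22.result M 2 _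
  haveI hfinR : Module.Finite ℤ chig.range :=
    Module.Finite.of_surjective (chig.rangeRestrict.toIntAlgHom.toLinearMap)
      chig.rangeRestrict_surjective
  have hint : ∀ x : chig.range, (x : ℂ) ∈ integralClosure ℤ ℂ := by
    rintro ⟨x, t, rfl⟩
    exact Eigen.isIntegral_eigenChar hg hMS' t
  let χ₀ : chig.range →+* integralClosure ℤ ℂ :=
    (chig.range.subtype).codRestrict (integralClosure ℤ ℂ) hint
  have hχ₀ : Function.Injective χ₀ := fun x y hxy => by
    have := congrArg (fun z : integralClosure ℤ ℂ => (z : ℂ)) hxy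
    exact Subtype.ext this
  -- a number field carrying the range
  obtain ⟨E, _, _, χE, incl, hincl⟩ := Eigen.exists_numberField_factor χ₀
  have hχE : Function.Injective χE := fun x y hxy => hχ₀ (by rw [← hincl, ← hincl, hxy])
  -- a point of characteristic `lam` and the complete DVR
  obtain ⟨k, _, _, ⟨f⟩⟩ := exists_charP_point lam E
  obtain ⟨O', i1, i2, i3, i4, i5, i6, hlamO', ι, -, -⟩ := CompleteDVR.exists_complete_dvr lam E f
  exact ⟨O', i1, i2, i3, i4, i5, i6, hlamO', chig, hchig, ι.comp χE,
    (injective_of_charZero ι).comp hχE⟩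

end Fermat.Agent.S58.Coeff
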