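/-
S58 (conductor-level matching), wiring step "Attach" (ORDER #1 of helper68, rows (W3) / (W4)).

From a newform `g` of level `M` whose good eigenvalues away from `N` are the `a_ℓ(W)`, a prime
`lam` and a finite set `S ∋ lam` containing the primes of `M`, an external input of the shape of
S35 / S36 (`exists_rep_of`; `exists_rep_S35` for `Hyps.S35Statement`) produces a DVR `A` of
characteristic zero with `lam ∈ 𝔪_A` and `ρ : GaloisRepAdic A` such that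

* (`hρ`)   `charpoly ρ(Frob_ℓ) = X² - a_ℓ(W) X + ℓ` at every prime `ℓ ∉ Sf`
           (the hypothesis `hρ` of `S58.Transfer` / `S58.TransferE`, with `a := W.apOfModel`);
* (`hrefl`) at every prime `ℓ ∉ S` the characteristic polynomial of a Frobenius element is
           `X² - c X + ℓ`, and `c = (a : A)` with `a : ℤ` forces `a_ℓ(g) = a`;
* the second clause of the external statement (for S35: the Steinberg clause).

`Sf` is any finite set with `ℓ ∉ Sf → ℓ ∉ S ∧ W good at ℓ ∧ ℓ ∤ N`; `sf W N S` is the canonical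
choice (it also contains `2` and `3`, as `TransferE.frobRel_outside` wants).
-/
import Mathlib
import Fermat.Prelude.Def_FLTPrelim_Modularity
import Fermat.Agent.S58.Hyps
import Fermat.Agent.S58.Coeff

set_option autoImplicit false

open Polynomial

namespace Fermat.Agent.S58.Attach

local notation "Qb" => AlgebraicClosure ℚ
local notation "Γ" => (AlgebraicClosure ℚ ≃ₐ[ℚ] AlgebraicClosure ℚ)

/-! ### The exceptional set -/

/-- The canonical exceptional set: `S`, the primes `2` and `3`, the primes of `N` and the primes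
of bad reduction of `W`. -/
def sf (W : WeierstrassCurve ℤ) (N : ℕ) (S : Finset ℕ) : Finset ℕ :=
  S ∪ {2, 3} ∪ N.primeFactors ∪ W.Δ.natAbs.primeFactors

theorem subset_sf (W : WeierstrassCurve ℤ) (N : ℕ) (S : Finset ℕ) : S ⊆ sf W N S := by
  intro x hx
  simp only [sf, Finset.mem_union]
  exact Or.inl (Or.inl (Or.inl hx))

theorem mem_sf_of_mem (W : WeierstrassCurve ℤ) (N : ℕ) {S : Finset ℕ} {x : ℕ} (hx : x ∈ S) :
    x ∈ sf W N S := subset_sf W N S hx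

/-- Outside `sf W N S`: not in `S`, at least `5`, of good reduction, prime to `N`. -/
theorem sf_spec (W : WeierstrassCurve ℤ) (hΔ : W.Δ ≠ 0) {N : ℕ} (hN : N ≠ 0) (S : Finset ℕ)
    (ℓ : ℕ) (hℓ : ℓ.Prime) (hℓS : ℓ ∉ sf W N S) :
    ℓ ∉ S ∧ 5 ≤ ℓ ∧ W.IsGoodPrimeFor ℓ ∧ ¬ ℓ ∣ N := by
  simp only [sf, Finset.mem_union, Finset.mem_insert, Finset.mem_singleton, not_or] at hℓS
  obtain ⟨⟨⟨h1, h2, h3⟩, h4⟩, h5⟩ := hℓS
  refine ⟨h1, ?_, ?_, ?_⟩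
  · by_contra hlt
    have h2' := hℓ.two_le
    have : ℓ = 4 := by omega
    subst this
    exact absurd hℓ (by norm_num)
  · intro hdvd
    apply h5
    rw [Nat.mem_primeFactors]
    exact ⟨hℓ, Int.natCast_dvd.mp hdvd, Int.natAbs_ne_zero.mpr hΔ⟩
  · intro hdvd
    exact h4 (Nat.mem_primeFactors.mpr ⟨hℓ, hdvd, hN⟩)

/-- The hypothesis `hS` of `TransferE.frobRel_outside` for `sf W N S`. -/
theorem sf_good (W : WeierstrassCurve ℤ) (hΔ : W.Δ ≠ 0) {N : ℕ} (hN : N ≠ 0) (S : Finset ℕ) :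
    ∀ ℓ : ℕ, ℓ.Prime → ℓ ∉ sf W N S → 5 ≤ ℓ ∧ W.IsGoodPrimeFor ℓ := fun ℓ hℓ hℓS =>
  ⟨(sf_spec W hΔ hN S ℓ hℓ hℓS).2.1, (sf_spec W hΔ hN S ℓ hℓ hℓS).2.2.1⟩

/-- The hypothesis `hSf` of `exists_rep_of` / `exists_rep_S35` for `sf W N S`. -/
theorem sf_hSf (W : WeierstrassCurve ℤ) (hΔ : W.Δ ≠ 0) {N : ℕ} (hN : N ≠ 0) (S : Finset ℕ) :
    ∀ ℓ : ℕ, ℓ.Prime → ℓ ∉ sf W N S → ℓ ∉ S ∧ W.IsGoodPrimeFor ℓ ∧ ¬ ℓ ∣ N := fun ℓ hℓ hℓS =>
  ⟨(sf_spec W hΔ hN S ℓ hℓ hℓS).1, (sf_spec W hΔ hN S ℓ hℓ hℓS).2.2⟩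

/-! ### The common step -/

/-- **Attach, core.**  `H` is the instance at `(g, lam, S)` of an external statement of the shape
of S35 / S36: for every coefficient datum `(O', chig, iota)` a representation over a finite
extension `O''` with the Frobenius characteristic polynomials outside `S`, and a further property
`Φ O'' ρ`. -/
theorem exists_rep_of (W : WeierstrassCurve ℤ) {N M : ℕ} [NeZero M]
    {g : CuspForm (CongruenceSubgroup.Gamma0 M) 2} (hg : g.IsNormalizedEigenform)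
    (hgW : ∀ ℓ : ℕ, ℓ.Prime → W.IsGoodPrimeFor ℓ → ¬ ℓ ∣ N →
      ModularFormClass.qCoeff g ℓ = (W.apOfModel ℓ : ℂ))
    (lam : ℕ) [Fact lam.Prime] (S : Finset ℕ)
    (hMS : ∀ q : ℕ, q.Prime → q ∣ M → q ∈ S)
    (Φ : ∀ (A : Type) [CommRing A] [IsDomain A] [IsDiscreteValuationRing A],
      GaloisRepAdic A → Prop)
    (H : ∀ (O' : Type) [CommRing O'] [IsDomain O'] [IsDiscreteValuationRing O']
      [IsAdicComplete (IsLocalRing.maximalIdeal O') O'] [Finite (IsLocalRing.ResidueField O')]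
      [CharZero O'] (_ : (lam : O') ∈ IsLocalRing.maximalIdeal O')
      (chig : CuspForm.heckeAlgebra M 2 (↑S : Set ℕ) →+* ℂ)
      (_ : ∀ (ℓ : ℕ) (hℓ : ℓ.Prime) (hℓM : ¬ ℓ ∣ M) (hℓS : ℓ ∉ (↑S : Set ℕ)),
        chig (CuspForm.heckeAlgebra.T hℓ hℓM hℓS) = ModularFormClass.qCoeff g ℓ)
      (iota : chig.range →+* O'),
      ∃ (O'' : Type) (_ : CommRing O'') (_ : IsDomain O'') (_ : IsDiscreteValuationRing O'')
        (_ : IsAdicComplete (IsLocalRing.maximalIdeal O'') O'')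
        (_ : Finite (IsLocalRing.ResidueField O''))
        (_ : CharZero O'') (_ : Algebra O' O'') (_ : Module.Finite O' O'')
        (_ : IsLocalHom (algebraMap O' O'')),
        Function.Injective (algebraMap O' O'') ∧
        ∃ ρ : GaloisRepAdic O'',
          (∀ (ℓ : ℕ) (hℓ : ℓ.Prime) (hℓM : ¬ ℓ ∣ M) (hℓS : ℓ ∉ (↑S : Set ℕ)),
            ∀ A : ValuationSubring (AlgebraicClosure ℚ), A.LiesOverPrime ℓ →
              ∀ σ : AlgebraicClosure ℚ ≃ₐ[ℚ] AlgebraicClosure ℚ, A.IsFrobeniusAt σ ℓ →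
                LinearMap.charpoly (ρ.ρ σ) =
                  X ^ 2 - C (algebraMap O' O'' ((iota.comp chig.rangeRestrict)
                    (CuspForm.heckeAlgebra.T hℓ hℓM hℓS))) * X + C ((ℓ : O''))) ∧
          Φ O'' ρ)
    (Sf : Finset ℕ) (hSf : ∀ ℓ : ℕ, ℓ.Prime → ℓ ∉ Sf → ℓ ∉ S ∧ W.IsGoodPrimeFor ℓ ∧ ¬ ℓ ∣ N) :
    ∃ (A : Type) (_ : CommRing A) (_ : IsDomain A) (_ : IsDiscreteValuationRing A)
      (_ : CharZero A),
      (lam : A) ∈ IsLocalRing.maximalIdeal A ∧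
      ∃ ρ : GaloisRepAdic A,
        (∀ ℓ : ℕ, ℓ.Prime → ℓ ∉ Sf → ∀ B : ValuationSubring Qb, B.LiesOverPrime ℓ →
          ∀ s : Γ, B.IsFrobeniusAt s ℓ →
            LinearMap.charpoly (ρ.ρ s) =
              X ^ 2 - C ((W.apOfModel ℓ : ℤ) : A) * X + C ((ℓ : ℕ) : A)) ∧
        (∀ ℓ : ℕ, ℓ.Prime → ℓ ∉ S → ∀ B : ValuationSubring Qb, B.LiesOverPrime ℓ →
          ∀ s : Γ, B.IsFrobeniusAt s ℓ →
            ∃ c : A, LinearMap.charpoly (ρ.ρ s) = X ^ 2 - C c * X + C ((ℓ : ℕ) : A) ∧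
              ∀ a : ℤ, c = (a : A) → ModularFormClass.qCoeff g ℓ = (a : ℂ)) ∧
        Φ A ρ := by
  obtain ⟨O', i1, i2, i3, i4, i5, i6, hlamO', chig, hchig, iota, hiota⟩ :=
    Coeff.exists_coeff hg lam S hMS
  obtain ⟨O'', j1, j2, j3, j4, j5, j6, j7, j8, j9, hinj, ρ, h1, h2⟩ :=
    H O' hlamO' chig hchig iota
  have hnotM : ∀ ℓ : ℕ, ℓ.Prime → ℓ ∉ S → ¬ ℓ ∣ M := fun ℓ hℓ hℓS hℓM => hℓS (hMS ℓ hℓ hℓM)
  have hcoe : ∀ ℓ : ℕ, ℓ ∉ S → ℓ ∉ (↑S : Set ℕ) := fun ℓ hℓS => by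
    rwa [Finset.mem_coe]
  refine ⟨O'', j1, j2, j3, j6, ?_, ρ, ?_, ?_, h2⟩
  · have h := map_nonunit (algebraMap O' O'') (lam : O') hlamO'
    rwa [map_natCast] at h
  · intro ℓ hℓ hℓSf B hB s hs
    obtain ⟨hℓS, hgood, hℓN⟩ := hSf ℓ hℓ hℓSf
    rw [h1 ℓ hℓ (hnotM ℓ hℓ hℓS) (hcoe ℓ hℓS) B hB s hs,
      Coeff.comp_rangeRestrict_eq_intCast chig iota _ (W.apOfModel ℓ)
        ((hchig ℓ hℓ (hnotM ℓ hℓ hℓS) (hcoe ℓ hℓS)).trans (hgW ℓ hℓ hgood hℓN)),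
      map_intCast]
  · intro ℓ hℓ hℓS B hB s hs
    refine ⟨_, h1 ℓ hℓ (hnotM ℓ hℓ hℓS) (hcoe ℓ hℓS) B hB s hs, fun a ha => ?_⟩
    rw [← hchig ℓ hℓ (hnotM ℓ hℓ hℓS) (hcoe ℓ hℓS)]
    exact Coeff.eq_intCast_of_algebraMap chig iota hiota hinj _ a ha

/-- **Attach for S35.**  The representation of the newform `g` at `lam`, with the Frobenius
characteristic polynomials `X² - a_ℓ(W) X + ℓ` outside `Sf` and the Steinberg clause of S35. -/
theorem exists_rep_S35 (h35 : Hyps.S35Statement) (W : WeierstrassCurve ℤ) {N M : ℕ} [NeZero M]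
    {g : CuspForm (CongruenceSubgroup.Gamma0 M) 2} (hg : g.IsNewform)
    (hgW : ∀ ℓ : ℕ, ℓ.Prime → W.IsGoodPrimeFor ℓ → ¬ ℓ ∣ N →
      ModularFormClass.qCoeff g ℓ = (W.apOfModel ℓ : ℂ))
    (lam : ℕ) [Fact lam.Prime] (S : Finset ℕ) (hlamS : lam ∈ S)
    (hMS : ∀ q : ℕ, q.Prime → q ∣ M → q ∈ S)
    (Sf : Finset ℕ) (hSf : ∀ ℓ : ℕ, ℓ.Prime → ℓ ∉ Sf → ℓ ∉ S ∧ W.IsGoodPrimeFor ℓ ∧ ¬ ℓ ∣ N) :
    ∃ (A : Type) (_ : CommRing A) (_ : IsDomain A) (_ : IsDiscreteValuationRing A)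
      (_ : CharZero A),
      (lam : A) ∈ IsLocalRing.maximalIdeal A ∧
      ∃ ρ : GaloisRepAdic A,
        (∀ ℓ : ℕ, ℓ.Prime → ℓ ∉ Sf → ∀ B : ValuationSubring Qb, B.LiesOverPrime ℓ →
          ∀ s : Γ, B.IsFrobeniusAt s ℓ →
            LinearMap.charpoly (ρ.ρ s) =
              X ^ 2 - C ((W.apOfModel ℓ : ℤ) : A) * X + C ((ℓ : ℕ) : A)) ∧
        (∀ ℓ : ℕ, ℓ.Prime → ℓ ∉ S → ∀ B : ValuationSubring Qb, B.LiesOverPrime ℓ →
          ∀ s : Γ, B.IsFrobeniusAt s ℓ →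
            ∃ c : A, LinearMap.charpoly (ρ.ρ s) = X ^ 2 - C c * X + C ((ℓ : ℕ) : A) ∧
              ∀ a : ℤ, c = (a : A) → ModularFormClass.qCoeff g ℓ = (a : ℂ)) ∧
        (∀ q : ℕ, q.Prime → q ≠ lam → q ∣ M → ¬ q ^ 2 ∣ M →
          ∀ B : ValuationSubring Qb, B.LiesOverPrime q → ∀ σ : Γ, B.IsFrobeniusAt σ q →
            LinearMap.charpoly (ρ.ρ σ) = X ^ 2 - C ((q : A) + 1) * X + C ((q : A)) ∨
            LinearMap.charpoly (ρ.ρ σ) = X ^ 2 + C ((q : A) + 1) * X + C ((q : A))) :=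
  exists_rep_of W hg.1 hgW lam S hMS
    (fun A _ _ _ ρ => ∀ q : ℕ, q.Prime → q ≠ lam → q ∣ M → ¬ q ^ 2 ∣ M →
      ∀ B : ValuationSubring Qb, B.LiesOverPrime q → ∀ σ : Γ, B.IsFrobeniusAt σ q →
        LinearMap.charpoly (ρ.ρ σ) = X ^ 2 - C ((q : A) + 1) * X + C ((q : A)) ∨
        LinearMap.charpoly (ρ.ρ σ) = X ^ 2 + C ((q : A) + 1) * X + C ((q : A)))
    (fun O' _ _ _ _ _ _ hlam chig hchig iota => h35 hg lam S O' hlam chig hchig iota hlamS hMS)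
    Sf hSf

end Fermat.Agent.S58.Attach
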