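import Mathlib
import Fermat.Agent.S58.Hyps
import Fermat.Agent.S58.Coeff
import Fermat.Agent.S58.Curve
import Fermat.Agent.S58.TransferE
import Fermat.Agent.S58.Attach
import Fermat.Agent.S58.ApBound
import Fermat.Agent.S54.Frobenius

/-!
# S58, brick (W4): Frobenius wiring

`W` an integral Weierstrass model with `Δ ≠ 0`, `g` a newform of level `M ∣ N` whose eigenvalues
are the `a_ℓ(W)` at the good primes `ℓ ∤ N`.  `FrobRelAt W q` is the E-side Frobenius relation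
`σ² - a_q(W) σ + q = 0` on the prime-to-`q` torsion of `E(ℚ̄)`, for every Frobenius element `σ`
at `q`.  With the frozen statement S35 as the hypothesis `Hyps.S35Statement`:

* `dvd_disc_of_frobRelAt` : a prime `q ∥ M` is a prime of bad reduction of `W`
  (otherwise the Steinberg clause of S35 gives `a_q(W) = ± (q + 1)`, against `|a_q(W)| ≤ q`);
* `qCoeff_eq_of_frobRelAt` : `a_ℓ(g) = a_ℓ(W)` at EVERY good prime `ℓ ∤ M` (also `ℓ ∣ N`).

Proof.  Take a prime `lam ≠ q`, `S = {lam} ∪ primes(M)`, `Sf = Attach.sf W N S` and the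
representation `ρ` of `Attach.exists_rep_S35`.  The transfer `TransferE.charpoly_frobenius`
computes `charpoly ρ(Frob_q) = X² - a_q(W) X + q` from the relation on `E[lam^k]`; compare the
coefficients of `X` with the S35 polynomial.
-/

set_option autoImplicit false

open Polynomial
open scoped WeierstrassCurve.Affine

namespace Fermat.Agent.S58.WiringFrob

open Fermat.Agent.S58.Curve

local notation "Qb" => AlgebraicClosure ℚ
local notation "Γ" => (AlgebraicClosure ℚ ≃ₐ[ℚ] AlgebraicClosure ℚ)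

/-- **E-side input.**  Every Frobenius element `σ` at `q` satisfies `σ² - a_q(W) σ + q = 0` on the
prime-to-`q` torsion of `E(ℚ̄)`. -/
def FrobRelAt (W : WeierstrassCurve ℤ) (q : ℕ) : Prop :=
  ∀ A : ValuationSubring Qb, A.LiesOverPrime q → ∀ σ : Γ, A.IsFrobeniusAt σ q →
    ∀ m : ℕ, ¬ q ∣ m → ∀ P : ((EQ W)⁄Qb).Point, m • P = 0 →
      σ • σ • P - W.apOfModel q • σ • P + (q : ℤ) • P = 0

/-- An auxiliary prime different from `q`. -/
theorem exists_aux_prime (q : ℕ) : ∃ lam : ℕ, lam.Prime ∧ lam ≠ q := by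
  by_cases h : q = 2
  · exact ⟨3, Nat.prime_three, by omega⟩
  · exact ⟨2, Nat.prime_two, fun h' => h h'.symm⟩

/-- The part of the E-side input at the primes `ℓ ≥ 5` of good reduction is the landed
`FrobRel.frobenius_relation`. -/
theorem frobRelAt_of_ge_five (W : WeierstrassCurve ℤ) {ℓ : ℕ} (hℓ : ℓ.Prime) (h5 : 5 ≤ ℓ)
    (hgood : W.IsGoodPrimeFor ℓ) : FrobRelAt W ℓ :=
  fun A hA σ hσ _ hm P hP => TransferE.frobAll_of_ge_five W hℓ h5 hgood hm A hA σ hσ P hP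

/-- `FrobAll W` of `TransferE` is the E-side input at all good primes. -/
theorem frobRelAt_of_frobAll {W : WeierstrassCurve ℤ} (hFA : TransferE.FrobAll W) {ℓ : ℕ}
    (hℓ : ℓ.Prime) (hgood : W.IsGoodPrimeFor ℓ) : FrobRelAt W ℓ :=
  fun A hA σ hσ m hm P hP => hFA ℓ m hℓ hgood hm A hA σ hσ P hP

/-- **(W4), core.**  The representation of `g` at an auxiliary prime `lam ≠ q`, together with
`charpoly ρ(Frob_q) = X² - a_q(W) X + q` at a prime `q` with the E-side Frobenius relation, the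
reflection property at the primes outside `S = {lam} ∪ primes(M)` and the Steinberg clause. -/
theorem exists_rep_frobenius (h35 : Hyps.S35Statement) (W : WeierstrassCurve ℤ) (hΔ : W.Δ ≠ 0)
    {N M : ℕ} [NeZero M] (hN : N ≠ 0)
    {g : CuspForm (CongruenceSubgroup.Gamma0 M) 2} (hg : g.IsNewform)
    (hgW : ∀ ℓ : ℕ, ℓ.Prime → W.IsGoodPrimeFor ℓ → ¬ ℓ ∣ N →
      ModularFormClass.qCoeff g ℓ = (W.apOfModel ℓ : ℂ))
    {q : ℕ} (hq : q.Prime) :
    ∃ (lam : ℕ) (_ : lam.Prime) (_ : lam ≠ q) (A : Type) (_ : CommRing A) (_ : IsDomain A)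
      (_ : IsDiscreteValuationRing A) (_ : CharZero A) (ρ : GaloisRepAdic A),
      (FrobRelAt W q → ∀ B : ValuationSubring Qb, B.LiesOverPrime q → ∀ σ : Γ,
        B.IsFrobeniusAt σ q →
          LinearMap.charpoly (ρ.ρ σ) =
            X ^ 2 - C ((W.apOfModel q : ℤ) : A) * X + C ((q : ℕ) : A)) ∧
      (¬ q ∣ M → ∀ B : ValuationSubring Qb, B.LiesOverPrime q → ∀ σ : Γ,
        B.IsFrobeniusAt σ q →
          ∃ c : A, LinearMap.charpoly (ρ.ρ σ) = X ^ 2 - C c * X + C ((q : ℕ) : A) ∧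
            ∀ a : ℤ, c = (a : A) → ModularFormClass.qCoeff g q = (a : ℂ)) ∧
      (q ∣ M → ¬ q ^ 2 ∣ M → ∀ B : ValuationSubring Qb, B.LiesOverPrime q → ∀ σ : Γ,
        B.IsFrobeniusAt σ q →
          LinearMap.charpoly (ρ.ρ σ) = X ^ 2 - C ((q : A) + 1) * X + C ((q : A)) ∨
          LinearMap.charpoly (ρ.ρ σ) = X ^ 2 + C ((q : A) + 1) * X + C ((q : A))) := by
  classical
  obtain ⟨lam, hlam, hlamq⟩ := exists_aux_prime q
  have : Fact lam.Prime := ⟨hlam⟩
  have hM0 : M ≠ 0 := NeZero.ne M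
  let S : Finset ℕ := insert lam M.primeFactors
  have hlamS : lam ∈ S := Finset.mem_insert_self _ _
  have hMS : ∀ r : ℕ, r.Prime → r ∣ M → r ∈ S := fun r hr hrM =>
    Finset.mem_insert_of_mem (Nat.mem_primeFactors.mpr ⟨hr, hrM, hM0⟩)
  obtain ⟨A, iA1, iA2, iA3, iA4, hlamA, ρ, hρ, hrefl, hcl2⟩ :=
    Attach.exists_rep_S35 h35 W hg hgW lam S hlamS hMS (Attach.sf W N S)
      (Attach.sf_hSf W hΔ hN S)
  refine ⟨lam, hlam, hlamq, A, iA1, iA2, iA3, iA4, ρ, ?_, ?_, ?_⟩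
  · intro hF B hB σ hσ
    have : (EQ W).IsElliptic := TransferE.isElliptic_EQ W hΔ
    exact TransferE.charpoly_frobenius ρ (EQ W) (Attach.sf W N S) (fun ℓ => W.apOfModel ℓ) hρ
      hlam (Attach.mem_sf_of_mem W N hlamS) hlamA
      (fun k => TransferE.frobRel_outside (EQ W) (isIntegralModelOf_EQ W) (Attach.sf W N S)
        (Attach.sf_good W hΔ hN S) hlam (Attach.mem_sf_of_mem W N hlamS) k)
      hq hlamq.symm B hB σ hσ (W.apOfModel q)
      (fun k P hP => hF B hB σ hσ (lam ^ k)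
        (TransferE.not_dvd_pow_of_ne hq hlam hlamq.symm k) P hP)
  · intro hqM B hB σ hσ
    have hqS : q ∉ S := by
      intro h
      rcases Finset.mem_insert.mp h with h | h
      · exact hlamq h.symm
      · exact hqM (Nat.dvd_of_mem_primeFactors h)
    exact hrefl q hq hqS B hB σ hσ
  · intro hqM hq2 B hB σ hσ
    exact hcl2 q hq hlamq.symm hqM hq2 B hB σ hσ

/-- **(W4), discriminant.**  A prime `q ∥ M` divides the discriminant of `W`. -/
theorem dvd_disc_of_frobRelAt (h35 : Hyps.S35Statement) (W : WeierstrassCurve ℤ) (hΔ : W.Δ ≠ 0)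
    {N M : ℕ} [NeZero M] (hN : N ≠ 0) (hMN : M ∣ N)
    {g : CuspForm (CongruenceSubgroup.Gamma0 M) 2} (hg : g.IsNewform)
    (hgW : ∀ ℓ : ℕ, ℓ.Prime → W.IsGoodPrimeFor ℓ → ¬ ℓ ∣ N →
      ModularFormClass.qCoeff g ℓ = (W.apOfModel ℓ : ℂ))
    {q : ℕ} (hq : q.Prime) (hqM : q ∣ M) (hq2 : ¬ q ^ 2 ∣ M)
    (hF : W.IsGoodPrimeFor q → FrobRelAt W q) : (q : ℤ) ∣ W.Δ := by
  have _hMN := hMN
  by_contra hgood
  obtain ⟨lam, -, -, A, _, _, _, _, ρ, hE, -, hSt⟩ :=
    exists_rep_frobenius h35 W hΔ hN hg hgW hq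
  obtain ⟨B, σ, hB, hσ⟩ := Fermat.Agent.S54.Frobenius.exists_frobenius hq
  have h1 := hE (hF hgood) B hB σ hσ
  rcases hSt hqM hq2 B hB σ hσ with h2 | h2
  · rw [h1] at h2
    have h3 := congrArg (fun f : A[X] => f.coeff 1) h2
    simp at h3
    have h4 : ((W.apOfModel q : ℤ) : A) = (((q : ℤ) + 1 : ℤ) : A) := by
      push_cast
      linear_combination -h3
    exact ApBound.apOfModel_ne_add_one W hq (Int.cast_injective h4)
  · rw [h1] at h2
    have h3 := congrArg (fun f : A[X] => f.coeff 1) h2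
    simp at h3
    have h4 : ((W.apOfModel q : ℤ) : A) = ((-((q : ℤ) + 1) : ℤ) : A) := by
      push_cast
      linear_combination -h3
    exact ApBound.apOfModel_ne_neg_add_one W hq (Int.cast_injective h4)

/-- **(W4), coefficients.**  `a_ℓ(g) = a_ℓ(W)` at every good prime `ℓ ∤ M` with the E-side
Frobenius relation (also when `ℓ ∣ N`). -/
theorem qCoeff_eq_of_frobRelAt (h35 : Hyps.S35Statement) (W : WeierstrassCurve ℤ) (hΔ : W.Δ ≠ 0)
    {N M : ℕ} [NeZero M] (hN : N ≠ 0) (hMN : M ∣ N)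
    {g : CuspForm (CongruenceSubgroup.Gamma0 M) 2} (hg : g.IsNewform)
    (hgW : ∀ ℓ : ℕ, ℓ.Prime → W.IsGoodPrimeFor ℓ → ¬ ℓ ∣ N →
      ModularFormClass.qCoeff g ℓ = (W.apOfModel ℓ : ℂ))
    {ℓ : ℕ} (hℓ : ℓ.Prime) (hgood : W.IsGoodPrimeFor ℓ) (hℓM : ¬ ℓ ∣ M)
    (hF : FrobRelAt W ℓ) : ModularFormClass.qCoeff g ℓ = (W.apOfModel ℓ : ℂ) := by
  have _hMN := hMN
  have _hgood := hgood
  obtain ⟨lam, -, -, A, _, _, _, _, ρ, hE, hR, -⟩ :=
    exists_rep_frobenius h35 W hΔ hN hg hgW hℓ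
  obtain ⟨B, σ, hB, hσ⟩ := Fermat.Agent.S54.Frobenius.exists_frobenius hℓ
  have h1 := hE hF B hB σ hσ
  obtain ⟨c, hc, hcg⟩ := hR hℓM B hB σ hσ
  refine hcg (W.apOfModel ℓ) ?_
  rw [h1] at hc
  have h3 := congrArg (fun f : A[X] => f.coeff 1) hc
  simp at h3
  linear_combination -h3

end Fermat.Agent.S58.WiringFrob
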