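import Mathlib
import Fermat.Agent.S58.WiringFrob
import Fermat.Agent.S58.FrobSmall.FrobAll

/-!
# S58, brick (W4), hypothesis-free form

The two exits of `S58.WiringFrob` with the E-side Frobenius relation discharged by
`FrobSmall.frobAll` (the relation at EVERY good prime, `2` and `3` included).  With the frozen
statement S35 as the hypothesis `Hyps.S35Statement`, for an integral model `W` with `Δ ≠ 0` and a
newform `g` of level `M ∣ N` whose eigenvalues are the `a_ℓ(W)` at the good primes `ℓ ∤ N`: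

* `dvd_disc`  : every prime `q ∥ M` divides `Δ(W)`;
* `qCoeff_eq` : `a_ℓ(g) = a_ℓ(W)` at every good prime `ℓ ∤ M`.

These are the arguments `hdisc` and `hcoef` of
`MainCore.isModularModelOfLevel_conductorLevel_of`.
-/

set_option autoImplicit false

namespace Fermat.Agent.S58.WiringFrobAll

open Fermat.Agent.S58

/-- The E-side Frobenius relation at every good prime. -/
theorem frobRelAt (W : WeierstrassCurve ℤ) {ℓ : ℕ} (hℓ : ℓ.Prime)
    (hgood : W.IsGoodPrimeFor ℓ) : WiringFrob.FrobRelAt W ℓ :=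
  WiringFrob.frobRelAt_of_frobAll (FrobSmall.frobAll W) hℓ hgood

/-- **(W4), discriminant.**  A prime `q ∥ M` divides the discriminant of `W`. -/
theorem dvd_disc (h35 : Hyps.S35Statement) (W : WeierstrassCurve ℤ) (hΔ : W.Δ ≠ 0)
    {N M : ℕ} [NeZero M] (hN : N ≠ 0) (hMN : M ∣ N)
    {g : CuspForm (CongruenceSubgroup.Gamma0 M) 2} (hg : g.IsNewform)
    (hgW : ∀ ℓ : ℕ, ℓ.Prime → W.IsGoodPrimeFor ℓ → ¬ ℓ ∣ N →
      ModularFormClass.qCoeff g ℓ = (W.apOfModel ℓ : ℂ))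
    {q : ℕ} (hq : q.Prime) (hqM : q ∣ M) (hq2 : ¬ q ^ 2 ∣ M) : (q : ℤ) ∣ W.Δ :=
  WiringFrob.dvd_disc_of_frobRelAt h35 W hΔ hN hMN hg hgW hq hqM hq2
    (fun hgood => frobRelAt W hq hgood)

/-- **(W4), coefficients.**  `a_ℓ(g) = a_ℓ(W)` at every good prime `ℓ ∤ M`. -/
theorem qCoeff_eq (h35 : Hyps.S35Statement) (W : WeierstrassCurve ℤ) (hΔ : W.Δ ≠ 0)
    {N M : ℕ} [NeZero M] (hN : N ≠ 0) (hMN : M ∣ N)
    {g : CuspForm (CongruenceSubgroup.Gamma0 M) 2} (hg : g.IsNewform)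
    (hgW : ∀ ℓ : ℕ, ℓ.Prime → W.IsGoodPrimeFor ℓ → ¬ ℓ ∣ N →
      ModularFormClass.qCoeff g ℓ = (W.apOfModel ℓ : ℂ))
    {ℓ : ℕ} (hℓ : ℓ.Prime) (hgood : W.IsGoodPrimeFor ℓ) (hℓM : ¬ ℓ ∣ M) :
    ModularFormClass.qCoeff g ℓ = (W.apOfModel ℓ : ℂ) :=
  WiringFrob.qCoeff_eq_of_frobRelAt h35 W hΔ hN hMN hg hgW hℓ hgood hℓM (frobRelAt W hℓ hgood)

end Fermat.Agent.S58.WiringFrobAll
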