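/-
# S58 (G): inertia at a prime of good reduction (helper299)

`W` an integral Weierstrass model, `q` a prime with `q ∤ Δ(W)`, `A` a place of `Qb` over `q`,
`τ` in the inertia group of `A`, `m` prime to `q`:

* `inertia_trivial` : `τ` fixes every point of `E(Qb)` killed by `m` (`E = Curve.EQ W`);
* `inertia_root` : `τ` fixes every `m`-th root of unity;
* `frobenius_root` : a Frobenius element at `A` raises `m`-th roots of unity to the `q`-th power.

Proofs: adapters of `Lib.CycloChar.{inertia_root, frob_root}`, and for the points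
`S05.SameRed.map_eq_self_of_nonsingular_reduction` + `Lib.KerRedAny.torsion_integral` +
`S41.NonEis.Reduce.hns_of_red`.
-/
import Mathlib
import Fermat.Prelude.Def_FLTPrelim_Modularity
import Fermat.Prelude.Def_FLTPrelim_GaloisRep
import Fermat.Prelude.Def_FLTPrelim_Ramification
import Fermat.Prelude.Def_EllipticCurve_FrobeniusTrace
import Fermat.Agent.Lib.CycloChar
import Fermat.Agent.S41.NonEis.Reduce
import Fermat.Agent.S41.NonEis.Basics
import Fermat.Agent.S58.Curve

set_option autoImplicit false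

namespace Fermat.Agent.S58.GoodInertia

open WeierstrassCurve WeierstrassCurve.Affine Fermat.Agent.S58.Curve Fermat.Agent.S41.NonEis

local notation "Qb" => AlgebraicClosure ℚ
local notation "Γ" => (AlgebraicClosure ℚ ≃ₐ[ℚ] AlgebraicClosure ℚ)

/-- Inertia at `q` fixes roots of unity of order prime to `q`. -/
theorem inertia_root {q : ℕ} (hq : q.Prime) {A : ValuationSubring Qb} (hA : A.LiesOverPrime q)
    {τ : Γ} (hτ : τ ∈ A.inertiaSubgroupIn ℚ) {m : ℕ} (hm : ¬ q ∣ m) (ζ : Qb)
    (hζ : ζ ^ m = 1) : τ ζ = ζ :=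
  Fermat.Agent.Lib.CycloChar.inertia_root A hA τ hτ (hq.coprime_iff_not_dvd.mpr hm).symm hζ

/-- A Frobenius element at `q` raises roots of unity of order prime to `q` to the `q`-th
power. -/
theorem frobenius_root {q : ℕ} (hq : q.Prime) {A : ValuationSubring Qb} (hA : A.LiesOverPrime q)
    {σ : Γ} (hσ : A.IsFrobeniusAt σ q) {m : ℕ} (hm : ¬ q ∣ m) (ζ : Qb) (hζ : ζ ^ m = 1) :
    σ ζ = ζ ^ q :=
  Fermat.Agent.Lib.CycloChar.frob_root A hA σ hσ (hq.coprime_iff_not_dvd.mpr hm).symm hζ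

section Good

variable (W : WeierstrassCurve ℤ) (A : ValuationSubring Qb)

/-- The model over the valuation ring. -/
noncomputable abbrev WA : WeierstrassCurve A := W.map (algebraMap ℤ A)

lemma baseChange_eq_WK : (EQ W)⁄Qb = Reduce.WK A (WA W A) := by
  ext <;> simp [EQ, WA, WeierstrassCurve.baseChange]

variable {A} in
lemma isUnit_WA_Δ {q : ℕ} (hq : q.Prime) (hgood : W.IsGoodPrimeFor q)
    (hA : A.LiesOverPrime q) : IsUnit (WA W A).Δ := by
  rw [WeierstrassCurve.map_Δ, eq_intCast]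
  exact Basics.isUnit_intCast hq hA hgood

/-- Nonsingular reduction of integral points on any curve equal to a `WK` with unit
discriminant. -/
lemma hns_of_eq (WA' : WeierstrassCurve A) (hΔ : IsUnit WA'.Δ) (V : Affine Qb)
    (hV : V = Reduce.WK A WA') {x y : Qb} (h : V.Nonsingular x y) (hx : A.valuation x ≤ 1)
    (hy : A.valuation y ≤ 1) :
    ¬ (A.valuation (2 * y + V.a₁ * x + V.a₃) < 1 ∧
      A.valuation (3 * x ^ 2 + 2 * V.a₂ * x + V.a₄ - V.a₁ * y) < 1) := by
  subst hV
  exact Reduce.hns_of_red A WA' hΔ (x := ⟨x, (A.valuation_le_one_iff x).mp hx⟩)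
    (y := ⟨y, (A.valuation_le_one_iff y).mp hy⟩) h

end Good

/-- **Inertia at a prime of good reduction acts trivially on prime-to-`q` torsion.** -/
theorem inertia_trivial (W : WeierstrassCurve ℤ) {q : ℕ} (hq : q.Prime)
    (hgood : W.IsGoodPrimeFor q) {A : ValuationSubring Qb} (hA : A.LiesOverPrime q) {τ : Γ}
    (hτ : τ ∈ A.inertiaSubgroupIn ℚ) {m : ℕ} (hm : ¬ q ∣ m) (P : ((EQ W)⁄Qb).Point)
    (hP : m • P = 0) : τ • P = P := by
  rw [Point.algEquiv_smul_def]
  rcases P with _ | ⟨x, y, h⟩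
  · exact map_zero _
  · have hmv : A.valuation (m : Qb) = 1 := Basics.valuation_natCast_eq_one hq hA hm
    have hint : ∀ a : ℤ, A.valuation ((a : ℤ) : Qb) ≤ 1 := fun a =>
      (A.valuation_le_one_iff _).mpr (intCast_mem A a)
    have h₁ : A.valuation ((EQ W)⁄Qb).a₁ ≤ 1 := by rw [baseChange_a₁]; exact hint _
    have h₂ : A.valuation ((EQ W)⁄Qb).a₂ ≤ 1 := by rw [baseChange_a₂]; exact hint _
    have h₃ : A.valuation ((EQ W)⁄Qb).a₃ ≤ 1 := by rw [baseChange_a₃]; exact hint _
    have h₄ : A.valuation ((EQ W)⁄Qb).a₄ ≤ 1 := by rw [baseChange_a₄]; exact hint _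
    have h₆ : A.valuation ((EQ W)⁄Qb).a₆ ≤ 1 := by rw [baseChange_a₆]; exact hint _
    have htors := Fermat.Agent.Lib.KerRedAny.torsion_integral A.valuation ((EQ W)⁄Qb)
      h₁ h₂ h₃ h₄ h₆ m hmv
    have hx : A.valuation x ≤ 1 := htors _ hP x y h rfl
    have hy : A.valuation y ≤ 1 :=
      Fermat.Agent.S05.SameRed.val_y_le_one A.valuation ((EQ W)⁄Qb) h₁ h₂ h₃ h₄ h₆ h.1 hx
    have hns := hns_of_eq A (WA W A) (isUnit_WA_Δ W hq hgood hA) ((EQ W)⁄Qb)
      (baseChange_eq_WK W A) h hx hy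
    exact Fermat.Agent.S05.SameRed.map_eq_self_of_nonsingular_reduction A.valuation
      (EQ W).toAffine τ.toAlgHom
      (fun z hz => A.mem_nonunits_iff.mp
        (Fermat.Agent.Lib.CycloChar.sub_mem_nonunits_of_mem_inertia A τ hτ
          ((A.valuation_le_one_iff z).mp hz)))
      h₁ h₂ htors h hP hx hy hns

/-- The unipotent shape of `inertia_trivial` (same conclusion as `Unip.inertia_sq` at a bad
prime): `(τ - 1)² = 0` on prime-to-`q` torsion at a prime of good reduction. -/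
theorem inertia_sq_good (W : WeierstrassCurve ℤ) {q : ℕ} (hq : q.Prime)
    (hgood : W.IsGoodPrimeFor q) {A : ValuationSubring Qb} (hA : A.LiesOverPrime q) {τ : Γ}
    (hτ : τ ∈ A.inertiaSubgroupIn ℚ) {m : ℕ} (hm : ¬ q ∣ m) (P : ((EQ W)⁄Qb).Point)
    (hP : m • P = 0) : τ • τ • P - (2 : ℤ) • τ • P + P = 0 := by
  rw [inertia_trivial W hq hgood hA hτ hm P hP, inertia_trivial W hq hgood hA hτ hm P hP,
    two_zsmul]
  abel

end Fermat.Agent.S58.GoodInertia
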