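import Mathlib
import Fermat.Agent.S58.Hyps
import Fermat.Agent.S58.Coeff
import Fermat.Agent.S58.Curve
import Fermat.Agent.S58.TransferE
import Fermat.Agent.S58.GoodInertia
import Fermat.Agent.S58.Unip
import Fermat.Agent.S58.UnipPoint

/-!
# S58, brick (W3): no prime `q` with `q² ∥ M`

`W` a semistable integral Weierstrass model, `g` a newform of level `M ∣ N` whose eigenvalues are
the `a_ℓ(W)` at the good primes `ℓ ∤ N`.  Then `M.factorization q ≠ 2` for every prime `q`.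

Proof.  Take an ODD prime `lam ≠ q` and the coefficient data of `S58.Coeff.exists_coeff` for
`S = {lam} ∪ primes(M)`.  The hres-free form of S36 (`S36CoreOdd`: the frozen S36 without `hres`,
keeping `lam ≠ 2`; it follows from `Hyps.S36Core`) gives a representation `ρ`
with the Frobenius characteristic polynomials of `g` outside `S` which is NOT unipotent on inertia
at `q`.  Outside `Sf = S ∪ primes(N) ∪ primes(Δ) ∪ {2, 3}` these polynomials are
`X² - a_ℓ(W) X + ℓ`, so the finite-level transfer `S58.TransferE.isUnipotentOnInertiaAt` applies: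
inertia at `q` acts on every `E[lam^k]` through elements with `(τ - 1)² = 0` (`InertiaSqAt`), hence
`ρ` IS unipotent on inertia at `q`.  Contradiction.
-/

set_option autoImplicit false

open Polynomial
open scoped WeierstrassCurve.Affine

namespace Fermat.Agent.S58.WiringSq

open Fermat.Agent.S58.Curve

local notation "Qb" => AlgebraicClosure ℚ
local notation "Γ" => (AlgebraicClosure ℚ ≃ₐ[ℚ] AlgebraicClosure ℚ)

/-- **E-side input.**  Every inertia group at `q` acts on the prime-to-`q` torsion of `E(ℚ̄)`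
through elements `τ` with `(τ - 1)² = 0`. -/
def InertiaSqAt (W : WeierstrassCurve ℤ) (q : ℕ) : Prop :=
  ∀ A : ValuationSubring Qb, A.LiesOverPrime q → ∀ τ : Γ, τ ∈ A.inertiaSubgroupIn ℚ →
    ∀ m : ℕ, ¬ q ∣ m → ∀ P : ((EQ W)⁄Qb).Point, m • P = 0 →
      τ • τ • P - (2 : ℤ) • τ • P + P = 0

/-- The frozen statement S36 without `hres` ONLY: the binder `lam ≠ 2` of the frozen statement is
kept.  This is implied by `Hyps.S36Core` (`s36CoreOdd_of_s36Core`) and is all that (W3) uses. -/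
def S36CoreOdd : Prop :=
  ∀ {M : ℕ} [NeZero M] {g : CuspForm (CongruenceSubgroup.Gamma0 M) 2} (_ : g.IsNewform)
    (lam : ℕ) [Fact lam.Prime]
    (S : Finset ℕ)
    (O' : Type) [CommRing O'] [IsDomain O'] [IsDiscreteValuationRing O']
    [IsAdicComplete (IsLocalRing.maximalIdeal O') O'] [Finite (IsLocalRing.ResidueField O')]
    [CharZero O'] (_ : (lam : O') ∈ IsLocalRing.maximalIdeal O')
    (_ : lam ≠ 2)
    (chig : CuspForm.heckeAlgebra M 2 (↑S : Set ℕ) →+* ℂ)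
    (_ : ∀ (ℓ : ℕ) (hℓ : ℓ.Prime) (hℓM : ¬ ℓ ∣ M) (hℓS : ℓ ∉ (↑S : Set ℕ)),
      chig (CuspForm.heckeAlgebra.T hℓ hℓM hℓS) = ModularFormClass.qCoeff g ℓ)
    (iota : chig.range →+* O')
    (_ : lam ∈ S) (_ : ∀ q : ℕ, q.Prime → q ∣ M → q ∈ S),
    ∃ (O'' : Type) (_ : CommRing O'') (_ : IsDomain O'') (_ : IsDiscreteValuationRing O'')
      (_ : IsAdicComplete (IsLocalRing.maximalIdeal O'') O'')
      (_ : Finite (IsLocalRing.ResidueField O''))
      (_ : CharZero O'') (_ : Algebra O' O'') (_ : Module.Finite O' O'')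
      (_ : IsLocalHom (algebraMap O' O'')),
      Function.Injective (algebraMap O' O'') ∧
      ∃ ρ : GaloisRepAdic O'',
        (∀ (ℓ : ℕ) (hℓ : ℓ.Prime) (hℓM : ¬ ℓ ∣ M) (hℓS : ℓ ∉ (↑S : Set ℕ)),
          ∀ A : ValuationSubring (AlgebraicClosure ℚ), A.LiesOverPrime ℓ →
            ∀ σ : AlgebraicClosure ℚ ≃ₐ[ℚ] AlgebraicClosure ℚ, A.IsFrobeniusAt σ ℓ →
              LinearMap.charpoly (ρ.ρ σ) =
                X ^ 2 - C (algebraMap O' O''
                  ((iota.comp chig.rangeRestrict) (CuspForm.heckeAlgebra.T hℓ hℓM hℓS))) * X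
                  + C ((ℓ : O''))) ∧
        (∀ q : ℕ, q.Prime → q ≠ lam → M.factorization q = 2 → ¬ ρ.IsUnipotentOnInertiaAt q)

/-- The form for all `lam` implies the form for odd `lam`. -/
theorem s36CoreOdd_of_s36Core (h : Hyps.S36Core) : S36CoreOdd := by
  intro M _ g hg lam _ S O' _ _ _ _ _ _ hlamO' _ chig hchig iota hlamS hMS
  exact h hg lam S O' hlamO' chig hchig iota hlamS hMS

/-- An auxiliary ODD prime different from `q`. -/
theorem exists_odd_prime_ne (q : ℕ) : ∃ lam : ℕ, lam.Prime ∧ lam ≠ 2 ∧ lam ≠ q := by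
  by_cases h : q = 3
  · exact ⟨5, by norm_num, by norm_num, by omega⟩
  · exact ⟨3, Nat.prime_three, by norm_num, fun h' => h h'.symm⟩

/-- A prime different from `2` and `3` is at least `5`. -/
theorem five_le_of_prime {ℓ : ℕ} (hℓ : ℓ.Prime) (h2 : ℓ ≠ 2) (h3 : ℓ ≠ 3) : 5 ≤ ℓ := by
  have h4 : ℓ ≠ 4 := by
    rintro rfl
    exact absurd hℓ (by decide)
  have := hℓ.two_le
  omega

/-- The curve `EQ W` is elliptic when `Δ ≠ 0`. -/
theorem isElliptic_EQ (W : WeierstrassCurve ℤ) (hΔ : W.Δ ≠ 0) : (EQ W).IsElliptic :=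
  ⟨by rw [EQ_Δ]; exact (Int.cast_ne_zero.mpr hΔ).isUnit⟩

/-- **(W3), core, from the odd form of S36.**  With the E-side input at `q` as a hypothesis. -/
theorem factorization_ne_two_of_inertiaSqAt_odd (h36 : S36CoreOdd) (W : WeierstrassCurve ℤ)
    (hΔ : W.Δ ≠ 0) {N M : ℕ} [NeZero M] (hN : N ≠ 0) (hMN : M ∣ N)
    {g : CuspForm (CongruenceSubgroup.Gamma0 M) 2} (hg : g.IsNewform)
    (hgW : ∀ ℓ : ℕ, ℓ.Prime → W.IsGoodPrimeFor ℓ → ¬ ℓ ∣ N →
      ModularFormClass.qCoeff g ℓ = (W.apOfModel ℓ : ℂ))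
    {q : ℕ} (hq : q.Prime) (hunip : InertiaSqAt W q) : M.factorization q ≠ 2 := by
  classical
  intro hfac
  obtain ⟨lam, hlam, hlam2, hlamq⟩ := exists_odd_prime_ne q
  have : Fact lam.Prime := ⟨hlam⟩
  have hM0 : M ≠ 0 := NeZero.ne M
  let S : Finset ℕ := insert lam M.primeFactors
  have hlamS : lam ∈ S := Finset.mem_insert_self _ _
  have hMS : ∀ r : ℕ, r.Prime → r ∣ M → r ∈ S := fun r hr hrM =>
    Finset.mem_insert_of_mem (Nat.mem_primeFactors.mpr ⟨hr, hrM, hM0⟩)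
  obtain ⟨O', _, _, _, _, _, _, hlamO', chig, hchig, iota, -⟩ :=
    Coeff.exists_coeff hg.1 lam S hMS
  obtain ⟨O'', _, _, _, _, _, _, _, _, _, -, ρ, hfrob, hnon⟩ :=
    h36 hg lam S O' hlamO' hlam2 chig hchig iota hlamS hMS
  refine hnon q hq hlamq.symm hfac ?_
  -- the enlarged exceptional set
  let Sf : Finset ℕ := S ∪ N.primeFactors ∪ W.Δ.natAbs.primeFactors ∪ {2, 3}
  have hSfS : ∀ ℓ : ℕ, ℓ ∉ Sf → ℓ ∉ S := fun ℓ h h' =>
    h (Finset.mem_union_left _ (Finset.mem_union_left _ (Finset.mem_union_left _ h')))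
  have hSfN : ∀ ℓ : ℕ, ℓ.Prime → ℓ ∉ Sf → ¬ ℓ ∣ N := fun ℓ hℓ h h' =>
    h (Finset.mem_union_left _ (Finset.mem_union_left _ (Finset.mem_union_right _
      (Nat.mem_primeFactors.mpr ⟨hℓ, h', hN⟩))))
  have hSfΔ : ∀ ℓ : ℕ, ℓ.Prime → ℓ ∉ Sf → W.IsGoodPrimeFor ℓ := fun ℓ hℓ h h' =>
    h (Finset.mem_union_left _ (Finset.mem_union_right _
      (Nat.mem_primeFactors.mpr ⟨hℓ, Int.natCast_dvd.mp h', Int.natAbs_ne_zero.mpr hΔ⟩)))
  have hSf5 : ∀ ℓ : ℕ, ℓ.Prime → ℓ ∉ Sf → 5 ≤ ℓ := fun ℓ hℓ h =>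
    five_le_of_prime hℓ
      (fun h2 => h (Finset.mem_union_right _ (by rw [h2]; simp)))
      (fun h3 => h (Finset.mem_union_right _ (by rw [h3]; simp)))
  have hlamSf : lam ∈ Sf :=
    Finset.mem_union_left _ (Finset.mem_union_left _ (Finset.mem_union_left _ hlamS))
  have hlamO'' : (lam : O'') ∈ IsLocalRing.maximalIdeal O'' := by
    have h1 := map_nonunit (algebraMap O' O'') (lam : O') hlamO'
    rwa [map_natCast] at h1
  have hρ : ∀ ℓ : ℕ, ℓ.Prime → ℓ ∉ Sf → ∀ B : ValuationSubring Qb, B.LiesOverPrime ℓ →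
      ∀ s : Γ, B.IsFrobeniusAt s ℓ →
        LinearMap.charpoly (ρ.ρ s) =
          X ^ 2 - C ((W.apOfModel ℓ : ℤ) : O'') * X + C ((ℓ : ℕ) : O'') := by
    intro ℓ hℓ hℓSf B hB s hs
    have hℓN : ¬ ℓ ∣ N := hSfN ℓ hℓ hℓSf
    have hℓM : ¬ ℓ ∣ M := fun h => hℓN (h.trans hMN)
    have hℓS' : ℓ ∉ (↑S : Set ℕ) := fun h => hSfS ℓ hℓSf (Finset.mem_coe.mp h)
    have h1 := hfrob ℓ hℓ hℓM hℓS' B hB s hs
    rw [Coeff.comp_rangeRestrict_eq_intCast chig iota _ (W.apOfModel ℓ)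
      ((hchig ℓ hℓ hℓM hℓS').trans (hgW ℓ hℓ (hSfΔ ℓ hℓ hℓSf) hℓN)), map_intCast] at h1
    exact h1
  have : (EQ W).IsElliptic := isElliptic_EQ W hΔ
  refine TransferE.isUnipotentOnInertiaAt ρ (EQ W) Sf (fun ℓ => W.apOfModel ℓ) hρ hlam hlamSf
    hlamO''
    (fun k => TransferE.frobRel_outside (EQ W) (isIntegralModelOf_EQ W) Sf
      (fun ℓ hℓ hℓSf => ⟨hSf5 ℓ hℓ hℓSf, hSfΔ ℓ hℓ hℓSf⟩) hlam hlamSf k)
    hq hlamq.symm ?_
  intro Pv hPv τ hτ k P hP
  have hqk : ¬ q ∣ lam ^ k := fun h =>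
    hlamq.symm ((Nat.prime_dvd_prime_iff_eq hq hlam).mp (hq.dvd_of_dvd_pow h))
  exact hunip Pv hPv τ hτ (lam ^ k) hqk P hP

/-- **(W3), core.**  With the E-side input at `q` as a hypothesis. -/
theorem factorization_ne_two_of_inertiaSqAt (h36 : Hyps.S36Core) (W : WeierstrassCurve ℤ)
    (hΔ : W.Δ ≠ 0) {N M : ℕ} [NeZero M] (hN : N ≠ 0) (hMN : M ∣ N)
    {g : CuspForm (CongruenceSubgroup.Gamma0 M) 2} (hg : g.IsNewform)
    (hgW : ∀ ℓ : ℕ, ℓ.Prime → W.IsGoodPrimeFor ℓ → ¬ ℓ ∣ N →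
      ModularFormClass.qCoeff g ℓ = (W.apOfModel ℓ : ℂ))
    {q : ℕ} (hq : q.Prime) (hunip : InertiaSqAt W q) : M.factorization q ≠ 2 :=
  factorization_ne_two_of_inertiaSqAt_odd (s36CoreOdd_of_s36Core h36) W hΔ hN hMN hg hgW hq hunip

/-- The E-side input from its two cases: a prime of good reduction (inertia acts trivially) and a
prime of multiplicative reduction (`(τ - 1)² = 0`). -/
theorem inertiaSqAt_of_cases (W : WeierstrassCurve ℤ) (hss : W.IsSemistableModel) {q : ℕ}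
    (hq : q.Prime)
    (hG : W.IsGoodPrimeFor q → ∀ A : ValuationSubring Qb, A.LiesOverPrime q → ∀ τ : Γ,
      τ ∈ A.inertiaSubgroupIn ℚ → ∀ m : ℕ, ¬ q ∣ m → ∀ P : ((EQ W)⁄Qb).Point, m • P = 0 →
        τ • P = P)
    (hU : (q : ℤ) ∣ W.Δ → ¬ (q : ℤ) ∣ W.c₄ → ∀ A : ValuationSubring Qb, A.LiesOverPrime q →
      ∀ τ : Γ, τ ∈ A.inertiaSubgroupIn ℚ → ∀ m : ℕ, ¬ q ∣ m → ∀ P : ((EQ W)⁄Qb).Point,
        m • P = 0 → τ • τ • P - (2 : ℤ) • τ • P + P = 0) :
    InertiaSqAt W q := by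
  intro A hA τ hτ m hm P hP
  by_cases hqΔ : (q : ℤ) ∣ W.Δ
  · exact hU hqΔ (hss q hq hqΔ) A hA τ hτ m hm P hP
  · have h := hG hqΔ A hA τ hτ m hm P hP
    rw [h, h, two_zsmul]
    abel

/-- The E-side input for a semistable model: good primes by `GoodInertia.inertia_trivial`,
multiplicative primes by `Unip.inertia_sq_of_nodePoint` at the node point of
`UnipPoint.exists_node_point`. -/
theorem inertiaSqAt_of_isSemistableModel (W : WeierstrassCurve ℤ) (hΔ : W.Δ ≠ 0)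
    (hss : W.IsSemistableModel) {q : ℕ} (hq : q.Prime) : InertiaSqAt W q :=
  inertiaSqAt_of_cases W hss hq
    (fun hgood _ hA _ hτ _ hm P hP => GoodInertia.inertia_trivial W hq hgood hA hτ hm P hP)
    (fun hqΔ hqc _ hA _ hτ _ hm P hP =>
      Unip.inertia_sq_of_nodePoint W hq hA (UnipPoint.exists_node_point W hΔ hq hqΔ hqc hA) hτ hm
        P hP)

/-- **(W3), from the odd form of S36** (the frozen S36 without `hres`). -/
theorem factorization_ne_two_odd (h36 : S36CoreOdd) (W : WeierstrassCurve ℤ) (hΔ : W.Δ ≠ 0)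
    (hss : W.IsSemistableModel) {N M : ℕ} [NeZero M] (hN : N ≠ 0) (hMN : M ∣ N)
    {g : CuspForm (CongruenceSubgroup.Gamma0 M) 2} (hg : g.IsNewform)
    (hgW : ∀ ℓ : ℕ, ℓ.Prime → W.IsGoodPrimeFor ℓ → ¬ ℓ ∣ N →
      ModularFormClass.qCoeff g ℓ = (W.apOfModel ℓ : ℂ))
    {q : ℕ} (hq : q.Prime) : M.factorization q ≠ 2 :=
  factorization_ne_two_of_inertiaSqAt_odd h36 W hΔ hN hMN hg hgW hq
    (inertiaSqAt_of_isSemistableModel W hΔ hss hq)

/-- **(W3).**  For a semistable integral model `W` with `Δ ≠ 0` and a newform `g` of level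
`M ∣ N` with `a_ℓ(g) = a_ℓ(W)` at the good primes `ℓ ∤ N`: no prime `q` has `q² ∥ M`. -/
theorem factorization_ne_two (h36 : Hyps.S36Core) (W : WeierstrassCurve ℤ) (hΔ : W.Δ ≠ 0)
    (hss : W.IsSemistableModel) {N M : ℕ} [NeZero M] (hN : N ≠ 0) (hMN : M ∣ N)
    {g : CuspForm (CongruenceSubgroup.Gamma0 M) 2} (hg : g.IsNewform)
    (hgW : ∀ ℓ : ℕ, ℓ.Prime → W.IsGoodPrimeFor ℓ → ¬ ℓ ∣ N →
      ModularFormClass.qCoeff g ℓ = (W.apOfModel ℓ : ℂ))
    {q : ℕ} (hq : q.Prime) : M.factorization q ≠ 2 :=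
  factorization_ne_two_of_inertiaSqAt h36 W hΔ hN hMN hg hgW hq
    (inertiaSqAt_of_isSemistableModel W hΔ hss hq)

end Fermat.Agent.S58.WiringSq
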