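import Mathlib
import Fermat.Prelude.Def_WeierstrassCurve_ConductorLevel
import Fermat.Prelude.Def_FLTPrelim_ModularRep
import Fermat.Agent.S58.Hyps
import Fermat.Agent.S58.Descent
import Fermat.Agent.S58.MainCore
import Fermat.Agent.S58.WiringSq
import Fermat.Agent.S58.WiringFrobAll

set_option autoImplicit false

/-!
# S58 from S35 and the hres-free S36

`result_of_odd` : the frozen statement S58 from `Hyps.S35Statement` (= the frozen statement S35)
and `WiringSq.S36CoreOdd` (= the frozen statement S36 without `hres`; only odd `lam` is used).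

`result_of` : the same from `Hyps.S36Core` (= the frozen statement S36 without `hlam2`, `hres`).

`result_of_wiring` : the same from `Hyps.S36Core` and the two Frobenius-side facts about the
minimal-level newform (`hdisc`, `hcoef`, proved from `Hyps.S35Statement` in
`Fermat.Agent.S58.WiringFrob`, `Fermat.Agent.S58.WiringFrobAll`).

Route: Descent (newform `g` of minimal level `M ∣ N`) → `WiringSq.factorization_ne_two`
(no `q² ∥ M`) → `hdisc` (every `q ∥ M` is a bad prime) → `hcoef` (`a_ℓ(g) = a_ℓ(W)` at the good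
`ℓ ∤ M`) → `MainCore` (`M ∣ rad Δ`, stabilise up to `rad Δ`).
The hypotheses `hp2`, `hirr`, `hp2N` of the frozen statement are not used.
-/

namespace Fermat.Agent.S58.Main

open WeierstrassCurve CuspForm

/-- The frozen statement S58, from the hres-free S36 and the two S35-side facts. -/
theorem result_of_wiring (h36 : Hyps.S36Core)
    (hdisc : ∀ (W : WeierstrassCurve ℤ), W.Δ ≠ 0 → ∀ {N M : ℕ} [NeZero M], N ≠ 0 → M ∣ N →
      ∀ {g : CuspForm (CongruenceSubgroup.Gamma0 M) 2}, g.IsNewform →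
      (∀ ℓ : ℕ, ℓ.Prime → W.IsGoodPrimeFor ℓ → ¬ ℓ ∣ N →
        ModularFormClass.qCoeff g ℓ = (W.apOfModel ℓ : ℂ)) →
      ∀ {q : ℕ}, q.Prime → q ∣ M → ¬ q ^ 2 ∣ M → (q : ℤ) ∣ W.Δ)
    (hcoef : ∀ (W : WeierstrassCurve ℤ), W.Δ ≠ 0 → ∀ {N M : ℕ} [NeZero M], N ≠ 0 → M ∣ N →
      ∀ {g : CuspForm (CongruenceSubgroup.Gamma0 M) 2}, g.IsNewform →
      (∀ ℓ : ℕ, ℓ.Prime → W.IsGoodPrimeFor ℓ → ¬ ℓ ∣ N →
        ModularFormClass.qCoeff g ℓ = (W.apOfModel ℓ : ℂ)) →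
      ∀ {ℓ : ℕ}, ℓ.Prime → W.IsGoodPrimeFor ℓ → ¬ ℓ ∣ M →
        ModularFormClass.qCoeff g ℓ = (W.apOfModel ℓ : ℂ))
    (W : WeierstrassCurve ℤ) (hss : W.IsSemistableModel) (N : ℕ)
    (hN : W.IsModularModelOfLevel N) (hbad : ∀ ℓ : ℕ, ℓ.Prime → (ℓ : ℤ) ∣ W.Δ → ℓ ∣ N)
    (hN3 : ∀ q : ℕ, q.Prime → ¬ q ^ 3 ∣ N) :
    W.IsModularModelOfLevel W.conductorLevel := by
  have hN0 : N ≠ 0 := Descent.level_ne_zero hN3
  have hΔ : W.Δ ≠ 0 := Descent.delta_ne_zero W hN0 hbad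
  obtain ⟨M, hMN, hM0, g, hg, hgW⟩ :=
    Descent.exists_isNewform_of_isModularModelOfLevel W hN0 hN
  have : NeZero M := ⟨hM0⟩
  exact MainCore.isModularModelOfLevel_conductorLevel_of W hΔ hMN hN3 hg
    (fun q hq => WiringSq.factorization_ne_two h36 W hΔ hss hN0 hMN hg hgW hq)
    (fun q hq hqM hq2 => hdisc W hΔ hN0 hMN hg hgW hq hqM hq2)
    (fun ℓ hℓ hgood hℓM => hcoef W hΔ hN0 hMN hg hgW hℓ hgood hℓM)

/-- **The frozen statement S58 from the frozen statement S35 and the hres-free S36.** -/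
theorem result_of (h35 : Hyps.S35Statement) (h36 : Hyps.S36Core)
    (W : WeierstrassCurve ℤ) (hss : W.IsSemistableModel) (N : ℕ)
    (p : ℕ) [Fact p.Prime] (_hp2 : p ≠ 2) (_hirr : W.ModRepIsIrreducible p)
    (_hp2N : ¬ p ^ 2 ∣ N)
    (hN : W.IsModularModelOfLevel N) (hbad : ∀ ℓ : ℕ, ℓ.Prime → (ℓ : ℤ) ∣ W.Δ → ℓ ∣ N)
    (hN3 : ∀ q : ℕ, q.Prime → ¬ q ^ 3 ∣ N) :
    W.IsModularModelOfLevel W.conductorLevel :=
  result_of_wiring h36
    (fun W hΔ _ _ _ hN0 hMN _ hg hgW _ hq hqM hq2 =>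
      WiringFrobAll.dvd_disc h35 W hΔ hN0 hMN hg hgW hq hqM hq2)
    (fun W hΔ _ _ _ hN0 hMN _ hg hgW _ hℓ hgood hℓM =>
      WiringFrobAll.qCoeff_eq h35 W hΔ hN0 hMN hg hgW hℓ hgood hℓM)
    W hss N hN hbad hN3

/-- **The frozen statement S58 from the frozen statement S35 and S36 for odd `lam`**
(`WiringSq.S36CoreOdd` = the frozen statement S36 with `hres` deleted and `hlam2 : lam ≠ 2`
kept).  This is the form to use: it is implied by every hres-free export of S36. -/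
theorem result_of_odd (h35 : Hyps.S35Statement) (h36 : WiringSq.S36CoreOdd)
    (W : WeierstrassCurve ℤ) (hss : W.IsSemistableModel) (N : ℕ)
    (p : ℕ) [Fact p.Prime] (_hp2 : p ≠ 2) (_hirr : W.ModRepIsIrreducible p)
    (_hp2N : ¬ p ^ 2 ∣ N)
    (hN : W.IsModularModelOfLevel N) (hbad : ∀ ℓ : ℕ, ℓ.Prime → (ℓ : ℤ) ∣ W.Δ → ℓ ∣ N)
    (hN3 : ∀ q : ℕ, q.Prime → ¬ q ^ 3 ∣ N) :
    W.IsModularModelOfLevel W.conductorLevel := by
  have hN0 : N ≠ 0 := Descent.level_ne_zero hN3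
  have hΔ : W.Δ ≠ 0 := Descent.delta_ne_zero W hN0 hbad
  obtain ⟨M, hMN, hM0, g, hg, hgW⟩ :=
    Descent.exists_isNewform_of_isModularModelOfLevel W hN0 hN
  have : NeZero M := ⟨hM0⟩
  exact MainCore.isModularModelOfLevel_conductorLevel_of W hΔ hMN hN3 hg
    (fun q hq => WiringSq.factorization_ne_two_odd h36 W hΔ hss hN0 hMN hg hgW hq)
    (fun q hq hqM hq2 => WiringFrobAll.dvd_disc h35 W hΔ hN0 hMN hg hgW hq hqM hq2)
    (fun ℓ hℓ hgood hℓM => WiringFrobAll.qCoeff_eq h35 W hΔ hN0 hMN hg hgW hℓ hgood hℓM)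

end Fermat.Agent.S58.Main
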