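import Mathlib
import Fermat.Agent.S41.NonEis.FrobRel
import Fermat.Agent.S58.Frob23.Three
import Fermat.Agent.S58.Frob23.Lift

/-!
# S58, brick (B2) FROB23: the Frobenius relation on torsion at every good prime

`E / ℚ` an elliptic curve with integral model `W`, `ℓ` a prime of good reduction of `W`, `A` a
place of `Qb = AlgebraicClosure ℚ` over `ℓ`, `σ` a Frobenius element at `A`, `n` prime to `ℓ`:

  `σ • σ • P - a_ℓ(W) • σ • P + ℓ • P = 0`  for every `P ∈ E(Qb)` with `n • P = 0`.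

* the residue-field cores are `frobStatement_two` (`Frob23.Transport`) and `frobStatement_three`
  (`Frob23.Three`).
* `frobenius_relation23` : the relation for `ℓ ∈ {2, 3}`.
* `frobenius_relation_all` : the relation for every good prime `ℓ` (for `ℓ ≥ 5` this is
  `S41.NonEis.FrobRel.frobenius_relation`).
-/

set_option autoImplicit false

namespace Fermat.Agent.S58.Frob23

open WeierstrassCurve WeierstrassCurve.Affine

local notation "Qb" => AlgebraicClosure ℚ

/-- **Frobenius relation on torsion points at a good prime `ℓ ∈ {2, 3}`.** -/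
theorem frobenius_relation23 (E : WeierstrassCurve ℚ) {W : WeierstrassCurve ℤ}
    (hW : W.IsIntegralModelOf E) {ℓ n : ℕ} (hℓ : ℓ.Prime) (h23 : ℓ = 2 ∨ ℓ = 3)
    (hgood : W.IsGoodPrimeFor ℓ) (hn : ¬ ℓ ∣ n) {A : ValuationSubring Qb}
    (hA : A.LiesOverPrime ℓ) (σ : Qb ≃ₐ[ℚ] Qb) (hσ : A.IsFrobeniusAt σ ℓ)
    (P : (E⁄Qb).Point) (hP : n • P = 0) :
    σ • σ • P - W.apOfModel ℓ • σ • P + (ℓ : ℤ) • P = 0 := by
  rcases h23 with rfl | rfl
  · exact Lift.frobenius_relation_of_core E hW hℓ (fun K _ _ _ _ => frobStatement_two K)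
      hgood hn hA σ hσ P hP
  · exact Lift.frobenius_relation_of_core E hW hℓ (fun K _ _ _ _ => frobStatement_three K)
      hgood hn hA σ hσ P hP

/-- **Frobenius relation on torsion points at every good prime.** -/
theorem frobenius_relation_all (E : WeierstrassCurve ℚ) {W : WeierstrassCurve ℤ}
    (hW : W.IsIntegralModelOf E) {ℓ n : ℕ} (hℓ : ℓ.Prime)
    (hgood : W.IsGoodPrimeFor ℓ) (hn : ¬ ℓ ∣ n) {A : ValuationSubring Qb}
    (hA : A.LiesOverPrime ℓ) (σ : Qb ≃ₐ[ℚ] Qb) (hσ : A.IsFrobeniusAt σ ℓ)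
    (P : (E⁄Qb).Point) (hP : n • P = 0) :
    σ • σ • P - W.apOfModel ℓ • σ • P + (ℓ : ℤ) • P = 0 := by
  by_cases h5 : 5 ≤ ℓ
  · exact Fermat.Agent.S41.NonEis.FrobRel.frobenius_relation E hW hℓ h5 hgood hn hA σ hσ P hP
  · have h23 : ℓ = 2 ∨ ℓ = 3 := by
      have h2 := hℓ.two_le
      have h4 : ℓ ≠ 4 := by
        rintro rfl
        exact absurd hℓ (by norm_num)
      omega
    exact frobenius_relation23 E hW hℓ h23 hgood hn hA σ hσ P hP

end Fermat.Agent.S58.Frob23
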