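/-
# S58.B7 — Artin–Schreier-lite (helper299)

Every involution `c ≠ 1` of an algebraically closed field `L` with `2 ≠ 0` inverts every root
of unity: `c ζ = ζ⁻¹`.  In particular every involution `c ≠ 1` of `Gal(ℚ̄/ℚ)` acts on `μ_n` as
`ζ ↦ ζ⁻¹` ("every involution is odd").

Proof.  `K := L^c`.  There is `w ≠ 0` with `c w = -w`; `L = K ⊕ K w`.  A square root `i` of `-1`
is not in `K` (else `w²` would be a square in `K`, so `w ∈ K`).  Hence `-1` is not a square in
`K`; sums of two squares in `K` are squares in `K` (norms from `L`), so `-1` is not a sum of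
squares in `K`.  A root of unity `η ∈ K` of odd order is `1` (`0 = 1 + η + ⋯` is a sum of squares)
and a root of unity in `K` of `2`-power order is `± 1`; so roots of unity of `K` are `± 1`.
For a root of unity `ζ ∈ L`, `ζ · c ζ ∈ K` is a root of unity and a square in `K`, so it is `1`.
-/
import Mathlib

set_option autoImplicit false

namespace Fermat.Agent.S58.Odd

section Core

variable {L : Type*} [Field L]

/-- There is a nonzero anti-invariant element. -/
theorem exists_anti (c : L ≃+* L) (hc : ∀ x, c (c x) = x) (hc1 : ∃ x, c x ≠ x) :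
    ∃ w : L, w ≠ 0 ∧ c w = -w := by
  obtain ⟨x, hx⟩ := hc1
  refine ⟨x - c x, fun h => hx (sub_eq_zero.mp h).symm, ?_⟩
  rw [map_sub, hc]; ring

/-- Decomposition `y = u + t * w` with `u, t` fixed by `c`. -/
theorem decomp (c : L ≃+* L) (hc : ∀ x, c (c x) = x) (h2 : (2 : L) ≠ 0) {w : L} (hw : w ≠ 0)
    (hcw : c w = -w) (y : L) : ∃ u t : L, c u = u ∧ c t = t ∧ y = u + t * w := by
  have hc2 : c 2 = 2 := map_ofNat c 2
  refine ⟨(y + c y) / 2, (y - c y) / (2 * w), ?_, ?_, ?_⟩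
  · rw [map_div₀, map_add, hc, hc2]; ring
  · rw [map_div₀, map_sub, hc, map_mul, hc2, hcw]
    field_simp
    ring
  · field_simp
    ring

/-- `1, w` are independent over the fixed field. -/
theorem indep (c : L ≃+* L) (h2 : (2 : L) ≠ 0) {w : L} (hw : w ≠ 0) (hcw : c w = -w)
    {α β : L} (hα : c α = α) (hβ : c β = β) (h : α + β * w = 0) : α = 0 ∧ β = 0 := by
  have h' : α - β * w = 0 := by
    have := congrArg c h
    rw [map_add, map_mul, hα, hβ, hcw, map_zero] at this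
    linear_combination this
  have hα0 : α = 0 := by
    have : 2 * α = 0 := by linear_combination h + h'
    exact (mul_eq_zero.mp this).resolve_left h2
  refine ⟨hα0, ?_⟩
  rw [hα0, zero_add] at h
  exact (mul_eq_zero.mp h).resolve_right hw

variable [IsAlgClosed L]

/-- A square root of `-1` is not fixed by `c`. -/
theorem I_not_fixed (c : L ≃+* L) (hc : ∀ x, c (c x) = x) (hc1 : ∃ x, c x ≠ x)
    (h2 : (2 : L) ≠ 0) {i : L} (hi : i ^ 2 = -1) : c i ≠ i := by
  intro hci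
  obtain ⟨w, hw, hcw⟩ := exists_anti c hc hc1
  obtain ⟨s, hs⟩ := IsAlgClosed.exists_pow_nat_eq w (n := 2) (by norm_num)
  obtain ⟨x, y, hx, hy, hsxy⟩ := decomp c hc h2 hw hcw s
  have hw2 : c (w ^ 2) = w ^ 2 := by rw [map_pow, hcw]; ring
  have hexp : (x ^ 2 + y ^ 2 * w ^ 2) + (2 * x * y - 1) * w = 0 := by
    rw [hsxy] at hs
    linear_combination hs
  have h1 : c (x ^ 2 + y ^ 2 * w ^ 2) = x ^ 2 + y ^ 2 * w ^ 2 := by
    rw [map_add, map_mul, map_pow, map_pow, hx, hy, hw2]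
  have h2' : c (2 * x * y - 1) = 2 * x * y - 1 := by
    rw [map_sub, map_mul, map_mul, hx, hy, map_one, map_ofNat]
  obtain ⟨hA, hB⟩ := indep c h2 hw hcw h1 h2' hexp
  have hy0 : y ≠ 0 := by
    rintro rfl
    simp at hB
  have hsq : w ^ 2 = (i * x / y) ^ 2 := by
    rw [div_pow, mul_pow, hi]
    field_simp
    linear_combination hA
  have he : c (i * x / y) = i * x / y := by rw [map_div₀, map_mul, hci, hx, hy]
  have hprod : (w - i * x / y) * (w + i * x / y) = 0 := by linear_combination hsq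
  have hfix : c w = w := by
    rcases mul_eq_zero.mp hprod with h | h
    · rw [sub_eq_zero.mp h, he]
    · rw [eq_neg_of_add_eq_zero_left h, map_neg, he]
  rw [hcw] at hfix
  have h2w : 2 * w = 0 := by linear_combination -hfix
  exact hw ((mul_eq_zero.mp h2w).resolve_left h2)

/-- `c` sends a square root of `-1` to its negative. -/
theorem map_I (c : L ≃+* L) (hc : ∀ x, c (c x) = x) (hc1 : ∃ x, c x ≠ x)
    (h2 : (2 : L) ≠ 0) {i : L} (hi : i ^ 2 = -1) : c i = -i := by
  have h : (c i) ^ 2 = -1 := by rw [← map_pow, hi, map_neg, map_one]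
  have hprod : (c i - i) * (c i + i) = 0 := by linear_combination h - hi
  rcases mul_eq_zero.mp hprod with h' | h'
  · exact absurd (sub_eq_zero.mp h') (I_not_fixed c hc hc1 h2 hi)
  · exact eq_neg_of_add_eq_zero_left h'

/-- `-1` is not a square in the fixed field. -/
theorem neg_one_not_sq (c : L ≃+* L) (hc : ∀ x, c (c x) = x) (hc1 : ∃ x, c x ≠ x)
    (h2 : (2 : L) ≠ 0) {e : L} (he : c e = e) : e ^ 2 ≠ -1 :=
  fun h => I_not_fixed c hc hc1 h2 h he

/-- Sums of two squares in the fixed field are squares in the fixed field. -/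
theorem sum_two_sq (c : L ≃+* L) (hc : ∀ x, c (c x) = x) (hc1 : ∃ x, c x ≠ x)
    (h2 : (2 : L) ≠ 0) {a b : L} (ha : c a = a) (hb : c b = b) :
    ∃ e, c e = e ∧ a ^ 2 + b ^ 2 = e ^ 2 := by
  obtain ⟨i, hi⟩ := IsAlgClosed.exists_pow_nat_eq (-1 : L) (n := 2) (by norm_num)
  have hci := map_I c hc hc1 h2 hi
  obtain ⟨s, hs⟩ := IsAlgClosed.exists_pow_nat_eq (a + b * i) (n := 2) (by norm_num)
  refine ⟨s * c s, ?_, ?_⟩
  · rw [map_mul, hc, mul_comm]
  · have hcs : (c s) ^ 2 = a - b * i := by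
      rw [← map_pow, hs, map_add, map_mul, ha, hb, hci]; ring
    calc a ^ 2 + b ^ 2 = (a + b * i) * (a - b * i) := by linear_combination (b ^ 2) * hi
      _ = s ^ 2 * (c s) ^ 2 := by rw [hs, hcs]
      _ = (s * c s) ^ 2 := by ring

/-- Finite sums of squares in the fixed field are squares in the fixed field. -/
theorem sum_sq (c : L ≃+* L) (hc : ∀ x, c (c x) = x) (hc1 : ∃ x, c x ≠ x)
    (h2 : (2 : L) ≠ 0) {ι : Type*} (s : Finset ι) (f : ι → L) (hf : ∀ i ∈ s, c (f i) = f i) :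
    ∃ e, c e = e ∧ ∑ i ∈ s, f i ^ 2 = e ^ 2 := by
  classical
  induction s using Finset.induction_on with
  | empty => exact ⟨0, map_zero c, by simp⟩
  | insert a s ha ih =>
    obtain ⟨e, he, hs⟩ := ih (fun i hi => hf i (Finset.mem_insert_of_mem hi))
    obtain ⟨e', he', hs'⟩ := sum_two_sq c hc hc1 h2 (hf a (Finset.mem_insert_self a s)) he
    exact ⟨e', he', by rw [Finset.sum_insert ha, hs, hs']⟩

/-- The fixed field is formally real: a vanishing sum of squares has all terms zero. -/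
theorem eq_zero_of_sum_sq_eq_zero (c : L ≃+* L) (hc : ∀ x, c (c x) = x) (hc1 : ∃ x, c x ≠ x)
    (h2 : (2 : L) ≠ 0) {ι : Type*} (s : Finset ι) (f : ι → L) (hf : ∀ i ∈ s, c (f i) = f i)
    (h0 : ∑ i ∈ s, f i ^ 2 = 0) : ∀ i ∈ s, f i = 0 := by
  classical
  intro i hi
  by_contra hne
  obtain ⟨e, he, hs⟩ := sum_sq c hc hc1 h2 (s.erase i) f
    (fun j hj => hf j (Finset.mem_of_mem_erase hj))
  have hsum : f i ^ 2 + e ^ 2 = 0 := by
    rw [← hs, Finset.add_sum_erase s (fun j => f j ^ 2) hi]; exact h0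
  have h3 : (e / f i) ^ 2 = -1 := by
    field_simp
    linear_combination hsum
  exact neg_one_not_sq c hc hc1 h2 (by rw [map_div₀, he, hf i hi]) h3

/-- A root of unity of odd order in the fixed field is `1`. -/
theorem eq_one_of_fixed_of_odd (c : L ≃+* L) (hc : ∀ x, c (c x) = x) (hc1 : ∃ x, c x ≠ x)
    (h2 : (2 : L) ≠ 0) {η : L} (hη : c η = η) {n : ℕ} (hn : Odd n) (hηn : η ^ n = 1) :
    η = 1 := by
  by_contra hne
  obtain ⟨m, rfl⟩ := hn
  have hgeom : ∑ k ∈ Finset.range (2 * m + 1), η ^ k = 0 := by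
    have := geom_sum_mul η (2 * m + 1)
    rw [hηn, sub_self] at this
    exact (mul_eq_zero.mp this).resolve_right (sub_ne_zero.mpr hne)
  have hsq : ∀ k, η ^ k = (η ^ (k * (m + 1))) ^ 2 := by
    intro k
    rw [← pow_mul]
    have : k * (m + 1) * 2 = (2 * m + 1) * k + k := by ring
    rw [this, pow_add, pow_mul, hηn, one_pow, one_mul]
  have h0 : ∑ k ∈ Finset.range (2 * m + 1), (η ^ (k * (m + 1))) ^ 2 = 0 := by
    rw [← hgeom]; exact Finset.sum_congr rfl (fun k _ => (hsq k).symm)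
  have := eq_zero_of_sum_sq_eq_zero c hc hc1 h2 (Finset.range (2 * m + 1))
    (fun k => η ^ (k * (m + 1))) (fun k _ => by rw [map_pow, hη]) h0 0 (by simp)
  simp at this

/-- A root of unity of `2`-power order in the fixed field is `± 1`. -/
theorem eq_one_or_neg_one_of_fixed_two_pow (c : L ≃+* L) (hc : ∀ x, c (c x) = x)
    (hc1 : ∃ x, c x ≠ x) (h2 : (2 : L) ≠ 0) (e : ℕ) :
    ∀ {η : L}, c η = η → η ^ 2 ^ e = 1 → η = 1 ∨ η = -1 := by
  induction e with
  | zero => intro η _ h; left; simpa using h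
  | succ e ih =>
    intro η hη h
    have h' : (η ^ 2) ^ 2 ^ e = 1 := by rw [← pow_mul, ← pow_succ']; exact h
    rcases ih (by rw [map_pow, hη]) h' with h1 | h1
    · have hprod : (η - 1) * (η + 1) = 0 := by linear_combination h1
      rcases mul_eq_zero.mp hprod with h3 | h3
      · left; exact sub_eq_zero.mp h3
      · right; exact eq_neg_of_add_eq_zero_left h3
    · exact absurd h1 (neg_one_not_sq c hc hc1 h2 hη)

/-- The only roots of unity in the fixed field are `± 1`. -/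
theorem eq_one_or_neg_one_of_fixed (c : L ≃+* L) (hc : ∀ x, c (c x) = x)
    (hc1 : ∃ x, c x ≠ x) (h2 : (2 : L) ≠ 0) {η : L} (hη : c η = η) {n : ℕ} (hn : n ≠ 0)
    (h : η ^ n = 1) : η = 1 ∨ η = -1 := by
  obtain ⟨e, m, hm, rfl⟩ := Nat.exists_eq_two_pow_mul_odd hn
  have h1 : (η ^ 2 ^ e) ^ m = 1 := by rw [← pow_mul]; exact h
  have := eq_one_of_fixed_of_odd c hc hc1 h2 (by rw [map_pow, hη]) hm h1
  exact eq_one_or_neg_one_of_fixed_two_pow c hc hc1 h2 e hη this

/-- **Artin–Schreier-lite.** An involution `c ≠ 1` of an algebraically closed field with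
`2 ≠ 0` inverts every root of unity. -/
theorem map_root_of_unity (c : L ≃+* L) (hc : ∀ x, c (c x) = x) (hc1 : ∃ x, c x ≠ x)
    (h2 : (2 : L) ≠ 0) {n : ℕ} (hn : n ≠ 0) {ζ : L} (hζ : ζ ^ n = 1) : c ζ = ζ⁻¹ := by
  obtain ⟨s, hs⟩ := IsAlgClosed.exists_pow_nat_eq ζ (n := 2) (by norm_num)
  have he : c (s * c s) = s * c s := by rw [map_mul, hc, mul_comm]
  have hsq : (s * c s) ^ 2 = ζ * c ζ := by rw [mul_pow, ← map_pow, hs]
  have hfix : c (ζ * c ζ) = ζ * c ζ := by rw [map_mul, hc, mul_comm]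
  have hpow : (ζ * c ζ) ^ n = 1 := by rw [mul_pow, ← map_pow, hζ, map_one, mul_one]
  rcases eq_one_or_neg_one_of_fixed c hc hc1 h2 hfix hn hpow with h | h
  · exact eq_inv_of_mul_eq_one_right h
  · exact absurd (hsq.trans h) (neg_one_not_sq c hc hc1 h2 he)

end Core

section Galois

local notation "Qb" => AlgebraicClosure ℚ

/-- Every involution `c ≠ 1` of `Gal(ℚ̄/ℚ)` inverts every root of unity. -/
theorem involution_map_root_of_unity (c : Qb ≃ₐ[ℚ] Qb) (hc : c * c = 1) (hc1 : c ≠ 1)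
    {n : ℕ} (hn : n ≠ 0) {ζ : Qb} (hζ : ζ ^ n = 1) : c ζ = ζ⁻¹ := by
  have h1 : ∀ x, c (c x) = x := fun x => by
    have := congrArg (fun f : Qb ≃ₐ[ℚ] Qb => f x) hc
    simpa using this
  have h2 : ∃ x, c x ≠ x := by
    by_contra h
    exact hc1 (AlgEquiv.ext fun x => by_contra fun hx => h ⟨x, hx⟩)
  exact map_root_of_unity (c : Qb ≃+* Qb) h1 h2 two_ne_zero hn hζ

/-- Every involution `c ≠ 1` of `Gal(ℚ̄/ℚ)` inverts a primitive `n`-th root of unity. -/
theorem involution_map_primitiveRoot_inv {n : ℕ} (hn : n ≠ 0) (c : Qb ≃ₐ[ℚ] Qb)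
    (hc : c * c = 1) (hc1 : c ≠ 1) {ζ : Qb} (hζ : IsPrimitiveRoot ζ n) : c ζ = ζ⁻¹ :=
  involution_map_root_of_unity c hc hc1 hn hζ.pow_eq_one

/-- Exponent form: `c ζ = ζ ^ (n - 1)`. -/
theorem involution_map_root_of_unity_pow (c : Qb ≃ₐ[ℚ] Qb) (hc : c * c = 1) (hc1 : c ≠ 1)
    {n : ℕ} (hn : n ≠ 0) {ζ : Qb} (hζ : ζ ^ n = 1) : c ζ = ζ ^ (n - 1) := by
  rw [involution_map_root_of_unity c hc hc1 hn hζ]
  have h1 : ζ ^ (n - 1) * ζ = 1 := by
    rw [← pow_succ, Nat.sub_add_cancel (Nat.pos_of_ne_zero hn), hζ]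
  exact (eq_inv_of_mul_eq_one_left h1).symm

end Galois

end Fermat.Agent.S58.Odd
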