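/-
# S58.B7 — every involution of `Gal(ℚ̄/ℚ)` has cyclotomic character `-1` (helper299)

Adapter of `S58/Odd.lean` to the vocabulary of `Lib/CycloChar.lean`.
-/
import Fermat.Agent.S58.Odd
import Fermat.Agent.Lib.CycloChar

set_option autoImplicit false

namespace Fermat.Agent.S58.Odd

open Fermat.Agent.Lib.CycloChar

local notation "Qb" => AlgebraicClosure ℚ
local notation "GQ" => (AlgebraicClosure ℚ ≃ₐ[ℚ] AlgebraicClosure ℚ)

variable (p : ℕ) [Fact p.Prime]

/-- The `p`-adic cyclotomic character of any involution `c ≠ 1` is `-1` (value in `ℤ_[p]`). -/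
theorem cyclo_involution_val (c : GQ) (hc : c * c = 1) (hc1 : c ≠ 1) :
    (cyclo p c : ℤ_[p]) = -1 := by
  refine cyclo_eq_of_pow p c _ (fun n => p ^ n - 1) (fun n => ?_) ?_
  · have hpos : 1 ≤ p ^ n := pow_pos (Fact.out : p.Prime).pos n
    rw [map_neg, map_one, Nat.cast_sub hpos, ZMod.natCast_self, Nat.cast_one, zero_sub]
  · intro n μ hμ
    have hpos : 0 < p ^ n := pow_pos (Fact.out : p.Prime).pos n
    exact involution_map_root_of_unity_pow c hc hc1 hpos.ne' hμ

/-- The `p`-adic cyclotomic character of any involution `c ≠ 1` is `-1`. -/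
theorem cyclo_involution (c : GQ) (hc : c * c = 1) (hc1 : c ≠ 1) : cyclo p c = -1 := by
  apply Units.ext
  rw [cyclo_involution_val p c hc hc1, Units.val_neg, Units.val_one]

/-- Transported version: `cycloTo p φ c = -1` for any ring hom `φ : ℤ_[p] →+* O`. -/
theorem cycloTo_involution {O : Type*} [CommRing O] (φ : ℤ_[p] →+* O) (c : GQ)
    (hc : c * c = 1) (hc1 : c ≠ 1) : cycloTo p φ c = -1 := by
  apply Units.ext
  rw [cycloTo_val, cyclo_involution_val p c hc hc1, map_neg, map_one, Units.val_neg,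
    Units.val_one]

/-- Complete version: `cycloO p I hp c = -1`. -/
theorem cycloO_involution {O : Type*} [CommRing O] (I : Ideal O) [IsAdicComplete I O]
    (hp : (p : O) ∈ I) (c : GQ) (hc : c * c = 1) (hc1 : c ≠ 1) : cycloO p I hp c = -1 :=
  cycloTo_involution p _ c hc hc1

end Fermat.Agent.S58.Odd
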