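import Mathlib
import Fermat.Agent.S58.WiringSq
import Fermat.Agent.S36.Wiring
import Fermat.Agent.S30.QuadRel
import Fermat.Agent.S30.ConjCliffordBrick
import Fermat.Agent.Lib.FrobeniusDensity

set_option autoImplicit false
open Polynomial

/-!
# S58: the hres-free S36 at a single pair `(M, lam)`

`result_of_sqData_at` is `Fermat.Agent.S36.Wiring.result_of_sqData` (helper134) with the producer
contract asked only at the pair `(M, lam)` in play: `Nonempty (SqData M lam)` instead of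
`∀ M p, Nonempty (SqData M p)`.  The proof is the proof of `Wiring.result_of_sqData` verbatim
(that proof uses the contract only at `(M, lam)`).

`s36CoreOdd_of_sqData_odd` : `WiringSq.S36CoreOdd` (the frozen S36 without `hres`) from the
producer contract at the ODD primes only, so that the S36 endgame may restrict to `p ≠ 2`.
-/

namespace Fermat.Agent.S58.S36At

open Fermat.Agent.S30 Fermat.Agent.S35.LinAlg Fermat.Agent.S35.NewEigen
  Fermat.Agent.S35.WiringAux Fermat.Agent.S36 Fermat.Agent.S36.Wiring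
open CongruenceSubgroup ModularFormClass

theorem result_of_sqData_at (h2 : EngineMain.QuadRelStatement)
    (h3 : EngineMain.ConjCliffordStatement)
    {M : ℕ} [NeZero M] {g : CuspForm (CongruenceSubgroup.Gamma0 M) 2} (hg : g.IsNewform)
    (lam : ℕ) [Fact lam.Prime] (hSQ : Nonempty (SqData M lam))
    (S : Finset ℕ)
    (O' : Type) [CommRing O'] [IsDomain O'] [IsDiscreteValuationRing O']
    [IsAdicComplete (IsLocalRing.maximalIdeal O') O'] [Finite (IsLocalRing.ResidueField O')]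
    [CharZero O'] (hlamO' : (lam : O') ∈ IsLocalRing.maximalIdeal O')
    (chig : CuspForm.heckeAlgebra M 2 (↑S : Set ℕ) →+* ℂ)
    (hchig : ∀ (ℓ : ℕ) (hℓ : ℓ.Prime) (hℓM : ¬ ℓ ∣ M) (hℓS : ℓ ∉ (↑S : Set ℕ)),
      chig (CuspForm.heckeAlgebra.T hℓ hℓM hℓS) = ModularFormClass.qCoeff g ℓ)
    (iota : chig.range →+* O')
    (hlamS : lam ∈ S) (hMS : ∀ q : ℕ, q.Prime → q ∣ M → q ∈ S) :
    ∃ (O'' : Type) (_ : CommRing O'') (_ : IsDomain O'') (_ : IsDiscreteValuationRing O'')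
      (_ : IsAdicComplete (IsLocalRing.maximalIdeal O'') O'')
      (_ : Finite (IsLocalRing.ResidueField O''))
      (_ : CharZero O'') (_ : Algebra O' O'') (_ : Module.Finite O' O'')
      (_ : IsLocalHom (algebraMap O' O'')),
      Function.Injective (algebraMap O' O'') ∧
      ∃ ρ : GaloisRepAdic O'',
        (∀ (ℓ : ℕ) (hℓ : ℓ.Prime) (hℓM : ¬ ℓ ∣ M) (hℓS : ℓ ∉ (↑S : Set ℕ)),
          ∀ A : ValuationSubring (AlgebraicClosure ℚ), A.LiesOverPrime ℓ →
            ∀ σ : AlgebraicClosure ℚ ≃ₐ[ℚ] AlgebraicClosure ℚ, A.IsFrobeniusAt σ ℓ →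
              LinearMap.charpoly (ρ.ρ σ) =
                X ^ 2 - C (algebraMap O' O'' ((iota.comp chig.rangeRestrict)
                  (CuspForm.heckeAlgebra.T hℓ hℓM hℓS))) * X + C ((ℓ : O''))) ∧
        (∀ q : ℕ, q.Prime → q ≠ lam → M.factorization q = 2 →
          ¬ ρ.IsUnipotentOnInertiaAt q) := by
  classical
  obtain ⟨SD⟩ := hSQ
  have hgn : g.IsNormalizedEigenform := hg.1
  -- Step 1: the coefficient ring
  have hintR : Algebra.IsIntegral ℤ chig.range := ⟨fun x => isIntegral_range chig x⟩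
  have hiota : Function.Injective iota := injective_of_isIntegral iota
  have hRS : Function.Injective (algebraMap chig.range (integralClosure chig.range ℂ)) := by
    intro x y h
    have := congrArg (algebraMap (integralClosure chig.range ℂ) ℂ) h
    exact Subtype.ext this
  let aS : Idx M → integralClosure chig.range ℂ :=
    fun i => ⟨qCoeff g i.1, (isIntegral_qCoeff hgn i).tower_top⟩
  let aN : ℕ → integralClosure chig.range ℂ :=
    fun ℓ => if h : ℓ.Prime ∧ ¬ ℓ ∣ M then aS ⟨ℓ, h⟩ else 0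
  have hxS : ∀ i : Idx M, aS i ∈ S.image aN ∨
      ∃ r : chig.range, aS i = algebraMap chig.range (integralClosure chig.range ℂ) r := by
    intro i
    by_cases hS : i.1 ∈ S
    · left
      rw [Finset.mem_image]
      refine ⟨i.1, hS, ?_⟩
      show (if h : i.1.Prime ∧ ¬ i.1 ∣ M then aS ⟨i.1, h⟩ else 0) = aS i
      rw [dif_pos i.2]
    · right
      have hS' : i.1 ∉ (↑S : Set ℕ) := by simpa using hS
      refine ⟨chig.rangeRestrict (CuspForm.heckeAlgebra.T i.2.1 i.2.2 hS'), ?_⟩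
      apply Subtype.ext
      exact (hchig i.1 i.2.1 i.2.2 hS').symm
  obtain ⟨O'', i1, i2, i3, i4, i5, i6, i7, i8, i9, hinj, c, hcR, hciff⟩ :=
    Fermat.Agent.S35.Coeff.exists_coeff_extension O' chig.range (integralClosure chig.range ℂ)
      hRS iota hiota (S.image aN) aS hxS
  have hSC : ∀ P : MvPolynomial (Idx M) ℤ,
      MvPolynomial.aeval (fun i : Idx M => qCoeff g i.1) P = 0 ↔ MvPolynomial.aeval aS P = 0 :=
    fun P => Fermat.Agent.S35.Coeff.aeval_eq_zero_iff_of_injective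
      (algebraMap (integralClosure chig.range ℂ) ℂ) Subtype.val_injective aS _ (fun _ => rfl) P
  have hc : ∀ P : MvPolynomial (Idx M) ℤ, MvPolynomial.aeval c P = 0 →
      MvPolynomial.aeval (fun i : Idx M => qCoeff g i.1) P = 0 :=
    fun P hP => (hSC P).mpr ((hciff P).mp hP)
  have hc' : ∀ P : MvPolynomial (Idx M) ℤ,
      MvPolynomial.aeval (fun i : Idx M => qCoeff g i.1) P = 0 → MvPolynomial.aeval c P = 0 :=
    fun P hP => (hciff P).mpr ((hSC P).mp hP)
  -- Step 2: the eigenvector of `g` over `O''`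
  obtain ⟨vK, hvK0, hvK⟩ := exists_eigenvector_of_relations (tI SD.D) (tI_comm SD.D)
    (fun i => algebraMap O'' (FractionRing O'') (c i))
    (fun P hP => by
      have h1 := hc' P (aeval_qCoeff_eq_zero SD.D SD.occ' hgn P hP)
      rw [Fermat.Agent.S35.Coeff.aeval_ringHom (algebraMap O'' (FractionRing O'')) c P, h1,
        map_zero])
  obtain ⟨w₀, hw₀0, hw₀⟩ := exists_integral_eigenvector (tI SD.D) (FractionRing O'') c vK hvK0 hvK
  have hNl_ne : eigLattice SD.D c ≠ ⊥ := by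
    intro h
    have hw₀Nl : w₀ ∈ eigLattice SD.D c := hw₀
    rw [h, Submodule.mem_bot] at hw₀Nl
    exact hw₀0 hw₀Nl
  -- Step 3: the engine data
  have hlamO'' : (lam : O'') ∈ IsLocalRing.maximalIdeal O'' := by
    rw [IsLocalRing.mem_maximalIdeal, mem_nonunits_iff]
    intro hunit
    have h1 : (lam : O'') = algebraMap O' O'' (lam : O') := (map_natCast _ _).symm
    rw [h1] at hunit
    have h2 := IsLocalHom.map_nonunit (f := algebraMap O' O'') _ hunit
    rw [IsLocalRing.mem_maximalIdeal, mem_nonunits_iff] at hlamO'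
    exact hlamO' h2
  let ι : ℤ_[lam] →+* O'' :=
    Fermat.Agent.Lib.CycloChar.padicHom lam (IsLocalRing.maximalIdeal O'') hlamO''
  let χ'' : CuspForm.heckeAlgebra M 2 (↑S : Set ℕ) →+* O'' :=
    (algebraMap O' O'').comp (iota.comp chig.rangeRestrict)
  have hNl_le : eigLattice SD.D c ≤ eigenLattice SD.D S χ'' := by
    intro v hv ℓ hℓ hℓM hℓS
    have h1 : ((SD.D.t ℓ).map (Int.castRingHom O'')).mulVec v = c ⟨ℓ, hℓ, hℓM⟩ • v :=
      hv ⟨ℓ, hℓ, hℓM⟩
    have h2 : c ⟨ℓ, hℓ, hℓM⟩ = χ'' (CuspForm.heckeAlgebra.T hℓ hℓM hℓS) :=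
      hcR ⟨ℓ, hℓ, hℓM⟩ (chig.rangeRestrict (CuspForm.heckeAlgebra.T hℓ hℓM hℓS))
        (Subtype.ext (hchig ℓ hℓ hℓM hℓS).symm)
    rw [← h2]
    exact h1
  have hstM : ∀ σ : GQ, ∀ m ∈ eigLattice SD.D c,
      (SD.D.ρR ι σ).mulVec m ∈ eigLattice SD.D c := by
    intro σ m hm i
    have h1 := SD.D.ρR_comm ι σ i.1
    have h2 : (SD.D.tR O'' i.1).mulVec m = c i • m := hm i
    show (SD.D.tR O'' i.1).mulVec _ = _
    rw [Matrix.mulVec_mulVec, ← h1, ← Matrix.mulVec_mulVec, h2, Matrix.mulVec_smul]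
  have hst : ∀ σ : GQ, ∀ m ∈ eigLattice SD.D c, SD.D.ρEnd ι σ m ∈ eigLattice SD.D c := by
    intro σ m hm
    rw [SD.D.ρEnd_apply]
    exact hstM σ m hm
  have hrel : ∀ σ : GQ, ∃ a : O'', ∀ m ∈ eigLattice SD.D c,
      SD.D.ρEnd ι σ (SD.D.ρEnd ι σ m) - a • SD.D.ρEnd ι σ m
        + ((CycloChar.epsO lam ι σ : O''ˣ) : O'') • m = 0 := by
    intro σ
    obtain ⟨a, ha⟩ := h2 M lam SD.D S hlamS hMS O'' hlamO'' ι χ'' σ
    refine ⟨a, fun m hm => ?_⟩
    rw [SD.D.ρEnd_apply, SD.D.ρEnd_apply, CycloChar.epsO_apply]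
    exact ha m (hNl_le hm)
  have hrank : Engine.RankTwoConclusion (SD.D.ρEnd ι) (eigLattice SD.D c)
      (CycloChar.epsO lam ι) :=
    h3 O'' two_ne_zero GQ (Fin SD.D.r → O'') (SD.D.ρEnd ι) (eigLattice SD.D c) hNl_ne hst
      (CycloChar.epsO lam ι) hrel complexConjugation complexConjugation_mul_self
      (CycloChar.epsO_complexConjugation lam ι)
  obtain ⟨ρ, hρ1, -, -⟩ := Fermat.Agent.S35.SubEngine.exists_rep_of_sublattice SD.D S hlamS O''
    hlamO'' χ'' ι (CycloChar.eps lam)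
    (fun hℓ hℓp A hA σ hσ => CycloChar.eps_frobenius lam hℓ hℓp A hA σ hσ)
    (fun hq hqp P hP σ hσ => CycloChar.eps_inertia lam hq hqp P hP σ hσ)
    (fun n => ⟨CycloChar.cycloField lam n, CycloChar.finiteDimensional_cycloField lam n,
      fun σ hσ => CycloChar.eps_sub_one_mem lam n σ hσ⟩)
    (eigLattice SD.D c) hNl_le hrank
  refine ⟨O'', i1, i2, i3, i4, i5, i6, i7, i8, i9, hinj, ρ, ?_, ?_⟩
  · intro ℓ hℓ hℓM hℓS A hA σ hσ
    exact hρ1 ℓ hℓ hℓM hℓS A hA σ hσ
  · -- Steps 4-7: no unipotent inertia at `q² ∥ M`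
    intro q hq hqlam hfac huni
    have hSq : SqPrime M lam q := ⟨hq, hfac, hqlam⟩
    obtain ⟨P, hP, hinv⟩ := SD.inv q hSq
    -- transfer
    have htr : ∀ τ ∈ P.inertiaSubgroupIn ℚ, ∀ m ∈ eigLattice SD.D c,
        (SD.D.ρR ι τ).mulVec ((SD.D.ρR ι τ).mulVec m) - (SD.D.ρR ι τ).mulVec m
          - (SD.D.ρR ι τ).mulVec m + m = 0 := fun τ hτ =>
      Fermat.Agent.S36.Transfer.sq_sub_one_eq_zero SD.D S hlamS hMS hlamO'' ι χ'' ρ hρ1
        (eigLattice SD.D c) hNl_le hstM τ (huni P hP τ hτ)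
    -- Kolchin
    let ρG : ↥(P.inertiaSubgroupIn ℚ) →* Module.End O'' (Fin SD.D.r → O'') :=
      (SD.D.ρEnd ι).comp (Subgroup.subtype _)
    have hρG : ∀ (τ : ↥(P.inertiaSubgroupIn ℚ)) (m : Fin SD.D.r → O''),
        ρG τ m = (SD.D.ρR ι (τ : GQ)).mulVec m := fun τ m => SD.D.ρEnd_apply ι τ m
    obtain ⟨v, hvNl, hv0, hvfix⟩ := Fermat.Agent.S36.Kolchin.exists_ne_zero_fixed_mem ρG
      (eigLattice SD.D c) hNl_ne
      (fun τ m hm => by rw [hρG]; exact hstM τ m hm)
      (fun m _ hmm => by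
        funext i
        have h := congrFun hmm i
        rw [Pi.add_apply, Pi.zero_apply, ← two_mul] at h
        exact (mul_eq_zero.mp h).resolve_left two_ne_zero)
      (fun τ m hm => by
        rw [hρG, hρG]
        exact htr τ τ.2 m hm)
    -- newness + descent
    exact hv0 (eq_zero_of_fixed SD hg hSq P hinv ι c hc v hvNl
      (fun τ hτ => by
        have := hvfix ⟨τ, hτ⟩
        rwa [hρG] at this))

/-- The hres-free S36 at `(M, lam)` from the producer contract at `(M, lam)`, engine bricks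
discharged. -/
theorem s36_at {M : ℕ} [NeZero M] {g : CuspForm (CongruenceSubgroup.Gamma0 M) 2}
    (hg : g.IsNewform) (lam : ℕ) [Fact lam.Prime] (hSQ : Nonempty (SqData M lam))
    (S : Finset ℕ)
    (O' : Type) [CommRing O'] [IsDomain O'] [IsDiscreteValuationRing O']
    [IsAdicComplete (IsLocalRing.maximalIdeal O') O'] [Finite (IsLocalRing.ResidueField O')]
    [CharZero O'] (hlamO' : (lam : O') ∈ IsLocalRing.maximalIdeal O')
    (chig : CuspForm.heckeAlgebra M 2 (↑S : Set ℕ) →+* ℂ)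
    (hchig : ∀ (ℓ : ℕ) (hℓ : ℓ.Prime) (hℓM : ¬ ℓ ∣ M) (hℓS : ℓ ∉ (↑S : Set ℕ)),
      chig (CuspForm.heckeAlgebra.T hℓ hℓM hℓS) = ModularFormClass.qCoeff g ℓ)
    (iota : chig.range →+* O')
    (hlamS : lam ∈ S) (hMS : ∀ q : ℕ, q.Prime → q ∣ M → q ∈ S) :
    ∃ (O'' : Type) (_ : CommRing O'') (_ : IsDomain O'') (_ : IsDiscreteValuationRing O'')
      (_ : IsAdicComplete (IsLocalRing.maximalIdeal O'') O'')
      (_ : Finite (IsLocalRing.ResidueField O''))
      (_ : CharZero O'') (_ : Algebra O' O'') (_ : Module.Finite O' O'')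
      (_ : IsLocalHom (algebraMap O' O'')),
      Function.Injective (algebraMap O' O'') ∧
      ∃ ρ : GaloisRepAdic O'',
        (∀ (ℓ : ℕ) (hℓ : ℓ.Prime) (hℓM : ¬ ℓ ∣ M) (hℓS : ℓ ∉ (↑S : Set ℕ)),
          ∀ A : ValuationSubring (AlgebraicClosure ℚ), A.LiesOverPrime ℓ →
            ∀ σ : AlgebraicClosure ℚ ≃ₐ[ℚ] AlgebraicClosure ℚ, A.IsFrobeniusAt σ ℓ →
              LinearMap.charpoly (ρ.ρ σ) =
                X ^ 2 - C (algebraMap O' O'' ((iota.comp chig.rangeRestrict)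
                  (CuspForm.heckeAlgebra.T hℓ hℓM hℓS))) * X + C ((ℓ : O''))) ∧
        (∀ q : ℕ, q.Prime → q ≠ lam → M.factorization q = 2 →
          ¬ ρ.IsUnipotentOnInertiaAt q) :=
  result_of_sqData_at
    (QuadRel.quadRelStatement_of_density
      (fun L _ S g => Fermat.Agent.Lib.FrobeniusDensity.exists_frobenius_pow_eq L S g))
    ConjClifford.conjCliffordStatement hg lam hSQ S O' hlamO' chig hchig iota hlamS hMS

/-- **`WiringSq.S36CoreOdd` from the producer contract at the odd primes.** -/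
theorem s36CoreOdd_of_sqData_odd
    (hSQ : ∀ (M p : ℕ) [NeZero M] [Fact p.Prime], p ≠ 2 → Nonempty (SqData M p)) :
    Fermat.Agent.S58.WiringSq.S36CoreOdd := by
  intro M _ g hg lam _ S O' _ _ _ _ _ _ hlamO' hlam2 chig hchig iota hlamS hMS
  exact s36_at hg lam (hSQ M lam hlam2) S O' hlamO' chig hchig iota hlamS hMS

end Fermat.Agent.S58.S36At
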