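import Mathlib
import Fermat.Agent.S58.Hyps
import Fermat.Agent.S36.FinalOfGeom

set_option autoImplicit false

/-!
# S58: the hres-free form of S36 from the exit of the geometric part

`Hyps.S36Core` (the frozen statement S36 with its unused hypotheses `hlam2`, `hres` deleted) from
the single Prop `Fermat.Agent.S36.FinalOfInvK.InvKStatement`, along the same chain as
`Fermat.Agent.S36.FinalOfGeom.result_of_invK`, but ending in the hres-free
`Fermat.Agent.S36.Wiring.result_of_sqData`.
-/

namespace Fermat.Agent.S58.S36CoreOf

open Fermat.Agent.S30 Fermat.Agent.S36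

/-- **The hres-free S36 from the producer contract** (`Nonempty (SqData M p)` at all levels). -/
theorem s36Core_of_sqData
    (hSQ : ∀ (M p : ℕ) [NeZero M] [Fact p.Prime], Nonempty (SqData M p)) : Hyps.S36Core := by
  intro M _ g hg lam _ S O' _ _ _ _ _ _ hlamO' chig hchig iota hlamS hMS
  exact Wiring.result_of_sqData
    (QuadRel.quadRelStatement_of_density
      (fun L _ S g => Fermat.Agent.Lib.FrobeniusDensity.exists_frobenius_pow_eq L S g))
    ConjClifford.conjCliffordStatement hSQ hg lam S O' hlamO' chig hchig iota hlamS hMS

/-- **The hres-free S36 from the exit of the geometric part.** -/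
theorem s36Core_of_invK (hK : FinalOfInvK.InvKStatement) : Hyps.S36Core :=
  s36Core_of_sqData fun M p _ _ =>
    FinalOfInv.nonempty_sqData
      (FinalOfInvK.invStatement_of_invFun (FinalOfGeom.invFunStatement hK)) M p

end Fermat.Agent.S58.S36CoreOf
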