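import Fermat.Agent.S58.TransferE
import Fermat.Agent.S58.GoodInertia
import Fermat.Agent.S58.Unip
import Fermat.Agent.S58.FrobSmall.FrobAll

/-!
# S58, (TE1) / (TE2) without hypotheses on the curve side

The three E-side inputs of `S58.TransferE` are theorems:

* `FrobSmall.frobAll W : TransferE.FrobAll W` (helper177, `S58/FrobSmall/FrobAll.lean`);
* `unipBad W hΔ : TransferE.UnipBad W` (from `S58.Unip.inertia_sq`);
* `trivGood W : TransferE.TrivGood W` (from `S58.GoodInertia.inertia_trivial`).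

Hence, for an integral model `W` with `Δ ≠ 0` and an adic representation `ρ` over a Noetherian
local ring whose Frobenius characteristic polynomials are `X² - a_ℓ(W) X + ℓ` outside a finite
set `Sf ∋ p` containing the bad primes of `W`:

* `charpoly_inertia`, `isUnipotentOnInertiaAt` (`W` semistable): `ρ` is unipotent on inertia at
  every prime `q ≠ p`;
* `charpoly_frobenius`, `coeff_frobenius`: at every good prime `q ≠ p` a Frobenius element has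
  characteristic polynomial `X² - a_q(W) X + q`.
-/

set_option autoImplicit false

open Polynomial

namespace Fermat.Agent.S58.TransferW

open Fermat.Agent.S58

local notation "Qb" => AlgebraicClosure ℚ
local notation "Γ" => (AlgebraicClosure ℚ ≃ₐ[ℚ] AlgebraicClosure ℚ)

/-- Input (G): inertia at a good prime acts trivially on prime-to-`q` torsion. -/
theorem trivGood (W : WeierstrassCurve ℤ) : TransferE.TrivGood W :=
  fun _ hq hgood _ hB _ hτ _ hm P hP => GoodInertia.inertia_trivial W hq hgood hB hτ hm P hP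

/-- Input (U): inertia at a multiplicative prime acts unipotently on prime-to-`q` torsion. -/
theorem unipBad (W : WeierstrassCurve ℤ) (hΔ : W.Δ ≠ 0) : TransferE.UnipBad W :=
  fun _ hq hqΔ hqc _ hB _ hτ _ hm P hP => Unip.inertia_sq W hΔ hq hqΔ hqc hB hτ hm P hP

variable {W : WeierstrassCurve ℤ} {A : Type} [CommRing A] [IsLocalRing A] [IsNoetherianRing A]
  (ρ : GaloisRepAdic A) (Sf : Finset ℕ)

/-- **(TE1).**  Every element of an inertia group at a prime `q ≠ p` has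
`charpoly ρ(τ) = (X - 1)²`. -/
theorem charpoly_inertia (hΔ : W.Δ ≠ 0) (hss : W.IsSemistableModel)
    (hρ : ∀ ℓ : ℕ, ℓ.Prime → ℓ ∉ Sf → ∀ B : ValuationSubring Qb, B.LiesOverPrime ℓ →
      ∀ s : Γ, B.IsFrobeniusAt s ℓ →
        LinearMap.charpoly (ρ.ρ s) = X ^ 2 - C ((W.apOfModel ℓ : ℤ) : A) * X + C ((ℓ : ℕ) : A))
    {p : ℕ} (hp : p.Prime) (hpS : p ∈ Sf) (hpA : (p : A) ∈ IsLocalRing.maximalIdeal A)
    (hSf : ∀ ℓ : ℕ, ℓ.Prime → ℓ ∉ Sf → W.IsGoodPrimeFor ℓ)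
    {q : ℕ} (hq : q.Prime) (hqp : q ≠ p) (B : ValuationSubring Qb) (hB : B.LiesOverPrime q)
    (τ : Γ) (hτ : τ ∈ B.inertiaSubgroupIn ℚ) :
    LinearMap.charpoly (ρ.ρ τ) = (X - 1) ^ 2 :=
  TransferE.charpoly_inertia_of ρ Sf hΔ hss (FrobSmall.frobAll W) (unipBad W hΔ) (trivGood W)
    hρ hp hpS hpA hSf hq hqp B hB τ hτ

/-- **(TE1), packaged.**  `ρ` is unipotent on inertia at every prime `q ≠ p`. -/
theorem isUnipotentOnInertiaAt (hΔ : W.Δ ≠ 0) (hss : W.IsSemistableModel)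
    (hρ : ∀ ℓ : ℕ, ℓ.Prime → ℓ ∉ Sf → ∀ B : ValuationSubring Qb, B.LiesOverPrime ℓ →
      ∀ s : Γ, B.IsFrobeniusAt s ℓ →
        LinearMap.charpoly (ρ.ρ s) = X ^ 2 - C ((W.apOfModel ℓ : ℤ) : A) * X + C ((ℓ : ℕ) : A))
    {p : ℕ} (hp : p.Prime) (hpS : p ∈ Sf) (hpA : (p : A) ∈ IsLocalRing.maximalIdeal A)
    (hSf : ∀ ℓ : ℕ, ℓ.Prime → ℓ ∉ Sf → W.IsGoodPrimeFor ℓ)
    {q : ℕ} (hq : q.Prime) (hqp : q ≠ p) : ρ.IsUnipotentOnInertiaAt q :=
  TransferE.isUnipotentOnInertiaAt_of ρ Sf hΔ hss (FrobSmall.frobAll W) (unipBad W hΔ)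
    (trivGood W) hρ hp hpS hpA hSf hq hqp

/-- **(TE2), polynomial form.**  For a good prime `q ≠ p` (in `Sf` or not) and a Frobenius
element `σ` at `q`: `charpoly ρ(σ) = X² - a_q(W) X + q`. -/
theorem charpoly_frobenius (hΔ : W.Δ ≠ 0)
    (hρ : ∀ ℓ : ℕ, ℓ.Prime → ℓ ∉ Sf → ∀ B : ValuationSubring Qb, B.LiesOverPrime ℓ →
      ∀ s : Γ, B.IsFrobeniusAt s ℓ →
        LinearMap.charpoly (ρ.ρ s) = X ^ 2 - C ((W.apOfModel ℓ : ℤ) : A) * X + C ((ℓ : ℕ) : A))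
    {p : ℕ} (hp : p.Prime) (hpS : p ∈ Sf) (hpA : (p : A) ∈ IsLocalRing.maximalIdeal A)
    (hSf : ∀ ℓ : ℕ, ℓ.Prime → ℓ ∉ Sf → W.IsGoodPrimeFor ℓ)
    {q : ℕ} (hq : q.Prime) (hqp : q ≠ p) (hgood : W.IsGoodPrimeFor q)
    (B : ValuationSubring Qb) (hB : B.LiesOverPrime q) (σ : Γ) (hσ : B.IsFrobeniusAt σ q) :
    LinearMap.charpoly (ρ.ρ σ) =
      X ^ 2 - C ((W.apOfModel q : ℤ) : A) * X + C ((q : ℕ) : A) :=
  TransferE.charpoly_frobenius_of ρ Sf hΔ (FrobSmall.frobAll W) hρ hp hpS hpA hSf hq hqp hgood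
    B hB σ hσ

/-- **(TE2).**  For a good prime `q ≠ p` and a Frobenius element `σ` at `q`: if
`charpoly ρ(σ) = X² - c X + d` then `c = a_q(W)` and `d = q`. -/
theorem coeff_frobenius (hΔ : W.Δ ≠ 0)
    (hρ : ∀ ℓ : ℕ, ℓ.Prime → ℓ ∉ Sf → ∀ B : ValuationSubring Qb, B.LiesOverPrime ℓ →
      ∀ s : Γ, B.IsFrobeniusAt s ℓ →
        LinearMap.charpoly (ρ.ρ s) = X ^ 2 - C ((W.apOfModel ℓ : ℤ) : A) * X + C ((ℓ : ℕ) : A))
    {p : ℕ} (hp : p.Prime) (hpS : p ∈ Sf) (hpA : (p : A) ∈ IsLocalRing.maximalIdeal A)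
    (hSf : ∀ ℓ : ℕ, ℓ.Prime → ℓ ∉ Sf → W.IsGoodPrimeFor ℓ)
    {q : ℕ} (hq : q.Prime) (hqp : q ≠ p) (hgood : W.IsGoodPrimeFor q)
    (B : ValuationSubring Qb) (hB : B.LiesOverPrime q) (σ : Γ) (hσ : B.IsFrobeniusAt σ q)
    (c d : A) (hc : LinearMap.charpoly (ρ.ρ σ) = X ^ 2 - C c * X + C d) :
    c = ((W.apOfModel q : ℤ) : A) ∧ d = ((q : ℕ) : A) :=
  TransferE.coeff_frobenius_of ρ Sf hΔ (FrobSmall.frobAll W) hρ hp hpS hpA hSf hq hqp hgood
    B hB σ hσ c d hc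

end Fermat.Agent.S58.TransferW
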